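import Fermat.Agent.FF.RiemannRoch

/-!
# Reduced bases of a function field over `K[x]`

For a nonconstant `x` we construct a basis `b` of `F / K(x)` and weights `e` such that, for every
`N`, the Riemann-Roch space of `N` times the polar divisor of `x` consists of the sums
`∑ Pᵢ(x) bᵢ` with `deg Pᵢ + eᵢ ≤ N`.
-/

set_option autoImplicit false

noncomputable section

open scoped Classical
open AlgebraicCurve Polynomial IntermediateField

namespace Fermat.Agent.RedTorsion

open Fermat.Agent.FF

set_option linter.unusedSectionVars false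

variable {K F : Type*} [Field K] [Field F] [Algebra K F]

/-- At a pole of `x`, a polynomial in `x` has the order of its leading term. -/
theorem ord_aeval_of_pole (v : Place K F) {x : F} (hx : v.ord x < 0) (p : K[X]) (hp : p ≠ 0) :
    aeval x p ≠ 0 ∧ v.ord (aeval x p) = p.natDegree * v.ord x := by
  have hx0 : x ≠ 0 := by rintro rfl; simp at hx
  induction hn : p.natDegree using Nat.strong_induction_on generalizing p with
  | _ d ih =>
    have hlc : algebraMap K F p.leadingCoeff ≠ 0 := by simpa using hp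
    set f : F := algebraMap K F p.leadingCoeff * x ^ d with hf
    have hf0 : f ≠ 0 := mul_ne_zero hlc (pow_ne_zero _ hx0)
    have hfo : v.ord f = d * v.ord x := by
      rw [hf, v.ord_mul hlc (pow_ne_zero _ hx0), ord_algebraMap, ord_pow, zero_add]
    have hsum : aeval x p = f + aeval x p.eraseLead := by
      conv_lhs => rw [← p.eraseLead_add_C_mul_X_pow]
      simp [hf, hn, add_comm]
    rw [hsum]
    by_cases he : p.eraseLead = 0
    · simp [he, hf0, hfo]
    · have hd : p.eraseLead.natDegree < d := by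
        rcases p.eraseLead_natDegree_lt_or_eraseLead_eq_zero with h | h
        · omega
        · exact absurd h he
      obtain ⟨h0, h1⟩ := ih _ hd _ he rfl
      obtain ⟨h2, h3⟩ := ord_add_eq_left v hf0 (g := aeval x p.eraseLead) (Or.inr (by
        rw [h1, hfo]
        have : (p.eraseLead.natDegree : ℤ) < d := by exact_mod_cast hd
        nlinarith))
      exact ⟨h2, h3.trans hfo⟩

/-- `p(x)` as an element of `K(x)`. -/
def aevalGen (x : F) (p : K[X]) : K⟮x⟯ :=
  ⟨aeval x p, IntermediateField.algebra_adjoin_le_adjoin K _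
    (Algebra.adjoin_singleton_eq_range_aeval K x ▸ ⟨p, rfl⟩)⟩

@[simp] theorem coe_aevalGen (x : F) (p : K[X]) : (aevalGen x p : F) = aeval x p := rfl

theorem aevalGen_ne_zero {x : F} (hx : Transcendental K x) {p : K[X]} (hp : p ≠ 0) :
    aevalGen x p ≠ 0 := fun h => aeval_ne_zero hx hp (congrArg Subtype.val h)

theorem exists_common_den {ι : Type*} [Fintype ι] {x : F} (hx : Transcendental K x)
    (c : ι → K⟮x⟯) :
    ∃ (Q : K[X]) (P : ι → K[X]), Q ≠ 0 ∧ ∀ i, aeval x Q * (c i : F) = aeval x (P i) := by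
  have h : ∀ i, ∃ r s : K[X], s ≠ 0 ∧ (c i : F) = aeval x r / aeval x s := by
    intro i
    obtain ⟨r, s, hrs⟩ := (mem_adjoin_simple_iff (F := K) (c i : F)).mp (c i).2
    by_cases hs : s = 0
    · exact ⟨0, 1, one_ne_zero, by simp [hrs, hs]⟩
    · exact ⟨r, s, hs, hrs⟩
  choose r s hs hc using h
  refine ⟨∏ i, s i, fun i => r i * ∏ j ∈ Finset.univ.erase i, s j,
    Finset.prod_ne_zero_iff.mpr fun i _ => hs i, fun i => ?_⟩
  rw [hc i, ← Finset.mul_prod_erase Finset.univ s (Finset.mem_univ i), map_mul, map_mul]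
  field_simp [aeval_ne_zero hx (hs i)]

/-- A root of a monic relation with regular coefficients is regular. -/
theorem mem_ordGe_zero_of_monic_rel (v : Place K F) {z : F} {d : ℕ} {a : ℕ → F}
    (ha : ∀ i, a i ∈ ordGe v 0) (h : z ^ d + ∑ i ∈ Finset.range d, a i * z ^ i = 0) :
    z ∈ ordGe v 0 := by
  rcases eq_or_ne z 0 with rfl | hz
  · simp
  by_contra hc
  have ht : v.ord z < 0 := by
    by_contra h'
    exact hc (mem_ordGe_of_le v (not_lt.mp h'))
  have h1 : z ^ d ∈ ordGe v (((d : ℤ) - 1) * v.ord z) := by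
    rw [eq_neg_of_add_eq_zero_left h]
    refine neg_mem (sum_mem fun i hi => ?_)
    refine ordGe_anti v ?_ (mul_mem_ordGe v (ha i)
      (pow_mem_ordGe v (mem_ordGe_of_le v (le_refl (v.ord z))) i))
    have : (i : ℤ) + 1 ≤ d := by exact_mod_cast Finset.mem_range.mp hi
    nlinarith
  have h2 := le_ord_of_mem_ordGe v (pow_ne_zero _ hz) h1
  rw [ord_pow] at h2
  nlinarith

theorem exists_clear [IsFunctionField K F] {x : F} (hx : Transcendental K x) (f : F) :
    ∃ p : K[X], p ≠ 0 ∧ ∀ v : Place K F, 0 ≤ v.ord x → aeval x p * f ∈ ordGe v 0 := by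
  have := finiteDimensional_adjoin (K := K) hx
  have hint : IsIntegral K⟮x⟯ f := Algebra.IsIntegral.isIntegral f
  set m := minpoly K⟮x⟯ f with hm
  set d := m.natDegree with hd
  obtain ⟨Q, P, hQ, hQP⟩ := exists_common_den hx (fun i : Fin d => m.coeff i)
  refine ⟨Q, hQ, fun v hv => ?_⟩
  have hreg : ∀ p : K[X], aeval x p ∈ ordGe v 0 := fun p => by
    rw [mem_ordGe_zero]
    exact aeval_mem_valuationSubring v ((mem_iff v).mpr (Or.inr hv)) p
  let a : ℕ → F := fun i =>
    if h : i < d then aeval x (P ⟨i, h⟩) * aeval x Q ^ (d - 1 - i) else 0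
  refine mem_ordGe_zero_of_monic_rel v (d := d) (a := a) (fun i => ?_) ?_
  · simp only [a]
    split_ifs with h
    · have := mul_mem_ordGe v (hreg (P ⟨i, h⟩)) (pow_mem_ordGe v (hreg Q) (d - 1 - i))
      simpa using this
    · exact zero_mem _
  · have h0 : aeval f m = 0 := minpoly.aeval _ _
    rw [aeval_eq_sum_range, Finset.sum_range_succ, (minpoly.monic hint).coeff_natDegree,
      one_smul, ← hd] at h0
    have h1 : aeval x Q ^ d * (∑ i ∈ Finset.range d, m.coeff i • f ^ i + f ^ d) = 0 := by
      rw [h0, mul_zero]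
    rw [← h1, mul_add, mul_pow, add_comm, Finset.mul_sum]
    congr 1
    refine Finset.sum_congr rfl fun i hi => ?_
    have hi' : i < d := Finset.mem_range.mp hi
    simp only [a, dif_pos hi']
    rw [← hQP, IntermediateField.smul_def, smul_eq_mul]
    have hsplit : d = (d - 1 - i) + (i + 1) := by omega
    conv_rhs => enter [1, 2]; rw [hsplit]
    rw [mul_pow, pow_add, pow_succ]
    ring

variable [IsFunctionField K F]

theorem poles_mem_ordGe (v : Place K F) (x : F) : x ∈ ordGe v (-poles K x v) :=
  mem_ordGe_of_le v (by rw [poles_apply]; omega)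

theorem aeval_mem_ordGe (v : Place K F) (x : F) {p : K[X]} {n : ℕ} (hp : p.natDegree ≤ n) :
    aeval x p ∈ ordGe v (-(n * poles K x v)) := by
  rw [aeval_eq_sum_range]
  refine sum_mem fun i hi => ?_
  refine Submodule.smul_mem _ _ ?_
  have hi' : i ≤ n := by have := Finset.mem_range.mp hi; omega
  refine ordGe_anti v ?_ (pow_mem_ordGe v (poles_mem_ordGe v x) i)
  have h0 : 0 ≤ poles K x v := by simp
  have : (i : ℤ) ≤ n := by exact_mod_cast hi'
  nlinarith

theorem nsmul_poles_apply (v : Place K F) (x : F) (N : ℕ) :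
    ((N • poles K x : Divisor K F)) v = N * poles K x v := by
  rw [Finsupp.smul_apply, nsmul_eq_mul]

theorem mem_polesSpace {x f : F} {N : ℕ} :
    f ∈ riemannRochSpace (N • poles K x) ↔
      ∀ v : Place K F, f ∈ ordGe v (-(N * poles K x v)) := by
  simp only [mem_riemannRochSpace', nsmul_poles_apply]

theorem polesSpace_mono {x : F} {M N : ℕ} (h : M ≤ N) :
    riemannRochSpace (M • poles K x) ≤ riemannRochSpace (N • poles K x) :=
  riemannRochSpace_mono (nsmul_le_nsmul_left (poles_nonneg x) h)

/-- Every function regular away from the poles of `x` lies in some `L(N·(x)_∞)`. -/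
theorem exists_mem_polesSpace {x f : F}
    (h : ∀ v : Place K F, 0 ≤ v.ord x → f ∈ ordGe v 0) :
    ∃ N : ℕ, f ∈ riemannRochSpace (N • poles K x) := by
  refine ⟨∑ v ∈ (finite_poles (K := K) f).toFinset, (v.ord f).natAbs,
    mem_polesSpace.mpr fun v => ?_⟩
  by_cases hv : 0 ≤ v.ord x
  · exact ordGe_anti v (by simp [poles_apply, hv]) (h v hv)
  · refine mem_ordGe_of_le v ?_
    set S := ∑ v ∈ (finite_poles (K := K) f).toFinset, (v.ord f).natAbs
    have hp : 1 ≤ poles K x v := by rw [poles_apply]; omega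
    have hS : (0 : ℤ) ≤ S := Int.natCast_nonneg _
    by_cases hf : v.ord f < 0
    · have : (v.ord f).natAbs ≤ S := Finset.single_le_sum (f := fun v => (v.ord f).natAbs)
        (fun _ _ => Nat.zero_le _) ((finite_poles (K := K) f).mem_toFinset.mpr hf)
      have : -v.ord f ≤ S := by omega
      nlinarith
    · nlinarith

/-- An element of `L(N (x)_∞)` which vanishes at all poles of `x` to order more than prescribed
by `N = 0` is zero. -/
theorem eq_zero_of_vanish_at_poles {x f : F} (hx : Transcendental K x)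
    (h : ∀ v : Place K F, 0 ≤ v.ord x → f ∈ ordGe v 0)
    (h' : ∀ v : Place K F, v.ord x < 0 → f ∈ ordGe v 1) : f = 0 := by
  obtain ⟨v₀, hv₀⟩ := exists_ord_neg_of_transcendental (K := K) hx
  refine eq_zero_of_forall_ord_nonneg (fun v => ?_) v₀ (h' v₀ hv₀)
  rcases eq_or_ne f 0 with rfl | hf
  · simp
  by_cases hv : 0 ≤ v.ord x
  · exact le_ord_of_mem_ordGe v hf (h v hv)
  · have := le_ord_of_mem_ordGe v hf (h' v (by omega))
    omega

/-- A reduced basis. -/
structure IsReduced {ι : Type*} [Fintype ι] (x : F) (b : ι → F) (e : ι → ℕ) : Prop where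
  indep : LinearIndependent K⟮x⟯ b
  mem : ∀ i, b i ∈ riemannRochSpace (e i • poles K x)
  repr : ∀ (N : ℕ) (y : F), y ∈ riemannRochSpace (N • poles K x) →
    ∃ P : ι → K[X], y = ∑ i, aeval x (P i) * b i ∧ ∀ i, P i ≠ 0 → (P i).natDegree + e i ≤ N

theorem linearIndependent_update {ι : Type*} [Fintype ι] [DecidableEq ι] {R M : Type*} [Field R] [AddCommGroup M]
    [Module R M] {b : ι → M} (hb : LinearIndependent R b) (c : ι → R) {j : ι} (hj : c j ≠ 0) :
    LinearIndependent R (Function.update b j (∑ i, c i • b i)) := by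
  rw [Fintype.linearIndependent_iff] at hb ⊢
  intro g hg
  have hg' : ∑ i, ((if i = j then 0 else g i) + g j * c i) • b i = 0 := by
    rw [← hg]
    simp only [add_smul, Finset.sum_add_distrib, mul_smul, ← Finset.smul_sum]
    rw [← Finset.add_sum_erase _ _ (Finset.mem_univ j),
      ← Finset.add_sum_erase _ (fun i => g i • Function.update b j _ i) (Finset.mem_univ j)]
    simp only [if_pos, zero_smul, zero_add, Function.update_self]
    rw [add_comm]
    refine congrArg _ (Finset.sum_congr rfl fun i hi => ?_)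
    rw [if_neg (Finset.ne_of_mem_erase hi), Function.update_of_ne (Finset.ne_of_mem_erase hi)]
  have h := hb _ hg'
  have hgj : g j = 0 := by simpa [hj] using h j
  intro i
  rcases eq_or_ne i j with rfl | hij
  · exact hgj
  · simpa [hij, hgj] using h i

/-- Independent tuples in the spaces `L(eᵢ (x)_∞)` of total weight `s`. -/
def IsTuple (x : F) (n s : ℕ) : Prop :=
  ∃ (b : Fin n → F) (e : Fin n → ℕ), LinearIndependent K⟮x⟯ b ∧
    (∀ i, b i ∈ riemannRochSpace (e i • poles K x)) ∧ ∑ i, e i = s

theorem exists_isTuple {x : F} (hx : Transcendental K x) :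
    ∃ s, IsTuple (K := K) x (Module.finrank K⟮x⟯ F) s := by
  have := finiteDimensional_adjoin (K := K) hx
  let B := Module.finBasis K⟮x⟯ F
  have hclear : ∀ i, ∃ N : ℕ, ∃ p : K[X], p ≠ 0 ∧
      aeval x p * B i ∈ riemannRochSpace (N • poles K x) := by
    intro i
    obtain ⟨p, hp, hreg⟩ := exists_clear (K := K) hx (B i)
    obtain ⟨N, hN⟩ := exists_mem_polesSpace hreg
    exact ⟨N, p, hp, hN⟩
  choose N₀ p₀ hp₀ hN₀ using hclear
  refine ⟨∑ i, N₀ i, fun i => aeval x (p₀ i) * B i, N₀, ?_, hN₀, rfl⟩
  have hB := Fintype.linearIndependent_iff.mp B.linearIndependent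
  rw [Fintype.linearIndependent_iff]
  intro g hg i
  have h1 : ∑ i, (g i * aevalGen x (p₀ i)) • B i = 0 := by
    rw [← hg]
    refine Finset.sum_congr rfl fun i _ => ?_
    simp only [IntermediateField.smul_def, smul_eq_mul, IntermediateField.coe_mul, coe_aevalGen,
      mul_assoc]
  exact (mul_eq_zero.mp (hB _ h1 i)).resolve_right (aevalGen_ne_zero hx (hp₀ i))

theorem sum_update_lt {n : ℕ} (e : Fin n → ℕ) (j : Fin n) (he : 0 < e j) :
    ∑ i, Function.update e j (e j - 1) i < ∑ i, e i := by
  refine Finset.sum_lt_sum (fun i _ => ?_) ⟨j, Finset.mem_univ j, by simp; omega⟩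
  rcases eq_or_ne i j with rfl | hij
  · simp
  · simp [hij]

/-- A tuple of least weight cannot be improved. -/
theorem not_improvable {x : F} (hx : Transcendental K x) {n s : ℕ} {b : Fin n → F}
    {e : Fin n → ℕ} (hb : LinearIndependent K⟮x⟯ b)
    (hmem : ∀ i, b i ∈ riemannRochSpace (e i • poles K x)) (hs : ∑ i, e i = s)
    (hmin : ∀ t < s, ¬ IsTuple (K := K) x n t) (c : Fin n → K⟮x⟯) (j : Fin n) (hj : c j ≠ 0)
    (hreg : ∀ v : Place K F, 0 ≤ v.ord x → (∑ i, c i • b i) ∈ ordGe v 0)
    (hpole : ∀ v : Place K F, v.ord x < 0 →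
      (∑ i, c i • b i) ∈ ordGe v (-(((e j : ℤ) - 1) * poles K x v))) : False := by
  rcases Nat.eq_zero_or_pos (e j) with he | he
  · have hw0 : ∑ i, c i • b i = 0 := eq_zero_of_vanish_at_poles hx hreg fun v hv =>
      ordGe_anti v (by rw [he, poles_apply]; omega) (hpole v hv)
    exact hj (Fintype.linearIndependent_iff.mp hb c hw0 j)
  · have hw' : (∑ i, c i • b i) ∈ riemannRochSpace ((e j - 1) • poles K x) :=
      mem_polesSpace.mpr fun v => by
        by_cases hv : 0 ≤ v.ord x
        · exact ordGe_anti v (by simp [poles_apply, hv]) (hreg v hv)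
        · have := hpole v (by omega)
          rwa [Nat.cast_sub he, Nat.cast_one]
    refine hmin _ (hs ▸ sum_update_lt e j he)
      ⟨Function.update b j (∑ i, c i • b i), Function.update e j (e j - 1),
        linearIndependent_update hb c hj, fun i => ?_, rfl⟩
    rcases eq_or_ne i j with rfl | hij
    · simpa using hw'
    · simpa [hij] using hmem i

theorem exists_reduced {x : F} (hx : Transcendental K x) :
    ∃ (b : Fin (Module.finrank K⟮x⟯ F) → F) (e : Fin (Module.finrank K⟮x⟯ F) → ℕ),
      IsReduced (K := K) x b e := by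
  have := finiteDimensional_adjoin (K := K) hx
  have hex := exists_isTuple (K := K) hx
  set n := Module.finrank K⟮x⟯ F with hn
  obtain ⟨b, e, hb, hmem, hs⟩ := Nat.find_spec hex
  refine ⟨b, e, hb, hmem, ?_⟩
  have himp := not_improvable hx hb hmem hs (fun t ht => Nat.find_min hex ht)
  intro N y hy
  -- coordinates
  have hspan : y ∈ Submodule.span K⟮x⟯ (Set.range b) := by
    rw [hb.span_eq_top_of_card_eq_finrank' (by simp [← hn])]
    trivial
  obtain ⟨c, hc⟩ := (Submodule.mem_span_range_iff_exists_fun _).mp hspan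
  obtain ⟨Q, P, hQ, hQP⟩ := exists_common_den hx c
  have hQy : aeval x Q * y = ∑ i, aeval x (P i) * b i := by
    rw [← hc, Finset.mul_sum]
    refine Finset.sum_congr rfl fun i _ => ?_
    rw [IntermediateField.smul_def, smul_eq_mul, ← mul_assoc, hQP]
  set S : Fin n → K[X] := fun i => P i / Q with hS
  set R : Fin n → K[X] := fun i => P i % Q with hR
  have hdiv : ∀ i, Q * S i + R i = P i := fun i => EuclideanDomain.div_add_mod _ _
  set z : F := y - ∑ i, aeval x (S i) * b i with hz
  have hQz : aeval x Q * z = ∑ i, aeval x (R i) * b i := by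
    rw [hz, mul_sub, hQy, Finset.mul_sum, ← Finset.sum_sub_distrib]
    refine Finset.sum_congr rfl fun i _ => ?_
    conv_lhs => rw [← hdiv i]
    simp only [map_add, map_mul]
    ring
  have hSb : ∀ (i : Fin n) (v : Place K F), 0 ≤ v.ord x → aeval x (S i) * b i ∈ ordGe v 0 := by
    intro i v hv
    have h1 := mul_mem_ordGe v (aeval_mem_ordGe v x (p := S i) le_rfl)
      (mem_polesSpace.mp (hmem i) v)
    exact ordGe_anti v (by simp [poles_apply, hv]) h1
  have hR0 : ∀ i, R i = 0 := by
    by_contra! hne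
    obtain ⟨i₁, hi₁⟩ := hne
    obtain ⟨j, hj, hjmax⟩ := Finset.exists_max_image (Finset.univ.filter fun i => R i ≠ 0) e
      ⟨i₁, by simp [hi₁]⟩
    simp only [Finset.mem_filter, Finset.mem_univ, true_and] at hj hjmax
    have hzc : z = ∑ i, (aevalGen x (R i) / aevalGen x Q) • b i := by
      refine mul_left_cancel₀ (aeval_ne_zero hx hQ) ?_
      rw [hQz, Finset.mul_sum]
      refine Finset.sum_congr rfl fun i _ => ?_
      rw [IntermediateField.smul_def, smul_eq_mul, IntermediateField.coe_div, coe_aevalGen,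
        coe_aevalGen]
      field_simp [aeval_ne_zero hx hQ]
    refine himp (fun i => aevalGen x (R i) / aevalGen x Q) j (div_ne_zero (aevalGen_ne_zero hx hj) (aevalGen_ne_zero hx hQ))
      (fun v hv => ?_) (fun v hv => ?_)
    · rw [← hzc, hz]
      exact sub_mem (ordGe_anti v (by simp [poles_apply, hv]) (mem_polesSpace.mp hy v))
        (sum_mem fun i _ => hSb i v hv)
    · rw [← hzc]
      obtain ⟨hQ0, hQo⟩ := ord_aeval_of_pole v hv Q hQ
      have hzQ : z = (aeval x Q)⁻¹ * ∑ i, aeval x (R i) * b i := by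
        rw [← hQz, ← mul_assoc, inv_mul_cancel₀ hQ0, one_mul]
      rw [hzQ, Finset.mul_sum]
      refine sum_mem fun i _ => ?_
      by_cases hi : R i = 0
      · simp [hi]
      have hdeg : (R i).natDegree + 1 ≤ Q.natDegree :=
        Polynomial.natDegree_lt_natDegree hi (EuclideanDomain.mod_lt (P i) hQ)
      have h1 := mul_mem_ordGe v (mem_ordGe_of_le v (le_refl (v.ord (aeval x Q)⁻¹)))
        (mul_mem_ordGe v (aeval_mem_ordGe v x (p := R i) le_rfl) (mem_polesSpace.mp (hmem i) v))
      refine ordGe_anti v ?_ h1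
      rw [v.ord_inv, hQo, poles_apply, max_eq_right (by omega)]
      have h2 : (e i : ℤ) ≤ e j := by exact_mod_cast hjmax i hi
      have h3 : ((R i).natDegree : ℤ) + 1 ≤ Q.natDegree := by exact_mod_cast hdeg
      nlinarith
  have hys : y = ∑ i, aeval x (S i) * b i := by
    have : aeval x Q * z = 0 := by rw [hQz]; simp [hR0]
    exact sub_eq_zero.mp ((mul_eq_zero.mp this).resolve_left (aeval_ne_zero hx hQ))
  refine ⟨S, hys, ?_⟩
  by_contra! hbad
  obtain ⟨i₀, hi₀, hi₀N⟩ := hbad
  obtain ⟨i₁, hi₁, hi₁max⟩ := Finset.exists_max_image (Finset.univ.filter fun i => S i ≠ 0)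
    (fun i => (S i).natDegree + e i) ⟨i₀, by simp [hi₀]⟩
  simp only [Finset.mem_filter, Finset.mem_univ, true_and] at hi₁ hi₁max
  set d := (S i₁).natDegree + e i₁ with hd
  have hNd : N < d := lt_of_lt_of_le hi₀N (hi₁max i₀ hi₀)
  set T := Finset.univ.filter fun i => S i ≠ 0 ∧ (S i).natDegree + e i = d with hT
  obtain ⟨j, hj, hjmax⟩ := Finset.exists_max_image T e ⟨i₁, by simp [hT, hi₁, hd]⟩
  simp only [hT, Finset.mem_filter, Finset.mem_univ, true_and] at hj hjmax
  have hje : e j ≤ d := by omega
  let c : Fin n → K⟮x⟯ := fun i => if S i ≠ 0 ∧ (S i).natDegree + e i = d then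
    aevalGen x (C (S i).leadingCoeff * X ^ (e j - e i)) else 0
  -- the lower part
  let S' : Fin n → K[X] := fun i =>
    if S i ≠ 0 ∧ (S i).natDegree + e i = d then (S i).eraseLead else S i
  have hsplit : x ^ (d - e j) * (∑ i, c i • b i) = y - ∑ i, aeval x (S' i) * b i := by
    rw [hys, ← Finset.sum_sub_distrib, Finset.mul_sum]
    refine Finset.sum_congr rfl fun i _ => ?_
    simp only [c, S', IntermediateField.smul_def, smul_eq_mul]
    split_ifs with hi
    · rw [coe_aevalGen]
      have h1 := hjmax i hi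
      conv_rhs => enter [1, 1]; rw [← (S i).eraseLead_add_C_mul_X_pow]
      simp only [map_add, map_mul, aeval_C, map_pow, aeval_X]
      rw [show (S i).natDegree = (d - e j) + (e j - e i) by omega, pow_add]
      ring
    · simp
  have hS' : ∀ i, S' i ≠ 0 → (S' i).natDegree + e i + 1 ≤ d := by
    intro i hi
    simp only [S'] at hi ⊢
    split_ifs at hi ⊢ with h
    · have := ((S i).eraseLead_natDegree_lt_or_eraseLead_eq_zero).resolve_right hi
      omega
    · have := hi₁max i hi
      have : (S i).natDegree + e i ≠ d := fun h' => h ⟨hi, h'⟩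
      omega
  have hcj : c j ≠ 0 := by
    simp only [c, if_pos hj]
    exact aevalGen_ne_zero hx (mul_ne_zero (by simpa using hj.1) (pow_ne_zero _ X_ne_zero))
  refine himp c j hcj (fun v hv => ?_) (fun v hv => ?_)
  · refine sum_mem fun i _ => ?_
    simp only [c, IntermediateField.smul_def, smul_eq_mul]
    split_ifs
    · rw [coe_aevalGen]
      exact ordGe_anti v (by simp [poles_apply, hv])
        (mul_mem_ordGe v (aeval_mem_ordGe v x le_rfl) (mem_polesSpace.mp (hmem i) v))
    · simp
  · have hx0 : x ≠ 0 := by rintro rfl; simp at hv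
    have hp : poles K x v = -v.ord x := by rw [poles_apply]; omega
    have h1 : (y - ∑ i, aeval x (S' i) * b i) ∈ ordGe v (-(((d : ℤ) - 1) * poles K x v)) := by
      refine sub_mem (ordGe_anti v ?_ (mem_polesSpace.mp hy v)) (sum_mem fun i _ => ?_)
      · have : (N : ℤ) + 1 ≤ d := by exact_mod_cast hNd
        rw [hp]; nlinarith
      · by_cases hi : S' i = 0
        · simp [hi]
        refine ordGe_anti v ?_ (mul_mem_ordGe v (aeval_mem_ordGe v x (p := S' i) le_rfl)
          (mem_polesSpace.mp (hmem i) v))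
        have := hS' i hi
        have : ((S' i).natDegree : ℤ) + e i + 1 ≤ d := by exact_mod_cast this
        rw [hp]; nlinarith
    have h2 := mul_mem_ordGe v
      (mem_ordGe_of_le v (le_refl (v.ord (x ^ (d - e j))⁻¹))) h1
    rw [← hsplit, ← mul_assoc, inv_mul_cancel₀ (pow_ne_zero _ hx0), one_mul] at h2
    refine ordGe_anti v ?_ h2
    rw [v.ord_inv, ord_pow, hp, Nat.cast_sub hje]
    nlinarith

namespace IsReduced

variable {ι : Type*} [Fintype ι] {x : F} {b : ι → F} {e : ι → ℕ}

theorem comb_mem (h : IsReduced (K := K) x b e) {N : ℕ} (P : ι → K[X])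
    (hP : ∀ i, P i ≠ 0 → (P i).natDegree + e i ≤ N) :
    ∑ i, aeval x (P i) * b i ∈ riemannRochSpace (N • poles K x) := by
  refine sum_mem fun i _ => mem_polesSpace.mpr fun v => ?_
  by_cases hi : P i = 0
  · simp [hi]
  refine ordGe_anti v ?_
    (mul_mem_ordGe v (aeval_mem_ordGe v x (p := P i) le_rfl) (mem_polesSpace.mp (h.mem i) v))
  have h1 : ((P i).natDegree : ℤ) + e i ≤ N := by exact_mod_cast hP i hi
  have h0 : 0 ≤ poles K x v := by simp
  nlinarith

theorem coeff_unique (h : IsReduced (K := K) x b e) (hx : Transcendental K x) {P P' : ι → K[X]}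
    (hPP : ∑ i, aeval x (P i) * b i = ∑ i, aeval x (P' i) * b i) : P = P' := by
  funext i
  have h0 : ∑ i, aevalGen x (P i - P' i) • b i = 0 := by
    simp only [IntermediateField.smul_def, smul_eq_mul, coe_aevalGen, map_sub, sub_mul,
      Finset.sum_sub_distrib, hPP, sub_self]
  have := Fintype.linearIndependent_iff.mp h.indep _ h0 i
  by_contra hne
  exact aevalGen_ne_zero hx (sub_ne_zero.mpr hne) this

theorem ell_eq (h : IsReduced (K := K) x b e) (hx : Transcendental K x) {N : ℕ}
    (hN : ∀ i, e i ≤ N) :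
    ell K (N • poles K x) = ∑ i, ((N : ℤ) + 1 - e i) := by
  let φ : ((i : ι) → ↥(degreeLT K (N + 1 - e i))) →ₗ[K] riemannRochSpace (N • poles K x) :=
    { toFun := fun P => ⟨∑ i, aeval x (P i).1 * b i, h.comb_mem (fun i => (P i).1) fun i hi => by
        have h1 := (natDegree_lt_iff_degree_lt hi).mpr (mem_degreeLT.mp (P i).2)
        have := hN i
        omega⟩
      map_add' := fun P P' => Subtype.ext (by simp [add_mul, Finset.sum_add_distrib])
      map_smul' := fun a P => Subtype.ext (by
        simp [Finset.smul_sum]) }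
  have hφ : Function.Bijective φ := by
    refine ⟨fun P P' hPP => ?_, fun y => ?_⟩
    · have := h.coeff_unique hx (P := fun i => (P i).1) (P' := fun i => (P' i).1)
        (congrArg Subtype.val hPP)
      exact funext fun i => Subtype.ext (congrFun this i)
    · obtain ⟨P, hy, hP⟩ := h.repr N y.1 y.2
      refine ⟨fun i => ⟨P i, mem_degreeLT.mpr ?_⟩, Subtype.ext hy.symm⟩
      by_cases hi : P i = 0
      · simp [hi]
      · rw [← natDegree_lt_iff_degree_lt hi]
        have := hP i hi
        omega
  unfold ell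
  have : ∀ i, Module.Finite K (degreeLT K (N + 1 - e i)) := fun i =>
    Module.Finite.equiv (degreeLTEquiv K _).symm
  rw [← (LinearEquiv.ofBijective φ hφ).finrank_eq, Module.finrank_pi_fintype, Nat.cast_sum]
  refine Finset.sum_congr rfl fun i _ => ?_
  rw [(degreeLTEquiv K _).finrank_eq, Module.finrank_fin_fun, Nat.cast_sub (by have := hN i; omega)]
  push_cast
  ring

end IsReduced

end Fermat.Agent.RedTorsion

end
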