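import Mathlib
import Fermat.Prelude.Def_ModularCurve_X0ModL
import Fermat.Prelude.Def_FLTPrelim_Ramification

/-!
# Laurent series with coefficients in a valuation ring of algebraic numbers

`serInt A` is the ring of series with coefficients in `A`, `serRed A` its coefficientwise
reduction. Series with coefficients in a number field and bounded denominators are constants
times primitive series.
-/

set_option autoImplicit false
set_option linter.unusedSectionVars false

noncomputable section

open IsLocalRing ModularCurve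
open scoped Classical

namespace Fermat.Agent.RedTorsion

/-- The module structure on Laurent series coming from the algebra structure. -/
abbrev serModule (K : Type*) [Field K] : Module K (LaurentSeries K) := Algebra.toModule

/-- The scalar action on Laurent series coming from the algebra structure. -/
abbrev serSMul (K : Type*) [Field K] : SMul K (LaurentSeries K) := Algebra.toSMul

attribute [local instance 10000] serModule serSMul
attribute [local instance 1100] Module.Free.of_divisionRing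
attribute [-instance] IsLocalRing.ResidueField.algebraOfIsIntegral

variable {L : Type*} [Field L]

section Basic

variable (A : ValuationSubring L)

/-- Series with coefficients in `A`. -/
def serInt : Subring (LaurentSeries L) := (coeffMap A.subtype).range

variable {A}

theorem mem_serInt {f : LaurentSeries L} : f ∈ serInt A ↔ ∀ k, f.coeff k ∈ A := by
  constructor
  · rintro ⟨y, rfl⟩ k
    rw [coeffMap_coeff]
    exact (y.coeff k).2
  · intro h
    refine ⟨⟨fun k => ⟨f.coeff k, h k⟩, f.isPWO_support.mono ?_⟩, ?_⟩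
    · intro k hk
      simp only [Function.mem_support, HahnSeries.mem_support, ne_eq] at hk ⊢
      exact fun h0 => hk (Subtype.ext h0)
    · ext k; rfl

variable (A)

/-- A series with coefficients in `A`, as a series over `A`. -/
def serLift : serInt A ≃+* LaurentSeries A :=
  (RingEquiv.ofBijective (coeffMap A.subtype).rangeRestrict
    ⟨fun x y h => HahnSeries.ext (funext fun n => Subtype.ext (by
        simpa using congrArg (fun z => z.1.coeff n) h)),
      RingHom.rangeRestrict_surjective _⟩).symm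

/-- Coefficientwise reduction. -/
def serRed : serInt A →+* LaurentSeries (ResidueField A) :=
  (coeffMap (residue A)).comp (serLift A).toRingHom

variable {A}

theorem coe_coeff_serLift (f : serInt A) (n : ℤ) :
    (((serLift A f).coeff n : A) : L) = f.1.coeff n :=
  congrArg (fun z : serInt A => z.1.coeff n) ((serLift A).symm_apply_apply f)

theorem coeff_serRed (f : serInt A) (n : ℤ) :
    (serRed A f).coeff n = residue A ⟨f.1.coeff n, mem_serInt.mp f.2 n⟩ :=
  congrArg (residue A) (Subtype.ext (coe_coeff_serLift f n))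

theorem serRed_coeffMap (y : LaurentSeries A) (h : coeffMap A.subtype y ∈ serInt A) :
    serRed A ⟨coeffMap A.subtype y, h⟩ = coeffMap (residue A) y := by
  ext n
  exact (coeff_serRed _ n).trans
    ((congrArg (residue A) (Subtype.ext (coeffMap_coeff A.subtype y n))).trans
      (coeffMap_coeff (residue A) y n).symm)

theorem coeff_algebraMap_mul {K : Type*} [Field K] (c : K) (f : LaurentSeries K) (n : ℤ) :
    (algebraMap K (LaurentSeries K) c * f).coeff n = c * f.coeff n := by
  rw [algebraMap_laurentSeries_eq_single, HahnSeries.coeff_single_zero_mul]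

theorem coeff_smul_series {K : Type*} [Field K] (c : K) (f : LaurentSeries K) (n : ℤ) :
    (c • f).coeff n = c * f.coeff n := by
  rw [Algebra.smul_def, coeff_algebraMap_mul]

theorem ser_smul_smul (a b : L) (f : LaurentSeries L) : a • b • f = (a * b) • f := by
  simp only [Algebra.smul_def, map_mul, mul_assoc]

theorem ser_one_smul (f : LaurentSeries L) : (1 : L) • f = f := by
  simp only [Algebra.smul_def, map_one, one_mul]

theorem ser_smul_zero (a : L) : a • (0 : LaurentSeries L) = 0 := by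
  simp only [Algebra.smul_def, mul_zero]

theorem ser_smul_add (a : L) (f g : LaurentSeries L) : a • (f + g) = a • f + a • g := by
  simp only [Algebra.smul_def, mul_add]

theorem ser_smul_neg (a : L) (f : LaurentSeries L) : a • (-f) = -(a • f) := by
  simp only [Algebra.smul_def, mul_neg]

theorem ser_smul_mul_smul (a b : L) (f g : LaurentSeries L) :
    (a • f) * (b • g) = (a * b) • (f * g) := by
  simp only [Algebra.smul_def, map_mul]; ring

theorem ser_smul_pow (a : L) (f : LaurentSeries L) (n : ℕ) : (a • f) ^ n = a ^ n • f ^ n := by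
  simp only [Algebra.smul_def, mul_pow, map_pow]

theorem algebraMap_mem_serInt {c : L} (hc : c ∈ A) : algebraMap L (LaurentSeries L) c ∈ serInt A := by
  refine mem_serInt.mpr fun k => ?_
  rw [algebraMap_laurentSeries_eq_single, HahnSeries.coeff_single]
  split
  · exact hc
  · exact zero_mem _

theorem serRed_algebraMap {c : L} (hc : c ∈ A) :
    serRed A ⟨_, algebraMap_mem_serInt hc⟩ =
      algebraMap (ResidueField A) (LaurentSeries (ResidueField A)) (residue A ⟨c, hc⟩) := by
  ext n
  simp only [coeff_serRed, algebraMap_laurentSeries_eq_single, HahnSeries.coeff_single]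
  split
  · rfl
  · exact map_zero (residue A)

theorem smul_mem_serInt {c : L} (hc : c ∈ A) {f : LaurentSeries L} (hf : f ∈ serInt A) :
    c • f ∈ serInt A := by
  rw [Algebra.smul_def]
  exact mul_mem (algebraMap_mem_serInt hc) hf

theorem serRed_smul {c : L} (hc : c ∈ A) (f : serInt A) :
    serRed A ⟨_, smul_mem_serInt hc f.2⟩ = residue A ⟨c, hc⟩ • serRed A f := by
  refine (congrArg (serRed A) (Subtype.ext (Algebra.smul_def c f.1) :
    (⟨_, smul_mem_serInt hc f.2⟩ : serInt A) = ⟨_, algebraMap_mem_serInt hc⟩ * f)).trans ?_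
  rw [RingHom.map_mul, serRed_algebraMap hc, Algebra.smul_def]

theorem valuation_coeff_lt_one_of_serRed_eq_zero {f : serInt A} (h : serRed A f = 0) (n : ℤ) :
    A.valuation (f.1.coeff n) < 1 := by
  have h1 := congrArg (fun z => z.coeff n) h
  simp only [coeff_serRed, HahnSeries.coeff_zero, residue_eq_zero_iff] at h1
  exact (A.valuation_lt_one_iff ⟨_, mem_serInt.mp f.2 n⟩).mp h1

/-- `f` is a constant times a primitive series. -/
def IsScalable (A : ValuationSubring L) (f : LaurentSeries L) : Prop :=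
  ∃ c : L, c ≠ 0 ∧ ∃ g : serInt A, serRed A g ≠ 0 ∧ f = c • (g : LaurentSeries L)

end Basic

section FinCoeff

variable (L) [CharZero L]

variable {L} in
private theorem range_coeffMap_mono {E E' : IntermediateField ℚ L} (h : E ≤ E') :
    (coeffMap (algebraMap E L)).range ≤ (coeffMap (algebraMap E' L)).range := by
  rintro _ ⟨x, rfl⟩
  exact ⟨coeffMap (IntermediateField.inclusion h).toRingHom x, coeffMap_coeffMap _ _ x⟩

/-- Series whose coefficients lie in a number field. -/
def finCoeff : Subfield (LaurentSeries L) where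
  carrier := {f | ∃ E : IntermediateField ℚ L, FiniteDimensional ℚ E ∧
    f ∈ (coeffMap (algebraMap E L)).range}
  mul_mem' := by
    rintro f g ⟨E, hE, hf⟩ ⟨E', hE', hg⟩
    exact ⟨E ⊔ E', IntermediateField.finiteDimensional_sup E E',
      mul_mem (range_coeffMap_mono le_sup_left hf) (range_coeffMap_mono le_sup_right hg)⟩
  add_mem' := by
    rintro f g ⟨E, hE, hf⟩ ⟨E', hE', hg⟩
    exact ⟨E ⊔ E', IntermediateField.finiteDimensional_sup E E',
      add_mem (range_coeffMap_mono le_sup_left hf) (range_coeffMap_mono le_sup_right hg)⟩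
  one_mem' := ⟨⊥, inferInstance, one_mem _⟩
  zero_mem' := ⟨⊥, inferInstance, zero_mem _⟩
  neg_mem' := by
    rintro f ⟨E, hE, hf⟩
    exact ⟨E, hE, neg_mem hf⟩
  inv_mem' := by
    rintro f ⟨E, hE, x, rfl⟩
    exact ⟨E, hE, x⁻¹, map_inv₀ _ _⟩

variable {L}

theorem mem_finCoeff {f : LaurentSeries L} :
    f ∈ finCoeff L ↔ ∃ E : IntermediateField ℚ L, FiniteDimensional ℚ E ∧ ∀ k, f.coeff k ∈ E := by
  constructor
  · rintro ⟨E, hE, y, rfl⟩
    exact ⟨E, hE, fun k => by rw [coeffMap_coeff]; exact (y.coeff k).2⟩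
  · rintro ⟨E, hE, h⟩
    refine ⟨E, hE, ⟨fun k => ⟨f.coeff k, h k⟩, f.isPWO_support.mono ?_⟩, ?_⟩
    · intro k hk
      simp only [Function.mem_support, HahnSeries.mem_support, ne_eq] at hk ⊢
      exact fun h0 => hk (Subtype.ext h0)
    · ext k; rfl

theorem algebraMap_mem_finCoeff [Algebra.IsAlgebraic ℚ L] (c : L) :
    algebraMap L (LaurentSeries L) c ∈ finCoeff L := by
  refine mem_finCoeff.mpr ⟨IntermediateField.adjoin ℚ {c},
    IntermediateField.adjoin.finiteDimensional (Algebra.IsAlgebraic.isAlgebraic c).isIntegral,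
    fun k => ?_⟩
  rw [algebraMap_laurentSeries_eq_single, HahnSeries.coeff_single]
  split
  · exact IntermediateField.mem_adjoin_simple_self ℚ c
  · exact zero_mem _

variable {A : ValuationSubring L} {q : ℕ}

theorem valuation_prime_lt_one (hA : A.LiesOverPrime q) : A.valuation (q : L) < 1 :=
  (ValuationSubring.mem_nonunits_iff (A := A)).mp hA

theorem exists_zpow_ratCast (hA : A.LiesOverPrime q) (hq : q.Prime) {a : ℚ} (ha : a ≠ 0) :
    ∃ z : ℤ, A.valuation (a : L) = A.valuation (q : L) ^ z := by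
  have hnat : ∀ m : ℕ, m ≠ 0 → ∃ z : ℤ, A.valuation (m : L) = A.valuation (q : L) ^ z := by
    intro m hm
    obtain ⟨k, u, hu, rfl⟩ := Nat.exists_eq_pow_mul_and_not_dvd hm q hq.ne_one
    refine ⟨k, ?_⟩
    have hu1 : A.valuation (u : L) = 1 := by
      obtain ⟨x, y, hxy⟩ := Int.isCoprime_iff_gcd_eq_one.mpr
        (show Int.gcd (q : ℤ) (u : ℤ) = 1 from (hq.coprime_iff_not_dvd.mpr hu).gcd_eq_one)
      refine le_antisymm ((A.valuation_le_one_iff _).mpr (natCast_mem A u)) (not_lt.mp fun hlt => ?_)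
      have h1 : (x : L) * (q : L) + (y : L) * (u : L) = 1 := by
        simpa only [Int.cast_add, Int.cast_mul, Int.cast_natCast, Int.cast_one] using
          congrArg (Int.cast (R := L)) hxy
      have h2 := A.valuation.map_add ((x : L) * (q : L)) ((y : L) * (u : L))
      rw [h1, Valuation.map_one, Valuation.map_mul, Valuation.map_mul] at h2
      have hx1 := (A.valuation_le_one_iff _).mpr (intCast_mem A x)
      have hy1 := (A.valuation_le_one_iff _).mpr (intCast_mem A y)
      rcases le_max_iff.mp h2 with h3 | h3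
      · exact absurd (h3.trans (mul_le_of_le_one_left' hx1)) (not_le.mpr (valuation_prime_lt_one hA))
      · exact absurd (h3.trans (mul_le_of_le_one_left' hy1)) (not_le.mpr hlt)
    push_cast
    rw [Valuation.map_mul, Valuation.map_pow, hu1, mul_one, zpow_natCast]
  obtain ⟨z₁, h₁⟩ := hnat a.num.natAbs (by simpa using ha)
  obtain ⟨z₂, h₂⟩ := hnat a.den a.den_nz
  refine ⟨z₁ - z₂, ?_⟩
  have hnum : A.valuation (a.num : L) = A.valuation (a.num.natAbs : L) := by
    rcases Int.natAbs_eq a.num with h | h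
    · conv_lhs => rw [h]
      rw [Int.cast_natCast]
    · conv_lhs => rw [h]
      rw [Int.cast_neg, Valuation.map_neg, Int.cast_natCast]
  have hvq : A.valuation (q : L) ≠ 0 :=
    (Valuation.ne_zero_iff _).mpr (Nat.cast_ne_zero.mpr hq.ne_zero)
  rw [Rat.cast_def, map_div₀, hnum, h₁, h₂, zpow_sub₀ hvq]

/-- In an algebraic extension of `ℚ` the value group is rationally generated by `v(q)`. -/
theorem exists_zpow_of_mem (hA : A.LiesOverPrime q) (hq : q.Prime) (E : IntermediateField ℚ L)
    [FiniteDimensional ℚ E] {x : L} (hx : x ∈ E) (h0 : x ≠ 0) :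
    ∃ z : ℤ, A.valuation x ^ (Module.finrank ℚ E).factorial = A.valuation (q : L) ^ z := by
  set xE : E := ⟨x, hx⟩ with hxE
  have hint : IsIntegral ℚ xE := IsIntegral.of_finite ℚ xE
  set p := minpoly ℚ xE with hp
  have hrel : ∑ i ∈ p.support, (p.coeff i : L) * x ^ i = 0 := by
    have h := congrArg Subtype.val (minpoly.aeval ℚ xE)
    rw [← hp, Polynomial.aeval_eq_sum_range] at h
    rw [Finset.sum_subset (s₂ := Finset.range (p.natDegree + 1)) Polynomial.supp_subset_range_natDegree_succ
      (fun i _ hi => by rw [Polynomial.notMem_support_iff.mp hi]; simp)]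
    simpa only [AddSubmonoidClass.coe_finsetSum, Algebra.smul_def, MulMemClass.coe_mul,
      SubmonoidClass.coe_pow, ZeroMemClass.coe_zero, hxE, eq_ratCast, SubfieldClass.coe_ratCast] using h
  have hne : p.support.Nonempty := Polynomial.support_nonempty.mpr (minpoly.ne_zero hint)
  obtain ⟨i, hi, hmax⟩ := Finset.exists_max_image p.support
    (fun i => A.valuation ((p.coeff i : L) * x ^ i)) hne
  obtain ⟨j, hj, hji, heq⟩ : ∃ j ∈ p.support, j ≠ i ∧
      A.valuation ((p.coeff j : L) * x ^ j) = A.valuation ((p.coeff i : L) * x ^ i) := by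
    by_contra! hno
    have h1 := A.valuation.map_sum_eq_of_lt hi (fun j hj => by
      rw [Finset.mem_sdiff, Finset.mem_singleton] at hj
      exact lt_of_le_of_ne (hmax j hj.1) (hno j hj.1 hj.2))
    rw [hrel, Valuation.map_zero] at h1
    have hpi : (p.coeff i : L) ≠ 0 := Rat.cast_ne_zero.mpr (Polynomial.mem_support_iff.mp hi)
    exact mul_ne_zero hpi (pow_ne_zero _ h0) ((Valuation.zero_iff _).mp h1.symm)
  obtain ⟨zi, hzi⟩ := exists_zpow_ratCast hA hq (Polynomial.mem_support_iff.mp hi)
  obtain ⟨zj, hzj⟩ := exists_zpow_ratCast hA hq (Polynomial.mem_support_iff.mp hj)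
  rw [Valuation.map_mul, Valuation.map_mul, Valuation.map_pow, Valuation.map_pow, hzi, hzj] at heq
  have hq0 : A.valuation (q : L) ≠ 0 := (Valuation.ne_zero_iff _).mpr (Nat.cast_ne_zero.mpr hq.ne_zero)
  have hv0 : A.valuation x ≠ 0 := (Valuation.ne_zero_iff _).mpr h0
  have hkey : A.valuation x ^ ((j : ℤ) - i) = A.valuation (q : L) ^ (zi - zj) := by
    rw [zpow_sub₀ hv0, zpow_sub₀ hq0, zpow_natCast, zpow_natCast,
      div_eq_div_iff (pow_ne_zero _ hv0) (zpow_ne_zero _ hq0), mul_comm, heq]
  have hdeg : ∀ n ∈ p.support, n ≤ Module.finrank ℚ E := fun n hn =>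
    (Polynomial.le_natDegree_of_mem_supp n hn).trans (minpoly.natDegree_le xE)
  obtain ⟨r, hr⟩ : ((j : ℤ) - i) ∣ ((Module.finrank ℚ E).factorial : ℤ) := by
    rw [← Int.natAbs_dvd, Int.natCast_dvd_natCast]
    refine Nat.dvd_factorial (Int.natAbs_pos.mpr (by omega)) ?_
    have := hdeg i hi; have := hdeg j hj
    omega
  refine ⟨(zi - zj) * r, ?_⟩
  rw [← zpow_natCast, hr, zpow_mul, hkey, zpow_mul]

variable (A) in
/-- Series with bounded denominators. -/
def serBdd : Subring (LaurentSeries L) where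
  carrier := {f | ∃ c ∈ A, c ≠ 0 ∧ c • f ∈ serInt A}
  mul_mem' := by
    rintro f g ⟨c, hc, hc0, hf⟩ ⟨d, hd, hd0, hg⟩
    exact ⟨c * d, mul_mem hc hd, mul_ne_zero hc0 hd0, by
      rw [← ser_smul_mul_smul]; exact mul_mem hf hg⟩
  add_mem' := by
    rintro f g ⟨c, hc, hc0, hf⟩ ⟨d, hd, hd0, hg⟩
    refine ⟨c * d, mul_mem hc hd, mul_ne_zero hc0 hd0, ?_⟩
    rw [ser_smul_add]
    refine add_mem ?_ ?_
    · rw [mul_comm, ← ser_smul_smul]; exact smul_mem_serInt hd hf
    · rw [← ser_smul_smul]; exact smul_mem_serInt hc hg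
  one_mem' := ⟨1, one_mem _, one_ne_zero, by rw [ser_one_smul]; exact one_mem _⟩
  zero_mem' := ⟨1, one_mem _, one_ne_zero, by rw [ser_smul_zero]; exact zero_mem _⟩
  neg_mem' := by
    rintro f ⟨c, hc, hc0, hf⟩
    exact ⟨c, hc, hc0, by rw [ser_smul_neg]; exact neg_mem hf⟩

theorem serInt_le_serBdd {f : LaurentSeries L} (hf : f ∈ serInt A) : f ∈ serBdd A :=
  ⟨1, one_mem _, one_ne_zero, by rwa [ser_one_smul]⟩

theorem algebraMap_mem_serBdd (c : L) : algebraMap L (LaurentSeries L) c ∈ serBdd A := by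
  rcases A.mem_or_inv_mem c with h | h
  · exact serInt_le_serBdd (algebraMap_mem_serInt h)
  · rcases eq_or_ne c 0 with rfl | hc
    · rw [map_zero]; exact zero_mem _
    refine ⟨c⁻¹, h, inv_ne_zero hc, ?_⟩
    rw [Algebra.smul_def, ← RingHom.map_mul, inv_mul_cancel₀ hc, RingHom.map_one]
    exact one_mem _

variable [Algebra.IsAlgebraic ℚ L]

theorem exists_exponent (hA : A.LiesOverPrime q) (hq : q.Prime) {x : L} (h0 : x ≠ 0) :
    ∃ e : ℕ, 0 < e ∧ ∃ z : ℤ, A.valuation x ^ e = A.valuation (q : L) ^ z := by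
  have : FiniteDimensional ℚ (IntermediateField.adjoin ℚ {x}) :=
    IntermediateField.adjoin.finiteDimensional (Algebra.IsAlgebraic.isAlgebraic x).isIntegral
  exact ⟨_, Nat.factorial_pos _, exists_zpow_of_mem hA hq _
    (IntermediateField.mem_adjoin_simple_self ℚ x) h0⟩

theorem zpow_le_zpow_iff_prime (hA : A.LiesOverPrime q) (hq : q.Prime) {m n : ℤ} :
    A.valuation (q : L) ^ m ≤ A.valuation (q : L) ^ n ↔ n ≤ m :=
  zpow_le_zpow_iff_right_of_lt_one₀ (zero_lt_iff.mpr ((Valuation.ne_zero_iff _).mpr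
    (Nat.cast_ne_zero.mpr hq.ne_zero))) (valuation_prime_lt_one hA)

/-- A bounded series with coefficients in a number field is scalable. -/
theorem isScalable_of_bdd (hA : A.LiesOverPrime q) (hq : q.Prime) {f : LaurentSeries L}
    (hf : f ∈ serBdd A) (hfin : f ∈ finCoeff L) (hf0 : f ≠ 0) : IsScalable A f := by
  obtain ⟨c, hcA, hc0, hcf⟩ := hf
  obtain ⟨E, hE, hcoef⟩ := mem_finCoeff.mp hfin
  obtain ⟨e, he, z, hz⟩ := exists_exponent hA hq hc0
  set D := (Module.finrank ℚ E).factorial with hD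
  have hDpos : 0 < D := Nat.factorial_pos _
  let P : ℤ → Prop := fun w => ∃ k, f.coeff k ≠ 0 ∧ A.valuation (f.coeff k) ^ D = A.valuation (q : L) ^ w
  have hbdd : ∀ w, P w → -(|z| * D) ≤ w := by
    rintro w ⟨k, hk, hw⟩
    have h1 : A.valuation (c * f.coeff k) ≤ 1 := by
      rw [A.valuation_le_one_iff, ← coeff_smul_series]
      exact mem_serInt.mp hcf k
    have hvq : A.valuation (q : L) ≠ 0 :=
      (Valuation.ne_zero_iff _).mpr (Nat.cast_ne_zero.mpr hq.ne_zero)
    have h2 : A.valuation (q : L) ^ (z * D + w * e) ≤ A.valuation (q : L) ^ (0 : ℤ) := by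
      rw [zpow_zero, zpow_add₀ hvq,
        zpow_mul, zpow_mul, ← hz, ← hw, zpow_natCast, zpow_natCast, ← pow_mul, ← pow_mul,
        mul_comm D e, ← mul_pow, ← Valuation.map_mul]
      exact pow_le_one' h1 _
    rw [zpow_le_zpow_iff_prime hA hq] at h2
    have h3 : z ≤ |z| := le_abs_self z
    have h4 : (1 : ℤ) ≤ e := Int.ofNat_le.mpr he
    have h5 : 0 ≤ |z| * (D : ℤ) := mul_nonneg (abs_nonneg z) (Int.natCast_nonneg D)
    have h6 : z * (D : ℤ) ≤ |z| * D := mul_le_mul_of_nonneg_right h3 (Int.natCast_nonneg D)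
    rcases le_or_gt 0 w with hw0 | hw0
    · omega
    have h7 : w * (e : ℤ) ≤ w * 1 := mul_le_mul_of_nonpos_left h4 hw0.le
    omega
  obtain ⟨k₁, hk₁⟩ : ∃ k, f.coeff k ≠ 0 := by
    by_contra! h
    exact hf0 (HahnSeries.ext (funext h))
  obtain ⟨w₀, ⟨k, hk, hw⟩, hleast⟩ := Int.exists_least_of_bdd ⟨_, hbdd⟩
    (let ⟨w, hw⟩ := exists_zpow_of_mem hA hq E (hcoef k₁) hk₁; ⟨w, k₁, hk₁, hw⟩)
  have hint : (f.coeff k)⁻¹ • f ∈ serInt A := by
    refine mem_serInt.mpr fun n => ?_
    rw [coeff_smul_series, ← A.valuation_le_one_iff]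
    by_cases hn : f.coeff n = 0
    · rw [hn, mul_zero, Valuation.map_zero]
      exact zero_le_one
    obtain ⟨w, hwn⟩ := exists_zpow_of_mem hA hq E (hcoef n) hn
    refine (pow_le_one_iff hDpos.ne').mp ?_
    rw [Valuation.map_mul, map_inv₀, mul_pow, inv_pow, hw, hwn,
      inv_mul_le_iff₀ (zero_lt_iff.mpr (hw ▸ pow_ne_zero _ ((Valuation.ne_zero_iff _).mpr hk))), mul_one]
    exact (zpow_le_zpow_iff_prime hA hq).mpr (hleast w ⟨n, hn, hwn⟩)
  refine ⟨f.coeff k, hk, ⟨_, hint⟩, fun h0 => ?_, ?_⟩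
  · have h1 := valuation_coeff_lt_one_of_serRed_eq_zero h0 k
    rw [coeff_smul_series, inv_mul_cancel₀ hk, Valuation.map_one] at h1
    exact lt_irrefl _ h1
  · rw [ser_smul_smul, mul_inv_cancel₀ hk, ser_one_smul]

private theorem mul_pow_succ_sub {R : Type*} [CommRing R] {x x0 x1 : R} (c : R) (h : x1 = x - x0)
    (n i : ℕ) : c * x1 ^ (n + 1) * x ^ i =
      c * x1 ^ n * x ^ (i + 1) - x0 * (c * x1 ^ n * x ^ i) := by
  subst h; ring

private theorem mul_mul_left {R : Type*} [CommMonoid R] (a b c : R) :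
    a * b * c = b * (a * c) := by
  rw [mul_comm a b, mul_assoc]

/-- If `c * xⁿ` is integral for all `n`, with `c ≠ 0`, then `x` is integral. -/
theorem mem_of_forall_pow (hA : A.LiesOverPrime q) (hq : q.Prime) {c x : L} (hc : c ≠ 0)
    (h : ∀ n : ℕ, c * x ^ n ∈ A) : x ∈ A := by
  by_contra hx
  rw [← A.valuation_le_one_iff, not_le] at hx
  have hx0 : x ≠ 0 := by
    rintro rfl
    rw [Valuation.map_zero] at hx
    exact not_lt_zero hx
  obtain ⟨e, he, z, hz⟩ := exists_exponent hA hq hx0
  obtain ⟨e', he', z', hz'⟩ := exists_exponent hA hq hc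
  have hz0 : z < 0 := by
    by_contra hneg
    have h1 : A.valuation x ^ e ≤ A.valuation (q : L) ^ (0 : ℤ) := by
      rw [hz]; exact (zpow_le_zpow_iff_prime hA hq).mpr (not_lt.mp hneg)
    rw [zpow_zero] at h1
    exact absurd ((pow_le_one_iff he.ne').mp h1) (not_le.mpr hx)
  set n : ℕ := z'.natAbs + 1 with hn
  have hvq : A.valuation (q : L) ≠ 0 :=
    (Valuation.ne_zero_iff _).mpr (Nat.cast_ne_zero.mpr hq.ne_zero)
  have h2 : A.valuation (q : L) ^ (z' + z * n * e') ≤ A.valuation (q : L) ^ (0 : ℤ) := by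
    rw [zpow_zero, zpow_add₀ hvq,
      zpow_mul, zpow_mul, ← hz', ← hz, zpow_natCast, zpow_natCast, ← pow_mul, ← pow_mul,
      show A.valuation c ^ e' * A.valuation x ^ (e * (n * e')) =
        A.valuation (c * x ^ (e * n)) ^ e' by
          rw [Valuation.map_mul, Valuation.map_pow, mul_pow, ← pow_mul, mul_assoc],
      ]
    exact pow_le_one' ((A.valuation_le_one_iff _).mpr (h _)) _
  rw [zpow_le_zpow_iff_prime hA hq] at h2
  have h4 : (1 : ℤ) ≤ e' := by exact_mod_cast he'
  have h5 : z' ≤ z'.natAbs := Int.le_natAbs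
  have h6 : (n : ℤ) ≤ n * e' := le_mul_of_one_le_right (by positivity) h4
  have h7 : z * (n : ℤ) * e' ≤ -1 * ((n : ℤ) * e') := by
    rw [mul_assoc]; exact mul_le_mul_of_nonneg_right (by omega) (by positivity)
  have h8 : (n : ℤ) = z'.natAbs + 1 := by rw [hn]; push_cast; ring
  omega

theorem mem_serInt_of_almostIntegral (hA : A.LiesOverPrime q) (hq : q.Prime)
    {c x : LaurentSeries L} (hc : c ≠ 0) (h : ∀ n : ℕ, c * x ^ n ∈ serInt A) : x ∈ serInt A := by
  by_contra hx
  rw [mem_serInt] at hx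
  push Not at hx
  set B := {n : ℤ | x.coeff n ∉ A} with hB
  have hBne : B.Nonempty := hx
  have hsub : B ⊆ x.support := fun n hn h0 => hn (by rw [h0]; exact zero_mem _)
  obtain ⟨m, hm, hmin⟩ : ∃ m ∈ B, ∀ n ∈ B, m ≤ n :=
    ⟨(x.isWF_support.mono hsub).min hBne, Set.IsWF.min_mem _ _, fun n hn => Set.IsWF.min_le _ _ hn⟩
  set x0 : LaurentSeries L := ⟨fun n => if n < m then x.coeff n else 0,
    x.isPWO_support.mono (fun n hn => by
      simp only [Function.mem_support, HahnSeries.mem_support, ne_eq] at hn ⊢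
      split_ifs at hn with h1
      · exact hn
      · exact absurd rfl hn)⟩ with hx0
  have hx0mem : x0 ∈ serInt A := by
    rw [mem_serInt]
    intro n
    change (if n < m then x.coeff n else 0) ∈ _
    split_ifs with h1
    · by_contra hn
      exact absurd (hmin n hn) (not_le.mpr h1)
    · exact zero_mem _
  set x1 := x - x0 with hx1
  have key : ∀ n i : ℕ, c * x1 ^ n * x ^ i ∈ serInt A := by
    intro n
    induction n with
    | zero => intro i; simpa using h i
    | succ n ih =>
      intro i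
      rw [mul_pow_succ_sub c hx1 n i]
      exact sub_mem (ih _) (mul_mem hx0mem (ih i))
  have hcm : x1.coeff m = x.coeff m := by
    rw [hx1, HahnSeries.coeff_sub]
    change x.coeff m - (if m < m then x.coeff m else 0) = _
    simp
  have hlt : ∀ n < m, x1.coeff n = 0 := by
    intro n hn
    rw [hx1, HahnSeries.coeff_sub]
    change x.coeff n - (if n < m then x.coeff n else 0) = _
    simp [hn]
  have hne : x.coeff m ≠ 0 := hsub hm
  have hx1ne : x1 ≠ 0 := fun h0 => hne (by rw [← hcm, h0]; rfl)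
  have hord : x1.order = m :=
    le_antisymm (HahnSeries.order_le_of_coeff_ne_zero (by rwa [hcm]))
      (not_lt.mp fun hl => HahnSeries.coeff_order_eq_zero.not.mpr hx1ne (hlt _ hl))
  have hlead : x1.leadingCoeff = x.coeff m := by
    rw [HahnSeries.leadingCoeff_eq, hord, hcm]
  refine hm (mem_of_forall_pow hA hq (HahnSeries.leadingCoeff_ne_zero.mpr hc) fun n => ?_)
  have hmem := mem_serInt.mp (key n 0) (c * x1 ^ n * x ^ 0).order
  rw [← HahnSeries.leadingCoeff_eq, pow_zero, mul_one, HahnSeries.leadingCoeff_mul] at hmem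
  have hpow : ∀ j : ℕ, (x1 ^ j).leadingCoeff = x1.leadingCoeff ^ j := by
    intro j
    induction j with
    | zero => simp
    | succ j ih => rw [pow_succ, pow_succ, HahnSeries.leadingCoeff_mul, ih]
  rwa [hpow, hlead] at hmem

/-- A fraction of integral series satisfying a monic relation over `serInt A` is integral. -/
theorem mem_serInt_of_monic_rel (hA : A.LiesOverPrime q) (hq : q.Prime) {x d : LaurentSeries L}
    (hd : d ∈ serInt A) (hd0 : d ≠ 0) (hdx : d * x ∈ serInt A) {D : ℕ} {a : ℕ → LaurentSeries L}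
    (ha : ∀ i, a i ∈ serInt A) (hrel : x ^ D + ∑ i ∈ Finset.range D, a i * x ^ i = 0) :
    x ∈ serInt A := by
  refine mem_serInt_of_almostIntegral hA hq (c := d ^ D) (pow_ne_zero _ hd0) fun n => ?_
  induction n using Nat.strong_induction_on with
  | _ n ih =>
    rcases le_or_gt n D with hn | hn
    · obtain ⟨r, hr⟩ := Nat.exists_eq_add_of_le hn
      rw [hr, pow_add, mul_mul_left, ← mul_pow]
      exact mul_mem (pow_mem hd _) (pow_mem hdx _)
    · obtain ⟨r, hr⟩ := Nat.exists_eq_add_of_le hn.le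
      rw [hr, pow_add, eq_neg_of_add_eq_zero_left hrel, neg_mul, Finset.sum_mul, mul_neg,
        Finset.mul_sum]
      refine neg_mem (sum_mem fun i hi => ?_)
      rw [mul_assoc (a i), ← pow_add, mul_left_comm]
      refine mul_mem (ha _) (ih _ ?_)
      have := Finset.mem_range.mp hi
      omega

/-- A fraction of bounded series satisfying a monic relation over `serBdd A` is bounded. -/
theorem mem_serBdd_of_monic_rel (hA : A.LiesOverPrime q) (hq : q.Prime) {x d : LaurentSeries L}
    (hd : d ∈ serBdd A) (hd0 : d ≠ 0) (hdx : d * x ∈ serBdd A) {D : ℕ} {a : ℕ → LaurentSeries L}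
    (ha : ∀ i < D, a i ∈ serBdd A) (hrel : x ^ D + ∑ i ∈ Finset.range D, a i * x ^ i = 0) :
    x ∈ serBdd A := by
  obtain ⟨c₁, hc₁, hc₁0, hcd⟩ := hd
  obtain ⟨c₂, hc₂, hc₂0, hcdx⟩ := hdx
  have hb : ∀ i : Fin D, ∃ c ∈ A, c ≠ 0 ∧ c • a i ∈ serInt A := fun i => ha i i.2
  choose cs hcs hcs0 hcsa using hb
  set γ : L := c₂ * ∏ i, cs i with hγ
  have hγA : γ ∈ A := mul_mem hc₂ (prod_mem fun i _ => hcs i)
  have hγ0 : γ ≠ 0 := mul_ne_zero hc₂0 (Finset.prod_ne_zero_iff.mpr fun i _ => hcs0 i)
  refine ⟨γ, hγA, hγ0, ?_⟩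
  refine mem_serInt_of_monic_rel hA hq (d := c₁ • d) hcd (by rw [Algebra.smul_def]; exact mul_ne_zero ((map_ne_zero _).mpr hc₁0) hd0) ?_ (D := D)
    (a := fun i => if i < D then γ ^ (D - i) • a i else 0) (fun i => ?_) ?_
  · rw [ser_smul_mul_smul]
    rw [show c₁ * γ = (c₁ * ∏ i, cs i) * c₂ by rw [hγ]; ring, ← ser_smul_smul]
    exact smul_mem_serInt (mul_mem hc₁ (prod_mem fun i _ => hcs i)) hcdx
  · split_ifs with hi
    · obtain ⟨r, hr⟩ := Finset.dvd_prod_of_mem cs (Finset.mem_univ (⟨i, hi⟩ : Fin D))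
      obtain ⟨t, ht⟩ : ∃ t ∈ A, γ ^ (D - i) = t * cs ⟨i, hi⟩ := by
        obtain ⟨s, hs⟩ := Nat.exists_eq_add_of_lt hi
        refine ⟨γ ^ s * c₂ * ∏ l ∈ Finset.univ.erase ⟨i, hi⟩, cs l, mul_mem (mul_mem
          (pow_mem hγA _) hc₂) (prod_mem fun l _ => hcs l), ?_⟩
        rw [show D - i = s + 1 by omega, pow_succ]
        conv_lhs => arg 2; rw [hγ, ← Finset.prod_erase_mul _ _ (Finset.mem_univ ⟨i, hi⟩)]
        ring
      rw [ht.2, ← ser_smul_smul]
      exact smul_mem_serInt ht.1 (hcsa ⟨i, hi⟩)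
    · exact zero_mem _
  · have h := congrArg (fun y => γ ^ D • y) hrel
    simp only [ser_smul_zero, ser_smul_add] at h
    rw [← h, ser_smul_pow, Algebra.smul_def (γ ^ D) (∑ i ∈ Finset.range D, a i * x ^ i),
      Finset.mul_sum]
    refine congrArg (HAdd.hAdd _) (Finset.sum_congr rfl fun i hi => ?_)
    have hi' := Finset.mem_range.mp hi
    rw [if_pos hi', ser_smul_pow, ser_smul_mul_smul, ← pow_add, Nat.sub_add_cancel hi'.le,
      Algebra.smul_def]

end FinCoeff

section Root

variable {A : ValuationSubring L}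

private theorem exists_pow_add_expansion {R : Type*} [CommRing R] (h T : R) {m : ℕ} (hm : m ≠ 0) :
    ∃ S : R, (h + T) ^ m = h ^ m + (m : R) * h ^ (m - 1) * T + T ^ 2 * S := by
  obtain ⟨m', rfl⟩ := Nat.exists_eq_succ_of_ne_zero hm
  have key : ∀ s : ℕ, ∃ S : R,
      (h + T) ^ (s + 1) = h ^ (s + 1) + ((s + 1 : ℕ) : R) * h ^ s * T + T ^ 2 * S := by
    intro s
    induction s with
    | zero => exact ⟨0, by simp⟩
    | succ s ih =>
      obtain ⟨S, hS⟩ := ih
      refine ⟨S * (h + T) + ((s + 1 : ℕ) : R) * h ^ s, ?_⟩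
      rw [pow_succ, hS]
      push_cast
      ring
  exact key m'

private theorem mul_rearrange {R : Type*} [CommMonoid R] (a b c d : R) :
    a * b * (c * d) = d * (a * c * b) := by
  rw [mul_comm d, ← mul_assoc, mul_right_comm a b c]

/-- An `m`th root of a power series, found one coefficient at a time. -/
private theorem exists_pow_eq_of_isUnit {R : Type*} [CommRing R] {m : ℕ} (hm0 : m ≠ 0)
    (f : PowerSeries R) {a₀ : R} (ha₀ : a₀ ^ m = PowerSeries.constantCoeff f)
    (hu : IsUnit ((m : R) * a₀ ^ (m - 1))) :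
    ∃ h : PowerSeries R, PowerSeries.constantCoeff h = a₀ ∧ h ^ m = f := by
  have step : ∀ (n : ℕ) (h : PowerSeries R), PowerSeries.constantCoeff h = a₀ →
      (∀ k ≤ n, PowerSeries.coeff k (h ^ m) = PowerSeries.coeff k f) →
      ∃ h' : PowerSeries R, PowerSeries.constantCoeff h' = a₀ ∧
        (∀ k ≤ n, PowerSeries.coeff k h' = PowerSeries.coeff k h) ∧
        (∀ k ≤ n + 1, PowerSeries.coeff k (h' ^ m) = PowerSeries.coeff k f) := by
    intro n h hh0 hh
    obtain ⟨a, ha⟩ : ∃ a, (m : R) * a₀ ^ (m - 1) * a =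
        PowerSeries.coeff (n + 1) f - PowerSeries.coeff (n + 1) (h ^ m) :=
      ⟨(hu.unit⁻¹ : Rˣ) * (PowerSeries.coeff (n + 1) f - PowerSeries.coeff (n + 1) (h ^ m)),
        by rw [← mul_assoc, IsUnit.mul_val_inv, one_mul]⟩
    set T : PowerSeries R := PowerSeries.C a * PowerSeries.X ^ (n + 1) with hT
    refine ⟨h + T, ?_, fun k hk => ?_, ?_⟩
    · rw [RingHom.map_add, hT, RingHom.map_mul, RingHom.map_pow, PowerSeries.constantCoeff_X,
        zero_pow n.succ_ne_zero, mul_zero, add_zero, hh0]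
    · rw [map_add, hT, PowerSeries.coeff_C_mul, PowerSeries.coeff_X_pow, if_neg (by omega),
        mul_zero, add_zero]
    intro k hk
    obtain ⟨S, hR⟩ := exists_pow_add_expansion h T hm0
    have hX2 : PowerSeries.coeff k (T ^ 2 * S) = 0 := by
      rw [show T ^ 2 * S = PowerSeries.X ^ (2 * (n + 1)) * (PowerSeries.C a ^ 2 * S) by
        rw [hT, mul_pow, ← pow_mul, mul_comm 2]; exact mul_mul_left _ _ _,
        PowerSeries.coeff_X_pow_mul', if_neg (by omega)]
    have hX1 : PowerSeries.coeff k ((m : PowerSeries R) * h ^ (m - 1) * T) =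
        if n + 1 ≤ k then (m : R) * a₀ ^ (m - 1) * a else 0 := by
      rw [show (m : PowerSeries R) * h ^ (m - 1) * T =
        PowerSeries.X ^ (n + 1) * (PowerSeries.C ((m : R) * a) * h ^ (m - 1)) by
          rw [hT, RingHom.map_mul, map_natCast]; exact mul_rearrange _ _ _ _,
        PowerSeries.coeff_X_pow_mul']
      split_ifs with hle
      · rw [show k - (n + 1) = 0 by omega, PowerSeries.coeff_zero_eq_constantCoeff, RingHom.map_mul,
          RingHom.map_pow, PowerSeries.constantCoeff_C, hh0, mul_right_comm]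
      · rfl
    rw [hR, map_add, map_add, hX2, hX1, add_zero]
    rcases Nat.lt_or_ge k (n + 1) with hlt | hge
    · rw [if_neg (by omega), add_zero, hh k (by omega)]
    · rw [if_pos hge, show k = n + 1 by omega, ha, add_sub_cancel]
  choose! next hnext0 hnext1 hnext2 using step
  let hs : ℕ → PowerSeries R := fun n => Nat.rec (PowerSeries.C a₀) (fun i prev => next i prev) n
  have hprop : ∀ n, PowerSeries.constantCoeff (hs n) = a₀ ∧
      ∀ k ≤ n, PowerSeries.coeff k (hs n ^ m) = PowerSeries.coeff k f := by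
    intro n
    induction n with
    | zero =>
      refine ⟨PowerSeries.constantCoeff_C _, fun k hk => ?_⟩
      rw [Nat.le_zero.mp hk, PowerSeries.coeff_zero_eq_constantCoeff, RingHom.map_pow]
      exact (congrArg (· ^ m) (PowerSeries.constantCoeff_C a₀)).trans ha₀
    | succ n ih => exact ⟨hnext0 n _ ih.1 ih.2, hnext2 n _ ih.1 ih.2⟩
  have hstable : ∀ n, ∀ i, ∀ k ≤ n, PowerSeries.coeff k (hs (n + i)) = PowerSeries.coeff k (hs n) := by
    intro n i
    induction i with
    | zero => intro k _; rfl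
    | succ i ih =>
      intro k hk
      exact (hnext1 (n + i) _ (hprop _).1 (hprop _).2 k (by omega)).trans (ih k hk)
  refine ⟨PowerSeries.mk fun n => PowerSeries.coeff n (hs n), ?_, PowerSeries.ext fun n => ?_⟩
  · rw [← PowerSeries.coeff_zero_eq_constantCoeff, PowerSeries.coeff_mk,
      PowerSeries.coeff_zero_eq_constantCoeff, (hprop 0).1]
  · rw [← (hprop n).2 n le_rfl]
    have htr : PowerSeries.trunc (n + 1) (PowerSeries.mk fun n => PowerSeries.coeff n (hs n)) =
        PowerSeries.trunc (n + 1) (hs n) := by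
      ext k
      rw [PowerSeries.coeff_trunc, PowerSeries.coeff_trunc]
      split_ifs with hk
      · obtain ⟨i, hi⟩ := Nat.exists_eq_add_of_le (Nat.lt_succ_iff.mp hk)
        rw [PowerSeries.coeff_mk, hi, hstable k i k le_rfl]
      · rfl
    have h1 := congrArg (fun p : Polynomial R => (PowerSeries.trunc (n + 1)
      ((p : PowerSeries R) ^ m)).coeff n) htr
    simp only [PowerSeries.trunc_trunc_pow, PowerSeries.coeff_trunc, Nat.lt_succ_self, if_true] at h1
    exact h1

end Root

end Fermat.Agent.RedTorsion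

end
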