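import Fermat.Agent.RedTorsion.SeriesBasis

/-!
# The Gauss model of the modular function field on its `q`-expansions
-/

set_option autoImplicit false
set_option linter.unusedSectionVars false

noncomputable section

open Polynomial AlgebraicCurve IsLocalRing ModularCurve
open scoped Classical IntermediateField

namespace Fermat.Agent.RedTorsion

-- searches for the constants inside Laurent series are slow without these priorities
attribute [local instance 10000] SubalgebraClass.toAlgebra HahnSeries.powerSeriesAlgebra

open Fermat.Agent.FF Fermat.Agent.EichlerShimura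

variable {L : Type*} [Field L] [IsAlgClosed L] {A : ValuationSubring L}
  [PerfectField (ResidueField A)]
  {N : ℕ} [NeZero N] {F : IntermediateField L (LaurentSeries L)}
  (hF : F = modularFunctionFieldFullC L N) (hNA : (N : ResidueField A) ≠ 0)

local notation "Fk" => modularFunctionFieldFullC (ResidueField A) N

theorem exists_red {y : F} (hy : y ∈ sint A F) :
    letI := ratAlgebra (transcendental_jF hF)
    letI := ratAlgebra (transcendental_jF (K := ResidueField A) (N := N) (F := Fk) rfl)
    ∃ z : Fk, (z : LaurentSeries (ResidueField A)) = sred (A := A) (F := F) ⟨y, hy⟩ ∧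
      ∀ i, ∃ h : (basisInt hF hNA).repr y i ∈ Og A,
        redG A ⟨_, h⟩ = (basisBar hF hNA).repr z i := by
  obtain ⟨z, hz, h⟩ := coords hF hNA (y := y) (d := 1) (p := toSerInt (A := A) (F := F) ⟨y, hy⟩)
    (by rw [map_one]; exact one_ne_zero) (by simp [coe_toSerInt])
  exact ⟨z, by simpa [sred] using hz, h⟩

include hF hNA in
theorem sred_mem (y : sint A F) : sred (A := A) (F := F) y ∈ modularFunctionFieldFullC (ResidueField A) N := by
  obtain ⟨z, hz, -⟩ := exists_red hF hNA y.2
  exact hz ▸ z.2

/-- Reduction into the reduced field. -/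
def redF : sint A F →+* Fk :=
  (sred (A := A) (F := F)).codRestrict (modularFunctionFieldFullC (ResidueField A) N).toSubfield
    (sred_mem hF hNA)

theorem coe_redF (y : sint A F) : (redF hF hNA y : LaurentSeries (ResidueField A)) = sred (A := A) (F := F) y := rfl

theorem repr_redF (y : sint A F) :
    letI := ratAlgebra (transcendental_jF hF)
    letI := ratAlgebra (transcendental_jF (K := ResidueField A) (N := N) (F := Fk) rfl)
    ∀ i, ∃ h : (basisInt hF hNA).repr (y : F) i ∈ Og A,
      redG A ⟨_, h⟩ = (basisBar hF hNA).repr (redF hF hNA y) i := by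
  obtain ⟨z, hz, h⟩ := exists_red hF hNA y.2
  rw [show redF hF hNA y = z from Subtype.ext hz.symm]
  exact h

theorem basisInt_mem (i : Fin (Nat.card (ModFun.Coset N))) :
    letI := ratAlgebra (transcendental_jF hF)
    basisInt hF hNA i ∈ sint A F := by
  let _ := ratAlgebra (transcendental_jF hF)
  simp only [basisInt, coe_basisOfLinearIndependentOfCardEqFinrank]
  exact pow_mem (theta hF hNA).2 _

theorem redF_basisInt (i : Fin (Nat.card (ModFun.Coset N))) :
    letI := ratAlgebra (transcendental_jF hF)
    letI := ratAlgebra (transcendental_jF (K := ResidueField A) (N := N) (F := Fk) rfl)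
    redF hF hNA ⟨_, basisInt_mem hF hNA i⟩ = basisBar hF hNA i := by
  let _ := ratAlgebra (transcendental_jF hF)
  let _ := ratAlgebra (transcendental_jF (K := ResidueField A) (N := N) (F := Fk) rfl)
  refine Subtype.ext ?_
  rw [coe_redF]
  simp only [basisInt, basisBar, coe_basisOfLinearIndependentOfCardEqFinrank,
    IntermediateField.coe_pow, ← sred_theta, ← map_pow]
  rfl

theorem repr_of_eq {y : F} (u : sint A F) {z : Fk} (hu : (u : F) = y)
    (hz : redF hF hNA u = z) (i : Fin (Nat.card (ModFun.Coset N))) :
    letI := ratAlgebra (transcendental_jF hF)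
    letI := ratAlgebra (transcendental_jF (K := ResidueField A) (N := N) (F := Fk) rfl)
    ∃ h : (basisInt hF hNA).repr y i ∈ Og A,
      redG A ⟨_, h⟩ = (basisBar hF hNA).repr z i := by
  subst hu hz
  exact repr_redF hF hNA u i

theorem repr_one (i : Fin (Nat.card (ModFun.Coset N))) :
    letI := ratAlgebra (transcendental_jF hF)
    letI := ratAlgebra (transcendental_jF (K := ResidueField A) (N := N) (F := Fk) rfl)
    ∃ h : (basisInt hF hNA).repr 1 i ∈ Og A,
      redG A ⟨_, h⟩ = (basisBar hF hNA).repr 1 i :=
  repr_of_eq hF hNA 1 (OneMemClass.coe_one _) (map_one (redF hF hNA)) i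

theorem repr_basis_mul (i j l : Fin (Nat.card (ModFun.Coset N))) :
    letI := ratAlgebra (transcendental_jF hF)
    letI := ratAlgebra (transcendental_jF (K := ResidueField A) (N := N) (F := Fk) rfl)
    ∃ h : (basisInt hF hNA).repr (basisInt hF hNA i * basisInt hF hNA j) l ∈ Og A,
      redG A ⟨_, h⟩ = (basisBar hF hNA).repr (basisBar hF hNA i * basisBar hF hNA j) l :=
  repr_of_eq hF hNA
    ((⟨_, basisInt_mem hF hNA i⟩ : sint A F) * (⟨_, basisInt_mem hF hNA j⟩ : sint A F))
    (Subring.coe_mul (sint A F) _ _)
    ((map_mul (redF hF hNA) _ _).trans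
      (congrArg₂ (· * ·) (redF_basisInt hF hNA i) (redF_basisInt hF hNA j))) l

include hF hNA in
theorem discr_basisBar_ne_zero [DecidableEq (Fin (Nat.card (ModFun.Coset N)))] :
    letI := ratAlgebra (transcendental_jF (K := ResidueField A) (N := N) (F := Fk) rfl)
    Algebra.discr (RatFunc (ResidueField A)) (basisBar hF hNA) ≠ 0 := by
  let _ := ratAlgebra (transcendental_jF (K := ResidueField A) (N := N) (F := Fk) rfl)
  have := finiteDimensional_jF (K := ResidueField A) (N := N) (F := Fk) rfl hNA
  have := isSeparable_jF (K := ResidueField A) (N := N) (F := Fk) rfl hNA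
  have := finite_ratAlgebra (transcendental_jF (K := ResidueField A) (N := N) (F := Fk) rfl)
  have := isSeparable_ratAlgebra (transcendental_jF (K := ResidueField A) (N := N) (F := Fk) rfl)
  exact Algebra.discr_not_zero_of_basis _ _

/-- The Gauss model of level `N`. -/
def model :
    @Model L _ A (Fin (Nat.card (ModFun.Coset N))) _ F _ (ratAlgebra (transcendental_jF hF)) Fk _
      (ratAlgebra (transcendental_jF (K := ResidueField A) (N := N) (F := Fk) rfl)) :=
  letI := ratAlgebra (transcendental_jF hF)
  letI := ratAlgebra (transcendental_jF (K := ResidueField A) (N := N) (F := Fk) rfl)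
  { b := basisInt hF hNA
    bb := basisBar hF hNA
    one_int := fun i => (repr_one hF hNA i).1
    one_red := fun i => (repr_one hF hNA i).2
    mul_int := fun i j l => (repr_basis_mul hF hNA i j l).1
    mul_red := fun i j l => (repr_basis_mul hF hNA i j l).2
    disc_ne := fun {_} => discr_basisBar_ne_zero hF hNA }

theorem mem_model_S (y : sint A F) :
    letI := ratAlgebra (transcendental_jF hF)
    letI := ratAlgebra (transcendental_jF (K := ResidueField A) (N := N) (F := Fk) rfl)
    (y : F) ∈ (model hF hNA).S := fun i => (repr_redF hF hNA y i).1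

theorem model_red (y : sint A F) :
    letI := ratAlgebra (transcendental_jF hF)
    letI := ratAlgebra (transcendental_jF (K := ResidueField A) (N := N) (F := Fk) rfl)
    (model hF hNA).red ⟨y, mem_model_S hF hNA y⟩ = redF hF hNA y := by
  let _ := ratAlgebra (transcendental_jF hF)
  let _ := ratAlgebra (transcendental_jF (K := ResidueField A) (N := N) (F := Fk) rfl)
  refine (model hF hNA).bb.ext_elem fun i => ?_
  rw [Model.repr_red]
  exact (repr_redF hF hNA y i).2

/-- Fractions of integral series with primitive denominator lie in the lattice of the model. -/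
theorem mem_model_S_of_mul_eq {y : F} {d p : serInt A} (hd : serRed A d ≠ 0)
    (hy : (y : LaurentSeries L) * d = p) :
    letI := ratAlgebra (transcendental_jF hF)
    letI := ratAlgebra (transcendental_jF (K := ResidueField A) (N := N) (F := Fk) rfl)
    ∃ h : y ∈ (model hF hNA).S,
      ((model hF hNA).red ⟨y, h⟩ : LaurentSeries (ResidueField A)) * serRed A d = serRed A p := by
  let _ := ratAlgebra (transcendental_jF hF)
  let _ := ratAlgebra (transcendental_jF (K := ResidueField A) (N := N) (F := Fk) rfl)
  obtain ⟨z, hz, h⟩ := coords hF hNA hd hy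
  refine ⟨fun i => (h i).1, ?_⟩
  rw [show (model hF hNA).red ⟨y, fun i => (h i).1⟩ = z from ?_]
  · exact hz
  · refine (model hF hNA).bb.ext_elem fun i => ?_
    rw [Model.repr_red]
    exact (h i).2

end Fermat.Agent.RedTorsion

end
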