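import Fermat.Agent.FF.RiemannRoch
import Fermat.Prelude.Def_AlgebraicCurve_DivisorPushPull
import Mathlib.RingTheory.Trace.Basic
import Mathlib.RingTheory.Valuation.LocalSubring
import Mathlib.FieldTheory.IsAlgClosed.AlgebraicClosure

/-!
# Traces and places

The trace of a function which vanishes at all places over `Q` vanishes at `Q`; more precisely,
the trace is congruent to a multiple of the value at a single place.
-/

set_option autoImplicit false

noncomputable section

open scoped Classical
open AlgebraicCurve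

namespace Fermat.Agent.RedTorsion

open Fermat.Agent.FF

set_option linter.unusedSectionVars false

section Nonunits

variable {K F : Type*} [Field K] [Field F] [Algebra K F] (P : Place K F)

theorem mem_ordGe_one_iff {f : F} :
    f ∈ ordGe P 1 ↔ f ∈ P.toValuationSubring.nonunits := by
  rw [mem_ordGe, ValuationSubring.mem_nonunits_iff_or]
  refine or_congr_right' fun hf => ?_
  rw [mem_iff_ord P (inv_ne_zero hf), P.ord_inv]
  omega

theorem algebraMap_mem_ordGe_one_iff {a : K} : algebraMap K F a ∈ ordGe P 1 ↔ a = 0 := by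
  constructor
  · intro h
    by_contra ha
    have := le_ord_of_mem_ordGe P (by simpa using ha) h
    rw [ord_algebraMap] at this
    omega
  · rintro rfl
    simp

/-- The value of a regular function at a place with residue field `K`. -/
theorem exists_sub_mem_ordGe_one [IsAlgClosed K] [IsFunctionField K F] {f : F}
    (hf : f ∈ ordGe P 0) : ∃ c : K, f - algebraMap K F c ∈ ordGe P 1 := by
  have := finite_residueField P
  have hf' : f ∈ P.toValuationSubring := (mem_ordGe_zero P).mp hf
  obtain ⟨c, hc⟩ := (IsAlgClosed.algebraMap_bijective_of_isIntegral (k := K)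
    (K := P.ResidueField)).surjective (IsLocalRing.residue _ ⟨f, hf'⟩)
  refine ⟨c, ?_⟩
  have h0 : IsLocalRing.residue _ ((⟨f, hf'⟩ : P.toValuationSubring) -
      algebraMap K P.toValuationSubring c) = 0 := by
    rw [map_sub, sub_eq_zero, ← hc]
    rfl
  rw [IsLocalRing.residue_eq_zero_iff] at h0
  rw [mem_ordGe_one_iff]
  exact ValuationSubring.coe_mem_nonunits_iff.mpr h0

end Nonunits

variable {K G F : Type*} [Field K] [Field G] [Field F] [Algebra K G] [Algebra K F] [Algebra G F]
  [IsScalarTower K G F] [IsFunctionField K G] [IsFunctionField K F]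
  [FiniteDimensional G F] [Algebra.IsSeparable G F]

/-- A valuation ring of an extension lying over a given place. -/
theorem exists_valuationSubring_over {Ω : Type*} [Field Ω] (φ : F →+* Ω) (P : Place K F) :
    ∃ W : ValuationSubring Ω, W.comap φ = P.toValuationSubring := by
  obtain ⟨W, hle, hloc⟩ :=
    (LocalSubring.range (φ.comp P.toValuationSubring.subtype)).exists_le_valuationSubring
  refine ⟨W, SetLike.ext fun f => ⟨fun hf => ?_, fun hf => hle ⟨⟨f, hf⟩, rfl⟩⟩⟩
  rw [ValuationSubring.mem_comap] at hf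
  by_contra hfP
  have hf0 : f ≠ 0 := fun h => hfP (h ▸ zero_mem _)
  have hinv : f⁻¹ ∈ P.toValuationSubring := (P.toValuationSubring.mem_or_inv_mem f).resolve_left hfP
  set z : (LocalSubring.range (φ.comp P.toValuationSubring.subtype)).toSubring :=
    ⟨φ f⁻¹, ⟨⟨f⁻¹, hinv⟩, rfl⟩⟩
  have hu : IsUnit (Subring.inclusion hle z) := by
    refine ⟨⟨_, ⟨φ f, hf⟩, Subtype.ext ?_, Subtype.ext ?_⟩, rfl⟩
    · exact (map_mul φ _ _).symm.trans (by rw [inv_mul_cancel₀ hf0, map_one]; rfl)
    · exact (map_mul φ _ _).symm.trans (by rw [mul_inv_cancel₀ hf0, map_one]; rfl)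
  obtain ⟨⟨_, g, rfl⟩, h1⟩ := isUnit_iff_exists_inv.mp (hloc.map_nonunit z hu)
  have h3 : φ (f⁻¹ * (g : F)) = φ 1 := by
    rw [map_mul, map_one]
    exact congrArg Subtype.val h1
  have h4 := φ.injective h3
  rw [inv_mul_eq_one₀ hf0] at h4
  exact hfP (h4 ▸ g.2)

/-- The trace of `u` modulo a place, given values of `u` at all places above it. -/
theorem trace_sub_mem_ordGe_one (Q : Place K G) (P : Place K F) (hP : P.restrict G = Q) {u : F}
    {c : K} (hu : u - algebraMap K F c ∈ ordGe P 1)
    (hother : ∀ P' : Place K F, P'.restrict G = Q → P' ≠ P → u ∈ ordGe P' 1) :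
    ∃ r : ℕ, 0 < r ∧ Algebra.trace G F u - algebraMap K G (r * c) ∈ ordGe Q 1 := by
  let Ω := AlgebraicClosure F
  obtain ⟨W, hW⟩ := exists_valuationSubring_over (algebraMap F Ω) P
  set σ₀ : F →ₐ[G] Ω := IsScalarTower.toAlgHom G F Ω
  have hWG : W.comap (algebraMap G Ω) = Q.toValuationSubring := by
    rw [← hP, Place.restrict_toValuationSubring, ← hW, ValuationSubring.comap_comap,
      ← IsScalarTower.algebraMap_eq]
  have hK : ∀ a : K, algebraMap G Ω (algebraMap K G a) ∈ W := fun a =>
    ValuationSubring.mem_comap.mp (hWG.symm ▸ Q.algebraMap_mem' a)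
  -- each embedding gives a place over `Q`
  have hplace : ∀ σ : F →ₐ[G] Ω, ∃ P' : Place K F, P'.restrict G = Q ∧
      P'.toValuationSubring = W.comap σ.toRingHom := by
    intro σ
    have hA : ∀ a : K, algebraMap K F a ∈ W.comap σ.toRingHom := fun a => by
      rw [ValuationSubring.mem_comap, IsScalarTower.algebraMap_apply K G F]
      simpa using hK a
    have hne : W.comap σ.toRingHom ≠ ⊤ := fun htop => Q.ne_top' (by
      rw [← hWG]
      refine SetLike.ext fun g => ⟨fun _ => ValuationSubring.mem_top g, fun _ => ?_⟩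
      have := ValuationSubring.mem_comap.mp (htop ▸ ValuationSubring.mem_top (algebraMap G F g))
      simpa using this)
    refine ⟨placeOfValuationSubring _ hA hne, Place.ext ?_, rfl⟩
    rw [Place.restrict_toValuationSubring]
    show (W.comap σ.toRingHom).comap (algebraMap G F) = _
    rw [ValuationSubring.comap_comap, ← hWG]
    exact congrArg W.comap σ.comp_algebraMap
  choose pl hpl hplv using hplace
  have hnon : ∀ (σ : F →ₐ[G] Ω) (f : F), f ∈ ordGe (pl σ) 1 → W.valuation (σ f) < 1 := by
    intro σ f hf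
    rw [mem_ordGe_one_iff, hplv σ, ValuationSubring.mem_nonunits_iff_or,
      ValuationSubring.mem_comap] at hf
    rw [← ValuationSubring.mem_nonunits_iff, ValuationSubring.mem_nonunits_iff_or]
    rcases hf with hf | hf
    · exact Or.inl (by simp [hf])
    · exact Or.inr (by simpa using hf)
  set S := Finset.univ.filter fun σ : F →ₐ[G] Ω => pl σ = P with hS
  have hσ₀ : σ₀ ∈ S := by
    simp only [hS, Finset.mem_filter, Finset.mem_univ, true_and]
    exact Place.ext (by rw [hplv]; exact hW)
  refine ⟨S.card, Finset.card_pos.mpr ⟨σ₀, hσ₀⟩, ?_⟩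
  set a : Ω := algebraMap G Ω (algebraMap K G c) with ha
  have hterm : ∀ σ : F →ₐ[G] Ω, W.valuation (σ u - if σ ∈ S then a else 0) < 1 := by
    intro σ
    split_ifs with h
    · have hσ : pl σ = P := (Finset.mem_filter.mp h).2
      have := hnon σ _ (hσ ▸ hu)
      rwa [map_sub, IsScalarTower.algebraMap_apply K G F, AlgHom.commutes] at this
    · rw [sub_zero]
      exact hnon σ u (hother _ (hpl σ) (fun h' => h (Finset.mem_filter.mpr ⟨Finset.mem_univ _, h'⟩)))
  have hsum : algebraMap G Ω (Algebra.trace G F u - algebraMap K G (S.card * c)) =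
      ∑ σ : F →ₐ[G] Ω, (σ u - if σ ∈ S then a else 0) := by
    rw [map_sub, trace_eq_sum_embeddings, Finset.sum_sub_distrib, map_mul, map_mul, map_natCast,
      map_natCast, Finset.sum_ite_mem, Finset.univ_inter, Finset.sum_const, nsmul_eq_mul, ha]
  have hlt : W.valuation (algebraMap G Ω (Algebra.trace G F u - algebraMap K G (S.card * c))) < 1 := by
    rw [hsum]
    exact Valuation.map_sum_lt _ one_ne_zero fun σ _ => hterm σ
  rw [← ValuationSubring.mem_nonunits_iff, ValuationSubring.mem_nonunits_iff_or] at hlt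
  rw [mem_ordGe_one_iff, ValuationSubring.mem_nonunits_iff_or]
  rcases hlt with h | h
  · exact Or.inl ((map_eq_zero _).mp h)
  · refine Or.inr fun hmem => h ?_
    rw [← map_inv₀]
    exact ValuationSubring.mem_comap.mp (hWG.symm ▸ hmem)

/-- If `u` vanishes at all places over `Q`, so does its trace. -/
theorem trace_mem_ordGe_one (Q : Place K G) {u : F}
    (h : ∀ P : Place K F, P.restrict G = Q → u ∈ ordGe P 1)
    (hne : ∃ P : Place K F, P.restrict G = Q) :
    Algebra.trace G F u ∈ ordGe Q 1 := by
  obtain ⟨P, hP⟩ := hne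
  obtain ⟨r, -, hr⟩ := trace_sub_mem_ordGe_one (c := (0 : K)) Q P hP (by simpa using h P hP)
    fun P' hP' _ => h P' hP'
  simpa using hr

/-- The trace version of `ord ≥ -(e s + e - 1) ⇒ ord ≥ -s`. -/
theorem trace_mem_ordGe (Q : Place K G) (s : ℤ) {y : F}
    (h : ∀ P : Place K F, P.restrict G = Q →
      y ∈ ordGe P (1 - (P.ramificationIndex G : ℤ) * (s + 1)))
    (hne : ∃ P : Place K F, P.restrict G = Q) :
    Algebra.trace G F y ∈ ordGe Q (-s) := by
  obtain ⟨t, ht, hto⟩ := exists_ord_eq Q (s + 1)
  have h1 : Algebra.trace G F (t • y) ∈ ordGe Q 1 := trace_mem_ordGe_one Q (fun P hP => by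
    rw [Algebra.smul_def]
    have := mul_mem_ordGe P (mem_ordGe_of_le P (le_refl (P.ord (algebraMap G F t)))) (h P hP)
    refine ordGe_anti P (le_of_eq ?_) this
    rw [P.ord_restrict t, hP, hto]
    ring) hne
  rw [map_smul, smul_eq_mul] at h1
  have h2 := mul_mem_ordGe Q (mem_ordGe_of_le Q (le_refl (Q.ord t⁻¹))) h1
  rw [← mul_assoc, inv_mul_cancel₀ ht, one_mul, Q.ord_inv, hto] at h2
  exact ordGe_anti Q (by omega) h2

end Fermat.Agent.RedTorsion

end
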