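import Fermat.Agent.RedTorsion.Series
import Fermat.Agent.RedTorsion.PolesOrbits
import Fermat.Prelude.Def_ModularCurve_X0ModL

/-!
# Bounded expansions in the modular function field

Every element of the field of level `N` is a fraction of bounded series, and a function regular
outside the poles of a bounded function has a bounded expansion.
-/

set_option autoImplicit false
set_option maxHeartbeats 1000000
set_option synthInstance.maxHeartbeats 400000
set_option linter.unusedSectionVars false

noncomputable section

open Polynomial AlgebraicCurve IsLocalRing ModularCurve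
open scoped Classical IntermediateField

namespace Fermat.Agent.RedTorsion

open Fermat.Agent.FF

attribute [local instance 10000] serModule serSMul

variable {L : Type*} [Field L] [CharZero L] {A : ValuationSubring L}

theorem qExpand_jqModC_mem_serInt (d : ℕ) [NeZero d] :
    qExpand L d (jqModC L) ∈ serInt A :=
  ⟨qExpand A d (jqModC A), by rw [coeffMap_qExpand, coeffMap_jqModC]⟩

variable {N : ℕ} {F : IntermediateField L (LaurentSeries L)}
  (hF : F = modularFunctionFieldFullC L N)

include hF in
/-- Every element is a fraction of bounded series. -/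
theorem exists_bdd_den {y : LaurentSeries L} (hy : y ∈ F) :
    ∃ d ∈ serBdd A, d ≠ 0 ∧ d * y ∈ serBdd A := by
  rw [hF, modularFunctionFieldFullC] at hy
  induction hy using IntermediateField.adjoin_induction with
  | mem x hx =>
    obtain ⟨d, hd0, -, rfl⟩ := hx
    have := hd0
    exact ⟨1, one_mem _, one_ne_zero, by
      rw [one_mul]; exact serInt_le_serBdd (qExpand_jqModC_mem_serInt d)⟩
  | algebraMap c => exact ⟨1, one_mem _, one_ne_zero, by rw [one_mul]; exact algebraMap_mem_serBdd c⟩
  | add x y _ _ hx hy =>
    obtain ⟨d, hd, hd0, hdx⟩ := hx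
    obtain ⟨e, he, he0, hey⟩ := hy
    refine ⟨d * e, mul_mem hd he, mul_ne_zero hd0 he0, ?_⟩
    rw [show d * e * (x + y) = e * (d * x) + d * (e * y) by ring]
    exact add_mem (mul_mem he hdx) (mul_mem hd hey)
  | inv x _ hx =>
    obtain ⟨d, hd, hd0, hdx⟩ := hx
    rcases eq_or_ne x 0 with rfl | hx0
    · exact ⟨1, one_mem _, one_ne_zero, by rw [inv_zero, mul_zero]; exact zero_mem _⟩
    · refine ⟨d * x, hdx, mul_ne_zero hd0 hx0, ?_⟩
      rwa [mul_assoc, mul_inv_cancel₀ hx0, mul_one]
  | mul x y _ _ hx hy =>
    obtain ⟨d, hd, hd0, hdx⟩ := hx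
    obtain ⟨e, he, he0, hey⟩ := hy
    refine ⟨d * e, mul_mem hd he, mul_ne_zero hd0 he0, ?_⟩
    rw [show d * e * (x * y) = (d * x) * (e * y) by ring]
    exact mul_mem hdx hey

include hF in
/-- The coefficients of an element lie in a number field. -/
theorem mem_finCoeff_full [Algebra.IsAlgebraic ℚ L] {y : LaurentSeries L}
    (hy : y ∈ F) : y ∈ finCoeff L := by
  let S : IntermediateField L (LaurentSeries L) :=
    (finCoeff L).toIntermediateField algebraMap_mem_finCoeff
  suffices h : modularFunctionFieldFullC L N ≤ S from h (hF ▸ hy)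
  rw [modularFunctionFieldFullC, IntermediateField.adjoin_le_iff]
  rintro _ ⟨d, hd, -, rfl⟩
  have := hd
  show qExpand L d (jqModC L) ∈ finCoeff L
  refine ⟨⊥, inferInstance, qExpand _ d (jqModC _), ?_⟩
  rw [coeffMap_qExpand, coeffMap_jqModC]

include hF in
/-- A function regular wherever a bounded function is regular has a bounded expansion. -/
theorem mem_serBdd_of_regular [Algebra.IsAlgebraic ℚ L] {q : ℕ}
    (hA : A.LiesOverPrime q) (hq : q.Prime) [IsFunctionField L F] {x y : F}
    (hx : (x : LaurentSeries L) ∈ serBdd A)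
    (hy : ∀ v : Place L F, x ∈ v.toValuationSubring → y ∈ v.toValuationSubring) :
    (y : LaurentSeries L) ∈ serBdd A := by
  obtain ⟨d, hd, hd0, hdy⟩ := exists_bdd_den (A := A) hF y.2
  obtain ⟨P, hP, hPy⟩ := isIntegral_of_forall_mem (K := L) (Algebra.adjoin L ({x} : Set F))
    (f := y) fun v hv => hy v (hv _ (Algebra.self_mem_adjoin_singleton L x))
  have hcoef : ∀ r : Algebra.adjoin L ({x} : Set F),
      (((r : F) : LaurentSeries L)) ∈ serBdd A := by
    rintro ⟨r, hr⟩
    induction hr using Algebra.adjoin_induction with
    | mem z hz => obtain rfl : z = x := hz; exact hx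
    | algebraMap c =>
      rw [IntermediateField.coe_algebraMap_apply]; exact algebraMap_mem_serBdd c
    | add a b _ _ ha hb => exact add_mem ha hb
    | mul a b _ _ ha hb => exact mul_mem ha hb
  refine mem_serBdd_of_monic_rel hA hq hd hd0 hdy (D := P.natDegree)
    (a := fun i => (((P.coeff i : Algebra.adjoin L ({x} : Set F)) : F) : LaurentSeries L))
    (fun i _ => hcoef _) ?_
  have h1 := congrArg (fun z : F => (z : LaurentSeries L)) hPy
  simp only [eval₂_eq_sum_range, Finset.sum_range_succ, hP.coeff_natDegree, map_one, one_mul,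
    ZeroMemClass.coe_zero, IntermediateField.coe_add, IntermediateField.coe_pow] at h1
  rw [← h1, AddSubmonoidClass.coe_finsetSum, add_comm]
  refine congrArg (· + _) (Finset.sum_congr rfl fun i _ => ?_)
  rfl

end Fermat.Agent.RedTorsion

end
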