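import Fermat.Agent.RedTorsion.SeriesModel
import Fermat.Agent.EichlerShimura.Regular
import Fermat.Prelude.Def_ModularCurve_X0

/-!
# `jqModC` is a unit
-/

set_option autoImplicit false
set_option linter.unusedSectionVars false

noncomputable section

open Polynomial AlgebraicCurve IsLocalRing ModularCurve
open scoped Classical IntermediateField

namespace Fermat.Agent.RedTorsion

-- searches for the constants inside Laurent series are slow without these priorities
attribute [local instance 10000] SubalgebraClass.toAlgebra HahnSeries.powerSeriesAlgebra

open Fermat.Agent.FF Fermat.Agent.EichlerShimura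

section InvJ

theorem isUnit_jqModC (R : Type*) [CommRing R] : IsUnit (jqModC R) := by
  rw [jqModC]
  refine IsUnit.mul (IsUnit.of_mul_eq_one (HahnSeries.single (1 : ℤ) (1 : R)) ?_) (IsUnit.map _ ?_)
  · rw [HahnSeries.single_mul_single, mul_one]; rfl
  · rw [PowerSeries.isUnit_iff_constantCoeff]
    rw [← PowerSeries.coeff_zero_eq_constantCoeff, PowerSeries.coeff_map,
      PowerSeries.coeff_zero_eq_constantCoeff, constantCoeff_jNum, map_one]
    exact isUnit_one

end InvJ

end Fermat.Agent.RedTorsion

end
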