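import Fermat.Agent.RedTorsion.LinePlaces
import Mathlib.RingTheory.Trace.Basic

/-!
# The trace dual of a function field over `K[x]`

`IsDualAt x Q s y` says that `Tr (y β)` has a pole of order at most `s` at `Q` for all `β` regular
over `Q`. This is an upper bound for the local inverse different, and in characteristic zero it is
exactly the inverse different.
-/

set_option autoImplicit false

noncomputable section

open scoped Classical
open AlgebraicCurve Polynomial IntermediateField

namespace Fermat.Agent.RedTorsion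

open Fermat.Agent.FF

set_option linter.unusedSectionVars false

variable {K F : Type*} [Field K] [Field F] [Algebra K F] {x : F}

/-- `Tr (y β)` has pole order at most `s` at `Q` for all `β` regular over `Q`. -/
def IsDualAt (x : F) [FiniteDimensional K⟮x⟯ F] (Q : Place K K⟮x⟯) (s : ℤ) (y : F) : Prop :=
  ∀ β : F, (∀ P : Place K F, below x P = Q → β ∈ ordGe P 0) →
    Algebra.trace K⟮x⟯ F (y * β) ∈ ordGe Q (-s)

variable [IsAlgClosed K] [IsFunctionField K F] [FiniteDimensional K⟮x⟯ F]
  [Algebra.IsSeparable K⟮x⟯ F]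

theorem exists_below_eq (hx : Transcendental K x) (Q : Place K K⟮x⟯) :
    ∃ P : Place K F, below x P = Q := by
  have := isFunctionField_adjoin hx
  exact exists_restrict_eq Q

theorem trace_mem_ordGe' (hx : Transcendental K x) (Q : Place K K⟮x⟯) (s : ℤ) {y : F}
    (h : ∀ P : Place K F, below x P = Q →
      y ∈ ordGe P (1 - (P.ramificationIndex K⟮x⟯ : ℤ) * (s + 1))) :
    Algebra.trace K⟮x⟯ F y ∈ ordGe Q (-s) := by
  have := isFunctionField_adjoin hx
  exact trace_mem_ordGe Q s h (exists_below_eq hx Q)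

namespace IsDualAt

variable {Q : Place K K⟮x⟯} {s : ℤ} {y : F}

theorem of_ord (hx : Transcendental K x)
    (h : ∀ P : Place K F, below x P = Q →
      y ∈ ordGe P (1 - (P.ramificationIndex K⟮x⟯ : ℤ) * (s + 1))) :
    IsDualAt x Q s y := fun β hβ =>
  trace_mem_ordGe' hx Q s fun P hP => by simpa using mul_mem_ordGe P (h P hP) (hβ P hP)

theorem zero : IsDualAt x Q s (0 : F) := fun β _ => by simp

theorem add {z : F} (hy : IsDualAt x Q s y) (hz : IsDualAt x Q s z) : IsDualAt x Q s (y + z) :=
  fun β hβ => by rw [add_mul, map_add]; exact add_mem (hy β hβ) (hz β hβ)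

theorem sum {ι : Type*} (t : Finset ι) {u : ι → F} (h : ∀ i ∈ t, IsDualAt x Q s (u i)) :
    IsDualAt x Q s (∑ i ∈ t, u i) := by
  induction t using Finset.induction_on with
  | empty => simpa using zero
  | @insert a t ha ih =>
    rw [Finset.sum_insert ha]
    exact add (h a (Finset.mem_insert_self a t))
      (ih fun i hi => h i (Finset.mem_insert_of_mem hi))

theorem smul (hy : IsDualAt x Q s y) (a : K) : IsDualAt x Q s (a • y) := fun β hβ => by
  rw [smul_mul_assoc, ← mul_smul_comm]
  exact hy _ fun P hP => Submodule.smul_mem _ a (hβ P hP)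

theorem mul (hy : IsDualAt x Q s y) {β : F} (hβ : ∀ P : Place K F, below x P = Q → β ∈ ordGe P 0) :
    IsDualAt x Q s (y * β) := fun γ hγ => by
  rw [mul_assoc]
  exact hy _ fun P hP => by simpa using mul_mem_ordGe P (hβ P hP) (hγ P hP)

theorem coe_mul (hy : IsDualAt x Q s y) (g : K⟮x⟯) {n : ℤ} (hn : g ∈ ordGe Q (-n)) :
    IsDualAt x Q (s + n) ((g : F) * y) := fun β hβ => by
  rw [mul_assoc, show (g : F) * (y * β) = g • (y * β) from rfl, map_smul, smul_eq_mul]
  exact ordGe_anti Q (by omega) (mul_mem_ordGe Q hn (hy β hβ))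

/-- Elements bounded place by place by dual elements are dual. -/
theorem of_bound (hx : Transcendental K x)
    (h : ∀ P : Place K F, below x P = Q → ∃ u : F, u ≠ 0 ∧ IsDualAt x Q 0 u ∧ y ∈ ordGe P (P.ord u)) :
    IsDualAt x Q 0 y := by
  rcases eq_or_ne y 0 with rfl | hy0
  · exact zero
  have hfin : {P : Place K F | below x P = Q}.Finite := Place.restrict_fiber_finite Q
  set S := hfin.toFinset with hS
  have hmem : ∀ P, P ∈ S ↔ below x P = Q := fun P => hfin.mem_toFinset
  choose! u hu0 hud hub using h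
  set B : ℕ := ∑ P ∈ S, ((P.ord y).natAbs + ∑ P' ∈ S, (P.ord (u P')).natAbs) with hB
  have hbnd : ∀ P ∈ S, ∀ P' ∈ S, (P.ord y).natAbs + (P.ord (u P')).natAbs ≤ B := by
    intro P hP P' hP'
    refine le_trans ?_ (Finset.single_le_sum
      (f := fun P => (P.ord y).natAbs + ∑ P' ∈ S, (P.ord (u P')).natAbs)
      (fun _ _ => Nat.zero_le _) hP)
    have := Finset.single_le_sum (f := fun P' => (P.ord (u P')).natAbs)
      (fun _ _ => Nat.zero_le _) hP'
    omega
  choose ε hε using fun P₀ : Place K F =>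
    exists_approx S (fun P => if P = P₀ then (1 : F) else 0) (fun _ => (B : ℤ))
  have hrest : IsDualAt x Q 0 (y - ∑ P₀ ∈ S, ε P₀ * y) := by
    refine of_ord hx fun P hP => ?_
    have hPS := (hmem P).mpr hP
    have h1 : (1 : F) - ∑ P₀ ∈ S, ε P₀ ∈ ordGe P B := by
      have : (1 : F) - ∑ P₀ ∈ S, ε P₀ = -∑ P₀ ∈ S, (ε P₀ - if P = P₀ then 1 else 0) := by
        rw [Finset.sum_sub_distrib, Finset.sum_ite_eq, if_pos hPS]
        ring
      rw [this]
      exact neg_mem (sum_mem fun P₀ _ => hε P₀ P hPS)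
    have h2 := mul_mem_ordGe P h1 (mem_ordGe_of_le P (le_refl (P.ord y)))
    rw [sub_mul, one_mul, Finset.sum_mul] at h2
    refine ordGe_anti P ?_ h2
    have := hbnd P hPS P hPS
    have := ram_pos (x := x) P
    omega
  have hmain : IsDualAt x Q 0 (∑ P₀ ∈ S, ε P₀ * y) := sum S fun P₀ hP₀ => by
    have hP₀' := (hmem P₀).mp hP₀
    rw [show ε P₀ * y = u P₀ * (ε P₀ * (y * (u P₀)⁻¹)) by
      field_simp [hu0 P₀ hP₀']]
    refine (hud P₀ hP₀').mul fun P hP => ?_
    have hPS := (hmem P).mpr hP
    have hq : y * (u P₀)⁻¹ ∈ ordGe P (P.ord y - P.ord (u P₀)) :=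
      mem_ordGe_of_le P (by rw [P.ord_mul hy0 (inv_ne_zero (hu0 P₀ hP₀')), P.ord_inv]; omega)
    have he := hε P₀ P hPS
    by_cases hPP : P = P₀
    · subst hPP
      rw [if_pos rfl] at he
      have h1 : ε P ∈ ordGe P 0 := by
        simpa using add_mem (ordGe_anti P (Int.natCast_nonneg _) he)
          ((mem_ordGe_zero P).mpr (one_mem _))
      refine ordGe_anti P ?_ (mul_mem_ordGe P h1 hq)
      have := le_ord_of_mem_ordGe P hy0 (hub P hP)
      omega
    · rw [if_neg hPP, sub_zero] at he
      refine ordGe_anti P ?_ (mul_mem_ordGe P he hq)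
      have := hbnd P hPS P₀ hP₀
      omega
  simpa using add hrest hmain

end IsDualAt

/-- The bound at a place of `K(x)` prescribed by `N` times the polar divisor of `x`. -/
def sAt (x : F) (N : ℕ) (Q : Place K K⟮x⟯) : ℤ := if Q.ord (gen x : K⟮x⟯) < 0 then N else 0

/-- The trace dual with poles of order `N` allowed at infinity. -/
def dualSpace (x : F) [FiniteDimensional K⟮x⟯ F] [Algebra.IsSeparable K⟮x⟯ F] (N : ℕ) :
    Submodule K F where
  carrier := {y | ∀ Q : Place K K⟮x⟯, IsDualAt x Q (sAt x N Q) y}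
  zero_mem' := fun _ => IsDualAt.zero
  add_mem' := fun hy hz Q => (hy Q).add (hz Q)
  smul_mem' := fun a _ hy Q => (hy Q).smul a

theorem one_mem_dualSpace (hx : Transcendental K x) : (1 : F) ∈ dualSpace (K := K) x 0 :=
  fun Q => IsDualAt.of_ord hx fun P _ => mem_ordGe_of_le P (by
    rw [P.ord_one, sAt]
    have := ram_pos (x := x) P
    split_ifs <;> simp <;> omega)

theorem gen_pow_mem_ordGe (hx : Transcendental K x) {k N : ℕ} (h : k ≤ N) (Q : Place K K⟮x⟯) :
    (gen x : K⟮x⟯) ^ k ∈ ordGe Q (-sAt x N Q) := by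
  refine mem_ordGe_of_le Q ?_
  rw [ord_pow, sAt]
  have : (k : ℤ) ≤ N := by exact_mod_cast h
  split_ifs with hQ
  · rw [ord_gen_of_pole hx Q hQ]; omega
  · rw [neg_zero]; exact mul_nonneg (Int.natCast_nonneg _) (by omega)

/-- An element of `K(x)` in `L(N (x)_∞)` is a polynomial of degree at most `N`. -/
theorem exists_eq_aeval_of_mem {ι : Type*} [Fintype ι] {b : ι → F} {e : ι → ℕ}
    (h : IsReduced (K := K) x b e) (_hx : Transcendental K x) {N : ℕ} {g : K⟮x⟯}
    (hg : (g : F) ∈ riemannRochSpace (N • poles K x)) :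
    ∃ p : K[X], p.natDegree ≤ N ∧ g = aevalGen x p := by
  obtain ⟨α, h1, hα⟩ := h.repr 0 1 (by simp [mem_riemannRochSpace', mem_ordGe_of_le])
  obtain ⟨P, hgP, hP⟩ := h.repr N g hg
  obtain ⟨l, hl⟩ : ∃ l, α l ≠ 0 := by
    by_contra! hall
    simp [hall] at h1
  have hdeg := hα l hl
  obtain ⟨c, hc⟩ := natDegree_eq_zero.mp (show (α l).natDegree = 0 by omega)
  have hc0 : c ≠ 0 := by rintro rfl; simp at hc; exact hl hc.symm
  have hzero : ∑ i, (g * aevalGen x (α i) - aevalGen x (P i)) • b i = 0 := by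
    simp only [IntermediateField.smul_def, smul_eq_mul, AddSubgroupClass.coe_sub,
      IntermediateField.coe_mul, coe_aevalGen, sub_mul, Finset.sum_sub_distrib, mul_assoc,
      ← Finset.mul_sum, ← h1, ← hgP, mul_one, sub_self]
  have hl' := sub_eq_zero.mp (Fintype.linearIndependent_iff.mp h.indep _ hzero l)
  refine ⟨C c⁻¹ * P l, ?_, ?_⟩
  · refine natDegree_mul_le.trans ?_
    by_cases hPl : P l = 0
    · simp [hPl]
    · have := hP l hPl
      simp; omega
  · refine Subtype.ext ?_
    have h2 := congrArg Subtype.val hl'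
    simp only [IntermediateField.coe_mul, coe_aevalGen, ← hc, aeval_C] at h2
    rw [coe_aevalGen, map_mul, aeval_C, ← h2, ← mul_assoc, mul_comm _ (g : F), mul_assoc, ← map_mul,
      inv_mul_cancel₀ hc0, map_one, mul_one]

theorem trace_comb {ι : Type*} [Fintype ι] {b : ι → F} {y β : F} {q : K[X]} {R p : ι → K[X]}
    (hR : aeval x q * β = ∑ i, aeval x (R i) * b i)
    (hp : ∀ i, Algebra.trace K⟮x⟯ F (y * b i) = aevalGen x (p i)) :
    aevalGen x q * Algebra.trace K⟮x⟯ F (y * β) =
      aeval (gen x : K⟮x⟯) (∑ i, R i * p i) := by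
  have h1 : aevalGen x q • (y * β) = ∑ i, aevalGen x (R i) • (y * b i) := by
    simp only [IntermediateField.smul_def, smul_eq_mul, coe_aevalGen]
    rw [show aeval x q * (y * β) = y * (aeval x q * β) by ring, hR, Finset.mul_sum]
    exact Finset.sum_congr rfl fun i _ => by ring
  have h2 := congrArg (Algebra.trace K⟮x⟯ F) h1
  simp only [map_smul, map_sum, smul_eq_mul, hp] at h2
  rw [h2, map_sum]
  exact Finset.sum_congr rfl fun i _ => by rw [map_mul, aeval_gen_eq, aeval_gen_eq]

theorem mem_dualSpace_iff {ι : Type*} [Fintype ι] {b : ι → F} {e : ι → ℕ}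
    (h : IsReduced (K := K) x b e) (hx : Transcendental K x) {N : ℕ} {y : F} :
    y ∈ dualSpace (K := K) x N ↔ ∀ i, ∃ p : K[X], p.natDegree ≤ N + e i ∧
      Algebra.trace K⟮x⟯ F (y * b i) = aevalGen x p := by
  have := isFunctionField_adjoin hx
  constructor
  · intro hy i
    refine exists_eq_aeval_of_mem h hx (mem_polesSpace.mpr fun P => ?_)
    set g := Algebra.trace K⟮x⟯ F (y * b i)
    have hgQ : g ∈ ordGe (below x P) (-((sAt x N (below x P)) + sAt x (e i) (below x P))) := by
      set Q := below x P with hQdef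
      by_cases hQ : Q.ord (gen x : K⟮x⟯) < 0
      · -- at infinity
        set t : K⟮x⟯ := (gen x : K⟮x⟯) ^ (e i) with ht
        have ht0 : t ≠ 0 := pow_ne_zero _ fun h => by simp [h] at hQ
        have htF : ((t : K⟮x⟯) : F) ≠ 0 := by simpa using ht0
        have hβ : ∀ P' : Place K F, below x P' = Q → b i * (t : F)⁻¹ ∈ ordGe P' 0 := by
          intro P' hP'
          have hto : P'.ord ((t : F)⁻¹) = (e i : ℤ) * poles K x P' := by
            have hP'x : P'.ord x < 0 := by
              by_contra h'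
              exact absurd ((ord_below_gen_nonneg_iff (x := x) P').mpr (by omega))
                (by rw [hP']; omega)
            rw [P'.ord_inv, ord_coe P' t, hP', ht, ord_pow, ord_gen_of_pole hx Q hQ,
              ram_of_pole hx P' hP'x]
            ring
          refine ordGe_anti P' ?_ (mul_mem_ordGe P' (mem_polesSpace.mp (h.mem i) P')
            (mem_ordGe_of_le P' (le_refl (P'.ord (t : F)⁻¹))))
          rw [hto]; omega
        have h1 := mul_mem_ordGe Q (mem_ordGe_of_le Q (le_refl (Q.ord t))) (hy Q _ hβ)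
        rw [← smul_eq_mul, ← map_smul, IntermediateField.smul_def, smul_eq_mul,
          show (t : F) * (y * (b i * (t : F)⁻¹)) = y * b i * ((t : F) * (t : F)⁻¹) by ring,
          mul_inv_cancel₀ htF, mul_one] at h1
        refine ordGe_anti Q ?_ h1
        rw [ht, ord_pow, ord_gen_of_pole hx Q hQ, sAt, sAt, if_pos hQ, if_pos hQ]
        omega
      · refine ordGe_anti Q ?_ (hy Q (b i) fun P' hP' => ?_)
        · simp [sAt, hQ]
        · have hP'x : 0 ≤ P'.ord x := (ord_below_gen_nonneg_iff (x := x) P').mp (by rw [hP']; omega)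
          refine ordGe_anti P' ?_ (mem_polesSpace.mp (h.mem i) P')
          simp [poles_apply, hP'x]
    rcases eq_or_ne g 0 with h0 | h0
    · simp [h0]
    have h1 := le_ord_of_mem_ordGe _ h0 hgQ
    refine mem_ordGe_of_le P ?_
    rw [ord_coe P g, poles_apply]
    by_cases hPx : P.ord x < 0
    · have hQ : ¬ 0 ≤ (below x P).ord (gen x : K⟮x⟯) := fun h' =>
        absurd ((ord_below_gen_nonneg_iff (x := x) P).mp h') (by omega)
      rw [sAt, sAt, if_pos (by omega), if_pos (by omega)] at h1
      have := ram_of_pole hx P hPx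
      rw [poles_apply] at this
      rw [max_eq_right (by omega)] at this ⊢
      have h2 : (0 : ℤ) ≤ P.ramificationIndex K⟮x⟯ := (ram_pos (x := x) P).le
      push_cast
      nlinarith
    · have hQ : 0 ≤ (below x P).ord (gen x : K⟮x⟯) := (ord_below_gen_nonneg_iff (x := x) P).mpr (by omega)
      rw [sAt, sAt, if_neg (by omega), if_neg (by omega)] at h1
      rw [max_eq_left (by omega)]
      have h2 : (0 : ℤ) ≤ P.ramificationIndex K⟮x⟯ := (ram_pos (x := x) P).le
      nlinarith
  · intro hy Q β hβ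
    choose p hpdeg hp using hy
    by_cases hQ : Q.ord (gen x : K⟮x⟯) < 0
    · have hβ' : ∀ P : Place K F, P.ord x < 0 → β ∈ ordGe P 0 := fun P hP => hβ P <|
        place_eq_of_pole hx (by
          by_contra h'
          exact absurd ((ord_below_gen_nonneg_iff (x := x) P).mp (by omega)) (by omega)) hQ
      obtain ⟨q, hq, hqβ⟩ := exists_clear_top hx hβ'
      obtain ⟨R, hR, hRdeg⟩ := h.repr _ _ hqβ
      have hq0 : aevalGen x q ≠ 0 := aevalGen_ne_zero hx hq
      have hT := trace_comb hR hp
      rcases eq_or_ne (Algebra.trace K⟮x⟯ F (y * β)) 0 with h0 | h0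
      · simp [h0]
      refine mem_ordGe_of_le Q ?_
      have h1 : aeval (gen x : K⟮x⟯) (∑ i, R i * p i) ∈ ordGe Q (-((q.natDegree : ℤ) + N)) := by
        rw [map_sum]
        refine sum_mem fun i _ => ?_
        by_cases hRi : R i = 0
        · simp [hRi]
        rw [map_mul]
        refine ordGe_anti Q ?_ (mul_mem_ordGe Q (aeval_mem_ordGe Q _ (p := R i) le_rfl)
          (aeval_mem_ordGe Q _ (p := p i) (hpdeg i)))
        rw [poles_apply, ord_gen_of_pole hx Q hQ]
        have := hRdeg i hRi
        norm_num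
        omega
      have h2 := le_ord_of_mem_ordGe Q (by rw [← hT]; exact mul_ne_zero hq0 h0) h1
      rw [← hT, Q.ord_mul hq0 h0, ← aeval_gen_eq, (ord_aeval_of_pole Q hQ q hq).2,
        ord_gen_of_pole hx Q hQ] at h2
      rw [sAt, if_pos hQ]
      omega
    · obtain ⟨a, ha⟩ := exists_sub_mem_ordGe_one Q (mem_ordGe_of_le Q (show 0 ≤ Q.ord (gen x : K⟮x⟯) by omega))
      obtain ⟨q, hqa, hqβ⟩ := exists_clear_at hx Q ha hβ
      obtain ⟨M, hM⟩ := exists_mem_polesSpace hqβ
      obtain ⟨R, hR, -⟩ := h.repr _ _ hM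
      have hq : q ≠ 0 := by rintro rfl; simp at hqa
      have hT := trace_comb hR hp
      obtain ⟨hq0, hqo⟩ := ord_aeval_of_zero Q ha (gen_sub_ne_zero hx a) hq
      rw [rootMultiplicity_eq_zero (by exact hqa), Nat.cast_zero, zero_mul] at hqo
      rw [aeval_gen_eq] at hq0 hqo
      have h1 : aeval (gen x : K⟮x⟯) (∑ i, R i * p i) ∈ ordGe Q 0 :=
        (mem_ordGe_zero Q).mpr (aeval_mem_valuationSubring Q ((mem_iff Q).mpr (Or.inr (by omega))) _)
      rw [← hT] at h1
      have h2 := mul_mem_ordGe Q (mem_ordGe_of_le Q (le_refl (Q.ord (aevalGen x q)⁻¹))) h1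
      rw [← mul_assoc, inv_mul_cancel₀ hq0, one_mul, Q.ord_inv, hqo] at h2
      simpa [sAt, hQ] using h2

/-- The coordinates `Tr (y bᵢ)`. -/
def traceCoords {ι : Type*} (b : ι → F) : F →ₗ[K⟮x⟯] (ι → K⟮x⟯) :=
  LinearMap.pi fun i => (Algebra.trace K⟮x⟯ F).comp (LinearMap.mulRight K⟮x⟯ (b i))

@[simp] theorem traceCoords_apply {ι : Type*} (b : ι → F) (y : F) (i : ι) :
    traceCoords (K := K) (x := x) b y i = Algebra.trace K⟮x⟯ F (y * b i) := rfl

theorem traceCoords_bijective {ι : Type*} [Fintype ι] {b : ι → F} {e : ι → ℕ}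
    (h : IsReduced (K := K) x b e) (hcard : Fintype.card ι = Module.finrank K⟮x⟯ F) :
    Function.Bijective (traceCoords (K := K) (x := x) b) := by
  have hinj : Function.Injective (traceCoords (K := K) (x := x) b) := by
    rw [← LinearMap.ker_eq_bot, LinearMap.ker_eq_bot']
    intro y hy
    refine (traceForm_nondegenerate K⟮x⟯ F).1 y fun z => ?_
    obtain ⟨c, rfl⟩ := (Submodule.mem_span_range_iff_exists_fun _).mp
      (show z ∈ Submodule.span K⟮x⟯ (Set.range b) by
        rw [h.indep.span_eq_top_of_card_eq_finrank' hcard]; trivial)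
    rw [Algebra.traceForm_apply, Finset.mul_sum, map_sum]
    refine Finset.sum_eq_zero fun i _ => ?_
    rw [mul_smul_comm, map_smul, ← traceCoords_apply, hy]
    simp
  exact ⟨hinj, (LinearMap.injective_iff_surjective_of_finrank_eq_finrank
    (by rw [Module.finrank_pi, hcard])).mp hinj⟩

theorem finrank_dualSpace {ι : Type*} [Fintype ι] {b : ι → F} {e : ι → ℕ}
    (h : IsReduced (K := K) x b e) (hcard : Fintype.card ι = Module.finrank K⟮x⟯ F)
    (hx : Transcendental K x) (N : ℕ) :
    Module.Finite K (dualSpace (K := K) x N) ∧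
      (Module.finrank K (dualSpace (K := K) x N) : ℤ) = ∑ i, ((N : ℤ) + e i + 1) := by
  set T := traceCoords (K := K) (x := x) b with hT
  have hTapp : ∀ y i, T y i = Algebra.trace K⟮x⟯ F (y * b i) := fun y i => rfl
  have hbij : Function.Bijective T := traceCoords_bijective h hcard
  have hinj := hbij.1
  let e' := LinearEquiv.ofBijective T hbij
  let ev : ((i : ι) → ↥(degreeLT K (N + e i + 1))) →ₗ[K] F :=
    (e'.symm.toLinearMap.restrictScalars K).comp
      (LinearMap.pi fun i =>
        ((Polynomial.aeval (gen x : K⟮x⟯)).toLinearMap.comp (degreeLT K (N + e i + 1)).subtype).comp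
          (LinearMap.proj i))
  have hevT : ∀ P i, T (ev P) i = aevalGen x (P i).1 := fun P i => by
    rw [← aeval_gen_eq]
    exact congrFun (e'.apply_symm_apply _) i
  have hinjev : Function.Injective ev := by
    intro P P' hPP
    funext i
    refine Subtype.ext ?_
    have := congrArg Subtype.val ((hevT P i).symm.trans (hPP ▸ hevT P' i))
    simp only [coe_aevalGen] at this
    by_contra hne
    exact aeval_ne_zero hx (sub_ne_zero.mpr hne) (by rw [map_sub, this, sub_self])
  have hrange : LinearMap.range ev = dualSpace (K := K) x N := by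
    ext y
    rw [LinearMap.mem_range, mem_dualSpace_iff h hx]
    constructor
    · rintro ⟨P, rfl⟩ i
      refine ⟨(P i).1, ?_, (hTapp _ i).symm.trans (hevT P i)⟩
      by_cases hPi : (P i).1 = 0
      · simp [hPi]
      · have := (natDegree_lt_iff_degree_lt hPi).mpr (mem_degreeLT.mp (P i).2)
        omega
    · intro hy
      choose p hpd hp using hy
      refine ⟨fun i => ⟨p i, mem_degreeLT.mpr ?_⟩, hinj (funext fun i => ?_)⟩
      · by_cases hpi : p i = 0
        · simp [hpi]
        · rw [← natDegree_lt_iff_degree_lt hpi]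
          have := hpd i
          omega
      · rw [hevT, hTapp, hp]
  have : ∀ i, Module.Finite K (degreeLT K (N + e i + 1)) := fun i =>
    Module.Finite.equiv (degreeLTEquiv K _).symm
  let eq := (LinearEquiv.ofInjective ev hinjev).trans (LinearEquiv.ofEq _ _ hrange)
  refine ⟨Module.Finite.equiv eq, ?_⟩
  rw [← eq.finrank_eq, Module.finrank_pi_fintype, Nat.cast_sum]
  refine Finset.sum_congr rfl fun i _ => ?_
  rw [(degreeLTEquiv K _).finrank_eq, Module.finrank_fin_fun]
  push_cast
  ring

end Fermat.Agent.RedTorsion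

end
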