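import Fermat.Agent.RedTorsion.Dual

/-!
# Bounds on the genus from the trace dual

The genus is bounded above by an upper bound on the trace dual, and from below by what the tame
part of the different gives, also along a tower.
-/

set_option autoImplicit false

noncomputable section

open scoped Classical
open AlgebraicCurve Polynomial IntermediateField

namespace Fermat.Agent.RedTorsion

open Fermat.Agent.FF

set_option linter.unusedSectionVars false

variable {K F : Type*} [Field K] [Field F] [Algebra K F] {x : F}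
variable [IsAlgClosed K] [IsFunctionField K F] [FiniteDimensional K⟮x⟯ F]

/-- Riemann-Roch for large multiples of the polar divisor plus a fixed divisor. -/
theorem exists_ell_eq (hx : Transcendental K x) (D : Divisor K F) :
    ∃ N₀ : ℕ, ∀ N ≥ N₀, ell K (D + N • poles K x) =
      Divisor.degree D + N * Module.finrank K⟮x⟯ F + 1 - genusFF K F := by
  obtain ⟨c, hc⟩ := exists_h1_eq_zero (K := K) (F := F)
  refine ⟨(c - Divisor.degree D).toNat, fun N hN => ?_⟩
  have hn : (1 : ℤ) ≤ Module.finrank K⟮x⟯ F := by exact_mod_cast Module.finrank_pos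
  have hdeg : Divisor.degree (D + N • poles K x) =
      Divisor.degree D + N * Module.finrank K⟮x⟯ F := by
    rw [map_add, map_nsmul, degree_poles hx, nsmul_eq_mul]
  have hN' : ((c - Divisor.degree D).toNat : ℤ) ≤ N := by exact_mod_cast hN
  have h := hc (D + N • poles K x) (by
    rw [hdeg]
    have := Int.self_le_toNat (c - Divisor.degree D)
    nlinarith)
  have h' := riemann_roch_isAlgClosed (D + N • poles K x)
  rw [h, sub_zero, hdeg] at h'
  exact h'

/-- A reduced basis, with the sum of its weights. -/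
theorem exists_reduced_sum (hx : Transcendental K x) :
    ∃ (b : Fin (Module.finrank K⟮x⟯ F) → F) (e : Fin (Module.finrank K⟮x⟯ F) → ℕ),
      IsReduced (K := K) x b e ∧
        (∑ i, (e i : ℤ)) = Module.finrank K⟮x⟯ F + genusFF K F - 1 := by
  obtain ⟨b, e, h⟩ := exists_reduced (K := K) hx
  refine ⟨b, e, h, ?_⟩
  obtain ⟨N₀, hN₀⟩ := exists_ell_eq hx (0 : Divisor K F)
  have h1 := hN₀ (N₀ + ∑ i, e i) (Nat.le_add_right _ _)
  rw [zero_add, h.ell_eq hx (fun i => le_trans (Finset.single_le_sum (fun _ _ => Nat.zero_le _)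
    (Finset.mem_univ i)) (Nat.le_add_left _ _)), map_zero, zero_add] at h1
  simp only [Finset.sum_sub_distrib, Finset.sum_const, Finset.card_univ, Fintype.card_fin,
    nsmul_eq_mul] at h1
  nlinarith

variable [Algebra.IsSeparable K⟮x⟯ F]

theorem finrank_dualSpace_eq (hx : Transcendental K x) (N : ℕ) :
    Module.Finite K (dualSpace (K := K) x N) ∧
      (Module.finrank K (dualSpace (K := K) x N) : ℤ) =
        N * Module.finrank K⟮x⟯ F + 2 * Module.finrank K⟮x⟯ F + genusFF K F - 1 := by
  obtain ⟨b, e, h, hs⟩ := exists_reduced_sum (K := K) hx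
  obtain ⟨hfin, hdim⟩ := finrank_dualSpace h (Fintype.card_fin _) hx N
  refine ⟨hfin, hdim.trans ?_⟩
  simp only [Finset.sum_add_distrib, hs, Finset.sum_const, Finset.card_univ, Fintype.card_fin,
    nsmul_eq_mul]
  ring

/-- If the trace dual lies in `L(R + N (x)_∞)`, then `2g - 2 + 2n ≤ deg R`. -/
theorem genus_le_of_dual_le (hx : Transcendental K x) (R : Divisor K F)
    (h : ∀ N : ℕ, dualSpace (K := K) x N ≤ riemannRochSpace (R + N • poles K x)) :
    2 * (genusFF K F : ℤ) - 2 + 2 * Module.finrank K⟮x⟯ F ≤ Divisor.degree R := by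
  obtain ⟨N, hN⟩ := exists_ell_eq hx R
  obtain ⟨hfin, hdim⟩ := finrank_dualSpace_eq hx N
  have h1 := hN N le_rfl
  have h2 : Module.finrank K (dualSpace (K := K) x N) ≤
      Module.finrank K (riemannRochSpace (R + N • poles K x)) := Submodule.finrank_mono (h N)
  unfold ell at h1
  omega

/-- If `L(R + N (x)_∞)` lies in the trace dual, then `deg R ≤ 2g - 2 + 2n`. -/
theorem le_genus_of_le_dual (hx : Transcendental K x) (R : Divisor K F)
    (h : ∀ N : ℕ, riemannRochSpace (R + N • poles K x) ≤ dualSpace (K := K) x N) :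
    Divisor.degree R ≤ 2 * (genusFF K F : ℤ) - 2 + 2 * Module.finrank K⟮x⟯ F := by
  obtain ⟨N, hN⟩ := exists_ell_eq hx R
  obtain ⟨hfin, hdim⟩ := finrank_dualSpace_eq hx N
  have h1 := hN N le_rfl
  have h2 : Module.finrank K (riemannRochSpace (R + N • poles K x)) ≤
      Module.finrank K (dualSpace (K := K) x N) := Submodule.finrank_mono (h N)
  unfold ell at h1
  omega

/-- An element of the dual has polynomial trace. -/
theorem exists_trace_eq_aeval (hx : Transcendental K x) {c : ℕ} {y : F}
    (hy : y ∈ dualSpace (K := K) x c) :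
    ∃ p : K[X], p.natDegree ≤ c ∧ Algebra.trace K⟮x⟯ F y = aevalGen x p := by
  obtain ⟨b, e, h⟩ := exists_reduced (K := K) hx
  obtain ⟨α, h1, hα⟩ := h.repr 0 1 (by
    simp [mem_riemannRochSpace', mem_ordGe_of_le])
  choose p hpd hp using (mem_dualSpace_iff h hx).mp hy
  refine ⟨∑ i, α i * p i, natDegree_sum_le_of_forall_le _ _ fun i _ => ?_, ?_⟩
  · rcases eq_or_ne (α i) 0 with hi | hi
    · simp [hi]
    · refine natDegree_mul_le.trans ?_
      have := hα i hi
      have := hpd i
      omega
  · have h2 := trace_comb (q := 1) (y := y) (β := (1 : F)) (by simpa using h1) hp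
    have hone : aevalGen x (1 : K[X]) = 1 := Subtype.ext (by simp)
    rwa [hone, one_mul, mul_one, aeval_gen_eq] at h2

/-- A divisor inside the trace dual, of degree at least `2g - 2 + 2n`. -/
theorem exists_dual_divisor (hx : Transcendental K x) :
    ∃ δ : Divisor K F, 0 ≤ δ ∧
      (∀ N : ℕ, riemannRochSpace (δ + N • poles K x) ≤ dualSpace (K := K) x N) ∧
      2 * (genusFF K F : ℤ) - 2 + 2 * Module.finrank K⟮x⟯ F ≤ Divisor.degree δ := by
  obtain ⟨b, e, h⟩ := exists_reduced (K := K) hx
  have hbij := traceCoords_bijective h (Fintype.card_fin _)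
  let T := LinearEquiv.ofBijective _ hbij
  let v : (Σ i, Fin (e i + 1)) → F := fun ik =>
    T.symm (Pi.single ik.1 (aevalGen x ((X : K[X]) ^ (ik.2 : ℕ))))
  have hv : ∀ ik, v ik ∈ dualSpace (K := K) x 0 := fun ik => by
    refine (mem_dualSpace_iff h hx).mpr fun i => ?_
    have h1 : Algebra.trace K⟮x⟯ F (v ik * b i) =
        Pi.single (M := fun _ => K⟮x⟯) ik.1 (aevalGen x ((X : K[X]) ^ (ik.2 : ℕ))) i := by
      rw [← traceCoords_apply]
      exact congrFun (T.apply_symm_apply _) i
    rcases eq_or_ne i ik.1 with rfl | hne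
    · exact ⟨X ^ (ik.2 : ℕ), by simp; omega, by rw [h1, Pi.single_eq_same]⟩
    · exact ⟨0, by simp, by rw [h1, Pi.single_eq_of_ne hne]; exact Subtype.ext (by simp)⟩
  set W : Finset F := insert 1 ((Finset.univ.image v).filter fun w => w ≠ 0) with hW
  have hWne : W.Nonempty := ⟨1, Finset.mem_insert_self _ _⟩
  have hWmem : ∀ w ∈ W, w ≠ 0 ∧ w ∈ dualSpace (K := K) x 0 := by
    intro w hw
    rcases Finset.mem_insert.mp hw with rfl | hw
    · exact ⟨one_ne_zero, one_mem_dualSpace hx⟩
    · obtain ⟨hw, hw0⟩ := Finset.mem_filter.mp hw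
      obtain ⟨ik, -, rfl⟩ := Finset.mem_image.mp hw
      exact ⟨hw0, hv ik⟩
  let δ : Divisor K F := Finsupp.onFinset
    (W.biUnion fun w => (finite_support (K := K) w).toFinset)
    (fun P => W.sup' hWne fun w => -P.ord w) (fun P hP => by
      rw [Finset.mem_biUnion]
      by_contra! hall
      refine hP (le_antisymm (Finset.sup'_le _ _ fun w hw => ?_)
        (le_trans (by simp) (Finset.le_sup' _ (Finset.mem_insert_self (1 : F) _))))
      have h0 := hall w hw
      rw [Set.Finite.mem_toFinset, Set.mem_ofPred_eq, not_not] at h0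
      rw [h0, neg_zero])
  have hδ : ∀ P, δ P = W.sup' hWne fun w => -P.ord w := fun P => rfl
  have hδ0 : 0 ≤ δ := Finsupp.le_def.mpr fun P => by
    rw [hδ]
    exact le_trans (by simp) (Finset.le_sup' _ (Finset.mem_insert_self (1 : F) _))
  have hδv : ∀ ik P, v ik ∈ ordGe P (-δ P) := fun ik P => by
    rcases eq_or_ne (v ik) 0 with h0 | h0
    · simp [h0]
    refine mem_ordGe_of_le P ?_
    rw [hδ, neg_le]
    exact Finset.le_sup' (fun w => -P.ord w) (Finset.mem_insert_of_mem
      (Finset.mem_filter.mpr ⟨Finset.mem_image.mpr ⟨ik, Finset.mem_univ _, rfl⟩, h0⟩))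
  refine ⟨δ, hδ0, fun N y hy Q => ?_, genus_le_of_dual_le hx δ fun N y hy => ?_⟩
  · -- inside the dual
    set t : K⟮x⟯ := if Q.ord (gen x : K⟮x⟯) < 0 then (gen x : K⟮x⟯) ^ N else 1 with ht
    have ht0 : (t : F) ≠ 0 := by
      have hx0 : x ≠ 0 := fun h => hx (h ▸ isAlgebraic_zero)
      simp only [ht]; split_ifs <;> simp [gen, hx0]
    have htQ : t ∈ ordGe Q (-sAt x N Q) := by
      simp only [ht]
      split_ifs with hQ
      · exact gen_pow_mem_ordGe hx le_rfl Q
      · exact mem_ordGe_of_le Q (by simp [sAt, hQ])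
    have hz : IsDualAt x Q 0 ((t : F)⁻¹ * y) := by
      refine IsDualAt.of_bound hx fun P hP => ?_
      obtain ⟨w, hw, hwmax⟩ := Finset.exists_mem_eq_sup' hWne fun w => -P.ord w
      refine ⟨w, (hWmem w hw).1, ?_, ?_⟩
      · have := (hWmem w hw).2 Q
        rwa [show sAt x 0 Q = 0 by rw [sAt]; split_ifs <;> simp] at this
      · have hP' := mem_riemannRochSpace'.mp hy P
        refine ordGe_anti P ?_ (mul_mem_ordGe P (mem_ordGe_of_le P (le_refl (P.ord (t : F)⁻¹))) hP')
        rw [Finsupp.add_apply, nsmul_poles_apply, hδ, hwmax, P.ord_inv]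
        by_cases hQ : Q.ord (gen x : K⟮x⟯) < 0
        · have hPx : P.ord x < 0 := by
            by_contra h'
            exact absurd ((ord_below_gen_nonneg_iff (x := x) P).mpr (by omega)) (by rw [hP]; omega)
          simp only [ht, if_pos hQ, SubmonoidClass.coe_pow, coe_gen, ord_pow, poles_apply]
          rw [max_eq_right (by omega)]
          linarith
        · have hPx : 0 ≤ P.ord x :=
            (ord_below_gen_nonneg_iff (x := x) P).mp (by rw [hP]; omega)
          simp only [ht, if_neg hQ, poles_apply, max_eq_left (neg_nonpos.mpr hPx)]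
          simp
    have := hz.coe_mul t htQ
    rwa [zero_add, ← mul_assoc, mul_inv_cancel₀ ht0, one_mul] at this
  · -- coordinates of a dual element
    choose p hpd hp using (mem_dualSpace_iff h hx).mp hy
    have hy' : T y = fun i => aevalGen x (p i) := funext fun i => hp i
    have hkey : ∀ i (k : ℕ), k ≤ N + e i →
        T.symm (Pi.single i (aevalGen x ((X : K[X]) ^ k))) ∈
          riemannRochSpace (δ + N • poles K x) := by
      intro i k hk
      have hk1 : k - e i ≤ N := by omega
      have hk2 : min k (e i) < e i + 1 := by omega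
      have heq : T.symm (Pi.single i (aevalGen x ((X : K[X]) ^ k))) =
          x ^ (k - e i) * v ⟨i, ⟨min k (e i), hk2⟩⟩ := by
        apply T.injective
        rw [T.apply_symm_apply, show x ^ (k - e i) * v ⟨i, ⟨min k (e i), hk2⟩⟩ =
          ((gen x : K⟮x⟯) ^ (k - e i)) • v ⟨i, ⟨min k (e i), hk2⟩⟩ by
            rw [IntermediateField.smul_def]; simp [gen], map_smul, T.apply_symm_apply, ← Pi.single_smul]
        refine congrArg _ (Subtype.ext ?_)
        simp only [smul_eq_mul, IntermediateField.coe_mul, SubmonoidClass.coe_pow, coe_gen,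
          coe_aevalGen, map_pow, aeval_X, ← pow_add]
        congr 1
        omega
      rw [heq]
      refine mem_riemannRochSpace'.mpr fun P => ?_
      refine ordGe_anti P ?_ (mul_mem_ordGe P (pow_mem_ordGe P (poles_mem_ordGe P x) (k - e i))
        (hδv ⟨i, ⟨min k (e i), hk2⟩⟩ P))
      rw [Finsupp.add_apply, nsmul_poles_apply]
      have h0 : (0 : ℤ) ≤ poles K x P := by simp
      have : ((k - e i : ℕ) : ℤ) ≤ N := by exact_mod_cast hk1
      nlinarith
    have hsum : y = ∑ i, ∑ k ∈ Finset.range (N + e i + 1),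
        (p i).coeff k • T.symm (Pi.single i (aevalGen x ((X : K[X]) ^ k))) := by
      apply T.injective
      rw [hy', map_sum]
      funext j
      rw [Finset.sum_apply, Finset.sum_eq_single j]
      · rw [map_sum, Finset.sum_apply]
        refine Subtype.ext ?_
        rw [coe_aevalGen, aeval_eq_sum_range' (n := N + e j + 1) (by have := hpd j; omega),
          AddSubmonoidClass.coe_finsetSum]
        refine Finset.sum_congr rfl fun k _ => ?_
        rw [← LinearEquiv.coe_coe T, LinearMap.map_smul_of_tower, LinearEquiv.coe_coe, T.apply_symm_apply, Pi.smul_apply, Pi.single_eq_same]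
        simp
      · intro i _ hij
        rw [map_sum, Finset.sum_apply]
        refine Finset.sum_eq_zero fun k _ => ?_
        rw [← LinearEquiv.coe_coe T, LinearMap.map_smul_of_tower, LinearEquiv.coe_coe, T.apply_symm_apply, Pi.smul_apply,
          Pi.single_eq_of_ne (Ne.symm hij), smul_zero]
      · simp
    rw [hsum]
    exact sum_mem fun i _ => sum_mem fun k hk => Submodule.smul_mem _ _
      (hkey i k (by rw [Finset.mem_range] at hk; omega))

section Tower

variable {F' : Type*} [Field F'] [Algebra K F'] [Algebra F F'] [IsScalarTower K F F']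
  [FiniteDimensional F F'] [Algebra.IsSeparable F F'] [IsFunctionField K F']
  [FiniteDimensional K⟮algebraMap F F' x⟯ F'] [Algebra.IsSeparable K⟮algebraMap F F' x⟯ F']

theorem trace_tower {z : F'} {p : K[X]}
    (h : Algebra.trace K⟮x⟯ F (Algebra.trace F F' z) = aevalGen x p) :
    Algebra.trace K⟮algebraMap F F' x⟯ F' z = aevalGen (algebraMap F F' x) p := by
  have heq : K⟮x⟯.map (IsScalarTower.toAlgHom K F F') = K⟮algebraMap F F' x⟯ := by
    rw [adjoin_map, Set.image_singleton]; rfl
  let e : K⟮x⟯ ≃+* K⟮algebraMap F F' x⟯ :=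
    ((K⟮x⟯.equivMap (IsScalarTower.toAlgHom K F F')).trans
      (IntermediateField.equivOfEq heq)).toRingEquiv
  have hcomm : (algebraMap K⟮algebraMap F F' x⟯ F').comp e.toRingHom
      = (RingEquiv.refl F').toRingHom.comp (algebraMap K⟮x⟯ F') := by
    ext a
    rfl
  have h1 := Algebra.trace_eq_of_equiv_equiv e (RingEquiv.refl F') hcomm z
  rw [← Algebra.trace_trace (S := F), h] at h1
  refine (e.symm.injective ?_)
  simp only [RingEquiv.refl_apply] at h1
  rw [← h1, RingEquiv.eq_symm_apply]
  refine Subtype.ext ?_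
  show algebraMap F F' (aeval x p) = aeval (algebraMap F F' x) p
  exact (aeval_algebraMap_apply F' x p).symm

/-- The tame lower bound along a tower. -/
theorem le_genus_of_tower (hx : Transcendental K x) {δ : Divisor K F}
    (hdual : ∀ N : ℕ, riemannRochSpace (δ + N • poles K x) ≤ dualSpace (K := K) x N)
    (R : Divisor K F')
    (hR : ∀ P : Place K F', R P ≤ (P.ramificationIndex F : ℤ) * (δ (P.restrict F) + 1) - 1) :
    Divisor.degree R ≤ 2 * (genusFF K F' : ℤ) - 2 +
      2 * Module.finrank K⟮algebraMap F F' x⟯ F' := by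
  have hx' := transcendental_algebraMap (F' := F') hx
  refine le_genus_of_le_dual hx' R fun N y hy => ?_
  obtain ⟨b, e, h⟩ := exists_reduced (K := K) hx'
  refine (mem_dualSpace_iff h hx').mpr fun i => ?_
  set c := N + e i with hc
  have hw : Algebra.trace F F' (y * b i) ∈ riemannRochSpace (δ + c • poles K x) := by
    refine mem_riemannRochSpace'.mpr fun Q => ?_
    refine trace_mem_ordGe Q _ (fun P hP => ?_) (exists_restrict_eq Q)
    refine ordGe_anti P ?_ (mul_mem_ordGe P (mem_riemannRochSpace'.mp hy P)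
      (mem_polesSpace.mp (h.mem i) P))
    have hpol : poles K (algebraMap F F' x) P = (P.ramificationIndex F : ℤ) * poles K x Q := by
      rw [poles_apply, poles_apply, P.ord_restrict x, hP,
        mul_max_of_nonneg _ _ (Int.natCast_nonneg _), mul_zero, mul_neg]
    have hR' := hR P
    rw [hP] at hR'
    simp only [Finsupp.add_apply, nsmul_poles_apply, hpol, hc]
    push_cast
    linarith
  obtain ⟨p, hp, hpe⟩ := exists_trace_eq_aeval hx (hdual c hw)
  exact ⟨p, hp, trace_tower hpe⟩

end Tower

end Fermat.Agent.RedTorsion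

end
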