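import Fermat.Agent.FiniteFlat.Reduction
import Fermat.Agent.RedTorsion.Series
import Mathlib.RingTheory.Nullstellensatz

/-!
# Reduction is injective on torsion prime to the residue characteristic

Let `g` reduce to `1` with `div g = m • D` and `D` reducing to `0`. Approximate solutions of
`g y ^ m = 1` in `L(E₁ + D)` and `L(E₂ + D)`, `E₁`, `E₂` with disjoint reductions, can be improved
quadratically, since the error of each reduces into `L(Ē_i)`. The Nullstellensatz bounds the error
from below unless there is an exact solution, so `D` is principal.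
-/

set_option autoImplicit false
set_option linter.unusedSectionVars false

noncomputable section

open IsLocalRing AlgebraicCurve
open Fermat.Agent.Arith Fermat.Agent.FF Fermat.Agent.RedTorsion Fermat.Agent.FiniteFlat

namespace Fermat.Agent.RedTorsion.Inj

open scoped Classical

section Generic

variable {K E : Type*} [Field K] [Field E] [Algebra K E] [IsFunctionField K E] [IsAlgClosed K]

theorem div_npow (f : E) (n : ℕ) : div K (f ^ n) = n • div K f := by
  ext v
  simp [FF.ord_pow]

theorem pow_mem_riemannRochSpace {B : Divisor K E} {f : E} (hf : f ∈ riemannRochSpace B) :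
    ∀ n : ℕ, f ^ n ∈ riemannRochSpace (n • B)
  | 0 => by
    rw [pow_zero, zero_smul, mem_riemannRochSpace']
    exact fun v => mem_ordGe_of_le v (by simp)
  | n + 1 => by
    rw [pow_succ, succ_nsmul]
    exact mul_mem_riemannRochSpace (pow_mem_riemannRochSpace hf n) hf

theorem one_mem_riemannRochSpace {B : Divisor K E} (hB : 0 ≤ B) :
    (1 : E) ∈ riemannRochSpace B := by
  rw [mem_riemannRochSpace']
  refine fun v => mem_ordGe_of_le v ?_
  have := Finsupp.le_def.mp hB v
  simp only [Finsupp.coe_zero, Pi.zero_apply] at this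
  simp
  omega

theorem prod_mem_riemannRochSpace {B : Divisor K E} :
    ∀ {n : ℕ} (f : Fin n → E), (∀ i, f i ∈ riemannRochSpace B) →
      ∏ i, f i ∈ riemannRochSpace (n • B)
  | 0, _, _ => by
    rw [Fin.prod_univ_zero, zero_smul]
    exact one_mem_riemannRochSpace le_rfl
  | n + 1, f, hf => by
    rw [Fin.prod_univ_castSucc, succ_nsmul]
    exact mul_mem_riemannRochSpace (prod_mem_riemannRochSpace _ fun i => hf _) (hf _)

theorem le_nsmul_self {B : Divisor K E} (hB : 0 ≤ B) {m : ℕ} (hm : m ≠ 0) : B ≤ m • B := by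
  obtain ⟨n, rfl⟩ := Nat.exists_eq_succ_of_ne_zero hm
  rw [succ_nsmul]
  exact le_add_of_nonneg_left (nsmul_nonneg hB n)

/-- Functions regular outside one of two disjoint divisors are separated. -/
theorem mem_of_separated {B₁ B₂ : Divisor K E} (h₁ : 0 ≤ B₁)
    (hdisj : ∀ v, B₁ v = 0 ∨ B₂ v = 0) {m : ℕ} {a b : E}
    (ha : a ∈ riemannRochSpace (m • B₁)) (hb : b ∈ riemannRochSpace (m • B₂))
    (hab : a - b ∈ riemannRochSpace (B₁ + B₂)) : a ∈ riemannRochSpace B₁ := by
  rw [mem_riemannRochSpace'] at ha hb hab ⊢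
  intro v
  rcases eq_or_ne (B₁ v) 0 with h0 | h0
  · refine ordGe_anti v ?_ (ha v)
    simp [h0]
  · have h2 : B₂ v = 0 := (hdisj v).resolve_left h0
    have h1 := Finsupp.le_def.mp h₁ v
    simp only [Finsupp.coe_zero, Pi.zero_apply] at h1
    rw [show a = (a - b) + b by ring]
    refine Submodule.add_mem _ (ordGe_anti v ?_ (hab v)) (ordGe_anti v ?_ (hb v))
    · simp [h2]
    · simp [h2]
      omega

/-- A function without zeros and poles is constant. -/
theorem exists_algebraMap_of_div_eq_zero {f : E} (hf : div K f = 0) :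
    ∃ c : K, f = algebraMap K E c := by
  have hmem : f ∈ riemannRochSpace (0 : Divisor K E) := by
    rw [mem_riemannRochSpace']
    refine fun v => mem_ordGe_of_le v ?_
    have := congrArg (fun D : Divisor K E => D v) hf
    simp only [div_apply, Finsupp.coe_zero, Pi.zero_apply] at this
    simp [this]
  have h1 : Module.finrank K (riemannRochSpace (0 : Divisor K E)) = 1 := by
    have := ell_zero (K := K) (F := E)
    unfold ell at this
    exact_mod_cast this
  obtain ⟨c, hc⟩ := (finrank_eq_one_iff_of_nonzero'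
    (⟨1, one_mem_riemannRochSpace le_rfl⟩ : riemannRochSpace (0 : Divisor K E))
    (fun e => one_ne_zero (congrArg Subtype.val e))).mp h1 ⟨f, hmem⟩
  refine ⟨c, ?_⟩
  have h2 := congrArg Subtype.val hc
  simp only [SetLike.val_smul, Algebra.smul_def, mul_one] at h2
  exact h2.symm

end Generic

variable {A : ValuationSubring QBar}

/-- The valuation of `ℚ̄` at a prime is archimedean. -/
theorem exists_valuation_pow_lt {q : ℕ} (hA : A.LiesOverPrime q) (hq : q.Prime) {c M : QBar}
    (hc : A.valuation c < 1) (hM : M ≠ 0) : ∃ N : ℕ, A.valuation c ^ N < A.valuation M := by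
  rcases eq_or_ne c 0 with rfl | hc0
  · exact ⟨1, by simpa using zero_lt_iff.mpr ((Valuation.ne_zero_iff _).mpr hM)⟩
  obtain ⟨e, he, z, hz⟩ := exists_exponent hA hq hc0
  obtain ⟨e', he', z', hz'⟩ := exists_exponent hA hq hM
  have hq1 := valuation_prime_lt_one hA
  have hq0 : (0 : A.ValueGroup) < A.valuation (q : QBar) :=
    zero_lt_iff.mpr ((Valuation.ne_zero_iff _).mpr (Nat.cast_ne_zero.mpr hq.ne_zero))
  have hz0 : 0 < z := by
    by_contra! hz0
    exact absurd (hz ▸ pow_lt_one₀ zero_le hc he.ne')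
      (not_lt.mpr (one_le_zpow_of_nonpos₀ hq0 hq1.le hz0))
  refine ⟨e * (z'.natAbs + 1), lt_of_pow_lt_pow_left₀ e' zero_le ?_⟩
  rw [hz', ← pow_mul, mul_assoc, pow_mul, hz, ← zpow_natCast, ← zpow_mul]
  refine zpow_lt_zpow_right_of_lt_one₀ hq0 hq1 ?_
  push_cast
  have h1 : z' ≤ |z'| := le_abs_self z'
  have h3 : (1 : ℤ) ≤ (e' : ℤ) := by exact_mod_cast he'
  nlinarith [mul_le_mul (show (1 : ℤ) ≤ z by omega) h3 zero_le_one (by omega),
    abs_nonneg z']

variable {F : Type*} [Field F] [Algebra QBar F] {Fk : Type*} [Field Fk]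
  [Algebra (ResidueField A) Fk] [IsFunctionField QBar F] [IsFunctionField (ResidueField A) Fk]
  (h : GoodRed A F Fk)

theorem exists_lift_mem {B : Divisor QBar F} (hB : bigDeg h ≤ Divisor.degree B) {x : Fk}
    (hx : x ∈ riemannRochSpace (redDiv h B)) :
    ∃ f : h.S, (f : F) ∈ riemannRochSpace B ∧ redF h.toRedLattice f = x := by
  rw [← redW_riemannRochSpace h hB] at hx
  exact hx

theorem redF_mem_space {B : Divisor QBar F} (hB : bigDeg h ≤ Divisor.degree B) (f : h.S)
    (hf : (f : F) ∈ riemannRochSpace B) : redF h.toRedLattice f ∈ riemannRochSpace (redDiv h B) := by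
  rw [← redW_riemannRochSpace h hB]
  exact redF_mem_redW h.toRedLattice f hf

theorem finrank_eq_red {B : Divisor QBar F} (hB : bigDeg h ≤ Divisor.degree B) :
    Module.finrank QBar (riemannRochSpace B) =
      Module.finrank (ResidueField A) (riemannRochSpace (redDiv h B)) := by
  rw [← redW_riemannRochSpace h hB, (finrank_redW h.toRedLattice _).2]

theorem smul_lattice_eq (a : A) (f : h.S) : (a : QBar) • (f : F) = ((intConst h.toRedLattice a * f : h.S) : F) :=
  Algebra.smul_def (a : QBar) (f : F)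

/-- If `f ∈ S` reduces to `0` it is a multiple of a nonunit. -/
theorem exists_small (f : h.S) (hf : redF h.toRedLattice f = 0) :
    ∃ (c : QBar) (r : h.S), A.valuation c < 1 ∧ (f : F) = c • (r : F) := by
  rcases eq_or_ne (f : F) 0 with h0 | h0
  · exact ⟨0, 0, by simp, by simp [h0]⟩
  obtain ⟨c, r, hc, hr, he⟩ := exists_primitive h.toRedLattice h0
  refine ⟨c, r, ?_, he⟩
  by_contra! hge
  have hi : c⁻¹ ∈ A := (A.valuation_le_one_iff _).mp (by
    rw [map_inv₀]; exact inv_le_one_of_one_le₀ hge)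
  refine hr ?_
  have h1 : intConst h.toRedLattice ⟨c⁻¹, hi⟩ * f = r := Subtype.ext (by
    rw [MulMemClass.coe_mul, coe_intConst, he, ← Algebra.smul_def, smul_smul, inv_mul_cancel₀ hc,
      one_smul])
  rw [← h1, map_mul, hf, mul_zero]

variable (g : h.S) (hg : redF h.toRedLattice g = 1) {m : ℕ} (hm : IsUnit (m : A))
  {D : Divisor QBar F} (hD : redDiv h D = 0) (hdiv : div QBar (g : F) = m • D)

include hg hm in
theorem natCast_residue_ne : (m : ResidueField A) ≠ 0 := by
  rw [← map_natCast (residue A)]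
  exact (residue_ne_zero_iff_isUnit _).mpr hm

include hm in
theorem m_ne_zero : m ≠ 0 := by
  rintro rfl
  simp at hm

include hdiv hm hg in
theorem mul_mem_U {E : Divisor QBar F} {x : F} (hx : x ∈ riemannRochSpace (m • (E + D))) :
    (g : F) * x ∈ riemannRochSpace (m • E) := by
  have h1 : (g : F) ∈ riemannRochSpace (-(m • D)) := by
    rw [mem_riemannRochSpace']
    refine fun v => mem_ordGe_of_le v ?_
    rw [← hdiv]
    simp
  have h2 := mul_mem_riemannRochSpace h1 hx
  rwa [nsmul_add, neg_add_eq_sub, add_sub_cancel_right] at h2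

include hD in
theorem redDiv_twist (E : Divisor QBar F) : redDiv h (E + D) = redDiv h E := by
  rw [map_add, hD, add_zero]

include hD in
theorem degree_D : Divisor.degree D = 0 := by
  rw [← degree_redDiv h, hD, map_zero]

/-- The error of an approximate solution, written as an element of the lattice. -/
def err (y : h.S) : h.S := g * y ^ m - 1

include hm hdiv hg in
theorem err_mem {E : Divisor QBar F} (hE : 0 ≤ E) (y : h.S)
    (hy : (y : F) ∈ riemannRochSpace (E + D)) :
    (err h g (m := m) y : F) ∈ riemannRochSpace (m • E) := by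
  simp only [err, AddSubgroupClass.coe_sub, MulMemClass.coe_mul, SubmonoidClass.coe_pow,
    OneMemClass.coe_one]
  exact Submodule.sub_mem _ (mul_mem_U h g hg hm hdiv (pow_mem_riemannRochSpace hy m))
    (one_mem_riemannRochSpace (nsmul_nonneg hE m))

theorem mem_of_eq_smul {B : Divisor QBar F} {c : QBar} (hc : c ≠ 0) {f r : F} (he : f = c • r)
    (hf : f ∈ riemannRochSpace B) : r ∈ riemannRochSpace B := by
  rw [show r = c⁻¹ • f by rw [he, smul_smul, inv_mul_cancel₀ hc, one_smul]]
  exact Submodule.smul_mem _ _ hf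

include hg hm hD hdiv in
/-- The separation: the error of one of two approximate solutions reduces into `L(Ē₁)`. -/
theorem red_err_mem {E₁ E₂ : Divisor QBar F} (hE₁ : 0 ≤ E₁) (hE₂ : 0 ≤ E₂)
    (hd₁ : bigDeg h ≤ Divisor.degree E₁) (hd₂ : bigDeg h ≤ Divisor.degree E₂)
    (hdisj : ∀ v, redDiv h E₁ v = 0 ∨ redDiv h E₂ v = 0)
    {y₁ y₂ : h.S} (hy₁ : (y₁ : F) ∈ riemannRochSpace (E₁ + D))
    (hy₂ : (y₂ : F) ∈ riemannRochSpace (E₂ + D)) (hr₁ : redF h.toRedLattice y₁ = 1) (hr₂ : redF h.toRedLattice y₂ = 1)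
    {c : QBar} (hc : c ≠ 0) {r₁ r₂ : h.S} (he₁ : (err h g (m := m) y₁ : F) = c • (r₁ : F))
    (he₂ : (err h g (m := m) y₂ : F) = c • (r₂ : F)) :
    redF h.toRedLattice r₁ ∈ riemannRochSpace (redDiv h E₁) := by
  have hm0 := m_ne_zero hm
  have hdeg : ∀ B : Divisor QBar F, bigDeg h ≤ Divisor.degree B → 0 ≤ B →
      bigDeg h ≤ Divisor.degree (m • B) := fun B hB hB0 =>
    hB.trans (degree_mono (le_nsmul_self hB0 hm0))
  set T : h.S := g * ∑ i ∈ Finset.range m, y₁ ^ i * y₂ ^ (m - 1 - i) with hT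
  have hTr : redF h.toRedLattice T = (m : Fk) := by simp [hT, hg, hr₁, hr₂]
  have hm' : (m : Fk) ≠ 0 := by
    rw [← map_natCast (algebraMap (ResidueField A) Fk)]
    exact (_root_.map_ne_zero _).mpr (natCast_residue_ne h g hg hm)
  set Ti : h.S := ⟨_, inv_mem_of_redF_ne_zero h.toRedLattice T (hTr ▸ hm')⟩ with hTi
  have hT0 : (T : F) ≠ 0 := fun e => hm' (by
    rw [← hTr, show T = 0 from Subtype.ext e, map_zero])
  set w : h.S := (r₁ - r₂) * Ti with hw
  have hwe : (y₁ : F) - y₂ = c • (w : F) := by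
    have h1 : ((y₁ : F) - y₂) * (T : F) = c • ((r₁ : F) - r₂) := by
      rw [smul_sub, ← he₁, ← he₂]
      simp only [err, hT, AddSubgroupClass.coe_sub, MulMemClass.coe_mul, SubmonoidClass.coe_pow,
        OneMemClass.coe_one, AddSubmonoidClass.coe_finsetSum]
      linear_combination (g : F) * geom_sum₂_mul (y₁ : F) (y₂ : F) m
    simp only [hw, hTi, MulMemClass.coe_mul, AddSubgroupClass.coe_sub]
    rw [← smul_mul_assoc, ← h1, mul_inv_cancel_right₀ hT0]
  have hwmem : (w : F) ∈ riemannRochSpace (E₁ + E₂ + D) := by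
    refine mem_of_eq_smul hc hwe (Submodule.sub_mem _ ?_ ?_)
    · exact riemannRochSpace_mono (add_le_add_left (le_add_of_nonneg_right hE₂) _) hy₁
    · exact riemannRochSpace_mono (add_le_add_left (le_add_of_nonneg_left hE₁) _) hy₂
  have hsum : redF h.toRedLattice r₁ - redF h.toRedLattice r₂ = redF h.toRedLattice w * (m : Fk) := by
    rw [← hTr, ← map_mul, ← map_sub]
    congr 1
    refine Subtype.ext ?_
    simp only [hw, hTi, MulMemClass.coe_mul, AddSubgroupClass.coe_sub]
    rw [inv_mul_cancel_right₀ hT0]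
  have hd : bigDeg h ≤ Divisor.degree (E₁ + E₂ + D) := by
    rw [map_add, degree_D h hD, add_zero, map_add]
    exact hd₁.trans (le_add_of_nonneg_right (degree_nonneg hE₂))
  have hmem₁ := redF_mem_space h (hdeg _ hd₁ hE₁) r₁
    (mem_of_eq_smul hc he₁ (err_mem h g hg hm hdiv hE₁ y₁ hy₁))
  have hmem₂ := redF_mem_space h (hdeg _ hd₂ hE₂) r₂
    (mem_of_eq_smul hc he₂ (err_mem h g hg hm hdiv hE₂ y₂ hy₂))
  rw [map_nsmul] at hmem₁ hmem₂
  refine mem_of_separated (redDiv_nonneg h hE₁) hdisj hmem₁ hmem₂ ?_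
  rw [hsum, ← map_add]
  have hmemw := redF_mem_space h hd w hwmem
  rw [redDiv_twist h hD] at hmemw
  rw [mul_comm, ← map_natCast (algebraMap (ResidueField A) Fk), ← Algebra.smul_def]
  exact Submodule.smul_mem _ _ hmemw

include hg hm hD hdiv in
/-- One Newton step: the error lies in a complement of `L(Ē)` up to second order. -/
theorem exists_correction {E : Divisor QBar F} (hE : 0 ≤ E) (hd : bigDeg h ≤ Divisor.degree E)
    {y : h.S} (hy : (y : F) ∈ riemannRochSpace (E + D)) (hy1 : redF h.toRedLattice y = 1)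
    (c : A) (hcu : residue A c = 0) (hc0 : (c : QBar) ≠ 0) {r : h.S}
    (he : (err h g (m := m) y : F) = (c : QBar) • (r : F)) :
    ∃ (k : ℕ) (u : Fin k → h.S) (b : Fin k → A) (y' R : h.S),
      (y' : F) ∈ riemannRochSpace (E + D) ∧ redF h.toRedLattice y' = 1 ∧
      (∀ d : Fin k → ResidueField A,
        ∑ j, d j • redF h.toRedLattice (u j) ∈ riemannRochSpace (redDiv h E) → ∀ j, d j = 0) ∧
      err h g (m := m) y' = intConst h.toRedLattice c * (∑ j, intConst h.toRedLattice (b j) * u j + intConst h.toRedLattice c * R) := by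
  have hm0 := m_ne_zero hm
  have hmres := natCast_residue_ne h g hg hm
  have hdm : bigDeg h ≤ Divisor.degree (m • E) := hd.trans (degree_mono (le_nsmul_self hE hm0))
  have hdV : bigDeg h ≤ Divisor.degree (E + D) := by rw [map_add, degree_D h hD, add_zero]; exact hd
  set X := riemannRochSpace (redDiv h E) with hX
  set Y := riemannRochSpace (redDiv h (m • E)) with hY
  have hXY : X ≤ Y := riemannRochSpace_mono (by
    rw [map_nsmul]; exact le_nsmul_self (redDiv_nonneg h hE) hm0)
  obtain ⟨W₀, hW₀⟩ := Submodule.exists_isCompl X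
  set W := W₀ ⊓ Y with hWdef
  have hdis : Disjoint X W := hW₀.disjoint.mono_right inf_le_left
  have hsup : X ⊔ W = Y := by
    rw [hWdef, ← sup_inf_assoc_of_le _ hXY, hW₀.sup_eq_top, top_inf_eq]
  have hYfd : FiniteDimensional (ResidueField A) Y := finiteDimensional_riemannRochSpace _
  have : FiniteDimensional (ResidueField A) X := finiteDimensional_riemannRochSpace _
  have : FiniteDimensional (ResidueField A) W := Submodule.finiteDimensional_of_le inf_le_right
  let bX := Module.finBasis (ResidueField A) X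
  let bW := Module.finBasis (ResidueField A) W
  have hl : ∀ i, ∃ f : h.S, (f : F) ∈ riemannRochSpace (E + D) ∧
      redF h.toRedLattice f = (m : ResidueField A)⁻¹ • ((bX i : X) : Fk) := fun i =>
    exists_lift_mem h hdV (by rw [redDiv_twist h hD]; exact X.smul_mem _ (bX i).2)
  choose v hv hvr using hl
  have hl' : ∀ j, ∃ f : h.S, (f : F) ∈ riemannRochSpace (m • E) ∧
      redF h.toRedLattice f = ((bW j : W) : Fk) := fun j => exists_lift_mem h hdm (bW j).2.2
  choose u hu hur using hl'
  let φ : h.S →+ h.S := AddMonoidHom.mulLeft (g * (m : h.S) * y ^ (m - 1))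
  have hφ : ∀ x : h.S, φ x = g * (m : h.S) * y ^ (m - 1) * x := fun x => rfl
  let fam : Fin (Module.finrank (ResidueField A) X) ⊕
      Fin (Module.finrank (ResidueField A) W) → h.S := Sum.elim (fun i => φ (v i)) u
  have hfam : ∀ i, redF h.toRedLattice (fam i) =
      Sum.elim (fun i => ((bX i : X) : Fk)) (fun j => ((bW j : W) : Fk)) i := by
    rintro (i | j)
    · simp only [fam, Sum.elim_inl, hφ, map_mul, map_pow, map_natCast, hg, hy1, hvr]
      rw [one_pow, one_mul, mul_one, Algebra.smul_def, ← mul_assoc,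
        ← map_natCast (algebraMap (ResidueField A) Fk), ← map_mul, mul_inv_cancel₀ hmres, map_one,
        one_mul]
    · simp only [fam, Sum.elim_inr, hur]
  have hfamU : ∀ i, (fam i : F) ∈ riemannRochSpace (m • E) := by
    rintro (i | j)
    · simp only [fam, Sum.elim_inl, hφ, MulMemClass.coe_mul, SubmonoidClass.coe_pow]
      rw [mul_assoc (g : F), mul_assoc (g : F)]
      refine mul_mem_U h g hg hm hdiv ?_
      rw [show ((m : h.S) : F) = (m : F) from map_natCast h.S.subtype m, mul_assoc]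
      have h1 := mul_mem_riemannRochSpace (pow_mem_riemannRochSpace hy (m - 1)) (hv i)
      rw [← succ_nsmul, Nat.sub_add_cancel (Nat.one_le_iff_ne_zero.mpr hm0)] at h1
      rw [← map_natCast (algebraMap QBar F), ← Algebra.smul_def]
      exact Submodule.smul_mem _ _ h1
    · exact hu j
  have hli : LinearIndependent (ResidueField A) fun i => redF h.toRedLattice (fam i) := by
    simp only [hfam]
    refine (bX.linearIndependent.map' X.subtype (Submodule.ker_subtype _)).sum_type
      (bW.linearIndependent.map' W.subtype (Submodule.ker_subtype _)) ?_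
    refine hdis.mono (Submodule.span_le.mpr ?_) (Submodule.span_le.mpr ?_) <;>
      rintro _ ⟨i, rfl⟩
    exacts [(bX i).2, (bW i).2]
  have hcard : Module.finrank (ResidueField A) Y =
      Module.finrank (ResidueField A) X + Module.finrank (ResidueField A) W := by
    have := Submodule.finrank_sup_add_finrank_inf_eq X W
    rw [hsup, hdis.eq_bot, finrank_bot, add_zero] at this
    exact this
  obtain ⟨co, hco, hint⟩ := exists_coords h.toRedLattice fam hfamU hli
    (by rw [finrank_eq_red h hdm, hcard, Fintype.card_sum, Fintype.card_fin, Fintype.card_fin])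
    (mem_of_eq_smul hc0 he (err_mem h g hg hm hdiv hE y hy))
  have hcA := hint r.2
  set Δ : h.S := -∑ i, intConst h.toRedLattice ⟨co (Sum.inl i), hcA _⟩ * v i with hΔ
  set y' : h.S := y + intConst h.toRedLattice c * Δ with hy'
  obtain ⟨R, hR⟩ : ∃ R : h.S, err h g (m := m) y' =
      err h g (m := m) y + intConst h.toRedLattice c * φ Δ + intConst h.toRedLattice c * (intConst h.toRedLattice c * R) := by
    obtain ⟨k, hk⟩ := Polynomial.binomExpansion (Polynomial.X ^ m : Polynomial h.S) y
      (intConst h.toRedLattice c * Δ)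
    simp only [Polynomial.eval_pow, Polynomial.eval_X, Polynomial.derivative_X_pow,
      Polynomial.eval_mul, Polynomial.eval_C] at hk
    exact ⟨g * k * Δ ^ 2, by rw [err, err, hy', hk, hφ]; ring⟩
  refine ⟨_, u, fun j => ⟨co (Sum.inr j), hcA _⟩, y', R, ?_, ?_, fun d hd j => ?_, ?_⟩
  · rw [hy', hΔ]
    simp only [AddMemClass.coe_add, MulMemClass.coe_mul, NegMemClass.coe_neg,
      AddSubmonoidClass.coe_finsetSum, coe_intConst, ← Algebra.smul_def]
    exact Submodule.add_mem _ hy (Submodule.smul_mem _ _ (Submodule.neg_mem _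
      (Submodule.sum_mem _ fun i _ => Submodule.smul_mem _ _ (hv i))))
  · rw [hy', map_add, map_mul, redF_intConst, hcu, map_zero, zero_mul, add_zero, hy1]
  · simp only [hur] at hd
    have h1 : ∑ j, d j • ((bW j : W) : Fk) ∈ W :=
      Submodule.sum_mem _ fun j _ => W.smul_mem _ (bW j).2
    have h3 := Submodule.disjoint_def.mp hdis _ hd h1
    exact Fintype.linearIndependent_iff.mp
      (bW.linearIndependent.map' W.subtype (Submodule.ker_subtype _)) d h3 j
  · have her : err h g (m := m) y = intConst h.toRedLattice c *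
        ∑ i, intConst h.toRedLattice ⟨co i, hcA i⟩ * fam i := by
      refine Subtype.ext ?_
      rw [he, hco]
      simp only [MulMemClass.coe_mul, AddSubmonoidClass.coe_finsetSum, coe_intConst,
        ← Algebra.smul_def]
    rw [hR, her, Fintype.sum_sum_type, hΔ, map_neg, map_sum]
    simp only [fam, Sum.elim_inl, Sum.elim_inr, hφ, mul_add, mul_neg, Finset.mul_sum]
    have : ∀ i, intConst h.toRedLattice c * (g * (m : h.S) * y ^ (m - 1) *
        (intConst h.toRedLattice ⟨co (Sum.inl i), hcA _⟩ * v i)) = intConst h.toRedLattice c *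
        (intConst h.toRedLattice ⟨co (Sum.inl i), hcA _⟩ * (g * (m : h.S) * y ^ (m - 1) * v i)) := fun i => by
      ring
    simp only [this]
    abel

include hg hm hD hdiv in
/-- The error can be squared. -/
theorem exists_improve {E₁ E₂ : Divisor QBar F} (hE₁ : 0 ≤ E₁) (hE₂ : 0 ≤ E₂)
    (hd₁ : bigDeg h ≤ Divisor.degree E₁) (hd₂ : bigDeg h ≤ Divisor.degree E₂)
    (hdisj : ∀ v, redDiv h E₁ v = 0 ∨ redDiv h E₂ v = 0)
    (c : A) (hcu : residue A c = 0) (hc0 : (c : QBar) ≠ 0) {y₁ y₂ : h.S}
    (hy₁ : (y₁ : F) ∈ riemannRochSpace (E₁ + D)) (hy₂ : (y₂ : F) ∈ riemannRochSpace (E₂ + D))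
    (h11 : redF h.toRedLattice y₁ = 1) (h21 : redF h.toRedLattice y₂ = 1) {r₁ r₂ : h.S}
    (he₁ : (err h g (m := m) y₁ : F) = (c : QBar) • (r₁ : F))
    (he₂ : (err h g (m := m) y₂ : F) = (c : QBar) • (r₂ : F)) :
    ∃ z₁ z₂ s₁ s₂ : h.S, (z₁ : F) ∈ riemannRochSpace (E₁ + D) ∧
      (z₂ : F) ∈ riemannRochSpace (E₂ + D) ∧ redF h.toRedLattice z₁ = 1 ∧ redF h.toRedLattice z₂ = 1 ∧
      (err h g (m := m) z₁ : F) = ((c * c : A) : QBar) • (s₁ : F) ∧
      (err h g (m := m) z₂ : F) = ((c * c : A) : QBar) • (s₂ : F) := by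
  obtain ⟨k₁, u₁, b₁, z₁, R₁, hz₁, hz₁1, hW₁, e₁⟩ :=
    exists_correction h g hg hm hD hdiv hE₁ hd₁ hy₁ h11 c hcu hc0 he₁
  obtain ⟨k₂, u₂, b₂, z₂, R₂, hz₂, hz₂1, hW₂, e₂⟩ :=
    exists_correction h g hg hm hD hdiv hE₂ hd₂ hy₂ h21 c hcu hc0 he₂
  let b : Fin k₁ ⊕ Fin k₂ → A := Sum.elim b₁ b₂
  -- all coefficients are divisible by `c`
  have hdvd : ∀ i, ∃ a : A, b i = c * a := by
    by_contra! hno
    obtain ⟨i₁, hi₁⟩ := hno
    obtain ⟨i₀, -, hmax⟩ := Finset.exists_max_image Finset.univ
      (fun i => A.valuation (b i : QBar)) ⟨i₁, Finset.mem_univ _⟩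
    have hgt : A.valuation (c : QBar) < A.valuation (b i₀ : QBar) := by
      by_contra! hle
      have h1 := (hmax i₁ (Finset.mem_univ _)).trans hle
      have h2 : (b i₁ : QBar) / (c : QBar) ∈ A := by
        rw [← A.valuation_le_one_iff, map_div₀,
          div_le_one₀ (zero_lt_iff.mpr ((Valuation.ne_zero_iff _).mpr hc0))]
        exact h1
      exact hi₁ ⟨_, h2⟩ (Subtype.ext (by
        rw [MulMemClass.coe_mul]; exact (mul_div_cancel₀ _ hc0).symm))
    have hb0 : (b i₀ : QBar) ≠ 0 := fun e => by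
      rw [e, map_zero] at hgt
      exact not_lt_zero hgt
    have hv0 : (0 : A.ValueGroup) < A.valuation (b i₀ : QBar) :=
      zero_lt_iff.mpr ((Valuation.ne_zero_iff _).mpr hb0)
    have hq : ∀ i, (b i : QBar) / b i₀ ∈ A := fun i => by
      rw [← A.valuation_le_one_iff, map_div₀, div_le_one₀ hv0]
      exact hmax i (Finset.mem_univ _)
    have hcq : (c : QBar) / b i₀ ∈ A := by
      rw [← A.valuation_le_one_iff, map_div₀, div_le_one₀ hv0]
      exact hgt.le
    have hcr : residue A ⟨_, hcq⟩ = 0 := by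
      rw [IsLocalRing.residue_eq_zero_iff, ← ValuationSubring.coe_mem_nonunits_iff,
        ValuationSubring.mem_nonunits_iff, map_div₀, div_lt_one₀ hv0]
      exact hgt
    let t₁ : h.S := ∑ j, intConst h.toRedLattice ⟨_, hq (Sum.inl j)⟩ * u₁ j + intConst h.toRedLattice ⟨_, hcq⟩ * R₁
    let t₂ : h.S := ∑ j, intConst h.toRedLattice ⟨_, hq (Sum.inr j)⟩ * u₂ j + intConst h.toRedLattice ⟨_, hcq⟩ * R₂
    have key : ∀ x y : QBar, algebraMap QBar F ((c : QBar) * (b i₀ : QBar)) *
        (algebraMap QBar F (x / (b i₀ : QBar))) = algebraMap QBar F (c : QBar) * algebraMap QBar F x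
        := fun x _ => by
      rw [← map_mul, ← map_mul]
      congr 1
      field_simp
    have ht₁ : (err h g (m := m) z₁ : F) = ((c : QBar) * (b i₀ : QBar)) • (t₁ : F) := by
      simp only [t₁, e₁, Algebra.smul_def, AddMemClass.coe_add, MulMemClass.coe_mul,
        AddSubmonoidClass.coe_finsetSum, coe_intConst, mul_add, Finset.mul_sum, ← mul_assoc,
        key _ 0]
      rfl
    have ht₂ : (err h g (m := m) z₂ : F) = ((c : QBar) * (b i₀ : QBar)) • (t₂ : F) := by
      simp only [t₂, e₂, Algebra.smul_def, AddMemClass.coe_add, MulMemClass.coe_mul,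
        AddSubmonoidClass.coe_finsetSum, coe_intConst, mul_add, Finset.mul_sum, ← mul_assoc,
        key _ 0]
      rfl
    have hc' := mul_ne_zero hc0 hb0
    have m₁ := red_err_mem h g hg hm hD hdiv hE₁ hE₂ hd₁ hd₂ hdisj hz₁ hz₂ hz₁1 hz₂1 hc' ht₁ ht₂
    have m₂ := red_err_mem h g hg hm hD hdiv hE₂ hE₁ hd₂ hd₁ (fun v => (hdisj v).symm) hz₂ hz₁
      hz₂1 hz₁1 hc' ht₂ ht₁
    simp only [t₁, t₂, map_add, map_sum, map_mul, redF_intConst, hcr, map_zero, zero_mul, add_zero,
      ← Algebra.smul_def] at m₁ m₂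
    have hone : residue A ⟨_, hq i₀⟩ = 1 := by
      rw [show (⟨_, hq i₀⟩ : A) = 1 from Subtype.ext (div_self hb0), map_one]
    rcases i₀ with j | j
    · exact one_ne_zero (hone.symm.trans (hW₁ _ m₁ j))
    · exact one_ne_zero (hone.symm.trans (hW₂ _ m₂ j))
  choose a ha using hdvd
  refine ⟨z₁, z₂, ∑ j, intConst h.toRedLattice (a (Sum.inl j)) * u₁ j + R₁,
    ∑ j, intConst h.toRedLattice (a (Sum.inr j)) * u₂ j + R₂, hz₁, hz₂, hz₁1, hz₂1, ?_, ?_⟩
  · rw [smul_lattice_eq h]
    refine congrArg Subtype.val ?_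
    rw [e₁, map_mul, mul_add, mul_add, Finset.mul_sum, Finset.mul_sum]
    simp only [show ∀ j, b₁ j = c * a (Sum.inl j) from fun j => ha (Sum.inl j), map_mul, mul_assoc]
  · rw [smul_lattice_eq h]
    refine congrArg Subtype.val ?_
    rw [e₂, map_mul, mul_add, mul_add, Finset.mul_sum, Finset.mul_sum]
    simp only [show ∀ j, b₂ j = c * a (Sum.inr j) from fun j => ha (Sum.inr j), map_mul, mul_assoc]

include hg hm hD hdiv in
/-- Without an exact solution the error is bounded below. -/
theorem exists_lower_bound {E : Divisor QBar F} (hE : 0 ≤ E) (hd : bigDeg h ≤ Divisor.degree E)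
    (hno : ∀ y ∈ riemannRochSpace (E + D), (g : F) * y ^ m ≠ 1) :
    ∃ M : QBar, M ≠ 0 ∧ ∀ (y : h.S), (y : F) ∈ riemannRochSpace (E + D) → ∀ (c : QBar) (r : h.S),
      (err h g (m := m) y : F) = c • (r : F) → A.valuation M ≤ A.valuation c := by
  have hdm : bigDeg h ≤ Divisor.degree (m • E) :=
    hd.trans (degree_mono (le_nsmul_self hE (m_ne_zero hm)))
  have hdV : bigDeg h ≤ Divisor.degree (E + D) := by rw [map_add, degree_D h hD, add_zero]; exact hd
  let bV := Module.finBasis (ResidueField A) (riemannRochSpace (redDiv h (E + D)))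
  let bU := Module.finBasis (ResidueField A) (riemannRochSpace (redDiv h (m • E)))
  choose v hv hvr using fun i => exists_lift_mem h hdV (bV i).2
  choose u hu hur using fun i => exists_lift_mem h hdm (bU i).2
  have hvli : LinearIndependent (ResidueField A) fun i => redF h.toRedLattice (v i) := by
    simp only [hvr]
    exact bV.linearIndependent.map' (riemannRochSpace (redDiv h (E + D))).subtype
      (Submodule.ker_subtype _)
  have huli : LinearIndependent (ResidueField A) fun i => redF h.toRedLattice (u i) := by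
    simp only [hur]
    exact bU.linearIndependent.map' (riemannRochSpace (redDiv h (m • E))).subtype
      (Submodule.ker_subtype _)
  have hvc : Fintype.card (Fin (Module.finrank (ResidueField A)
      (riemannRochSpace (redDiv h (E + D))))) = Module.finrank QBar (riemannRochSpace (E + D)) := by
    rw [Fintype.card_fin, finrank_eq_red h hdV]
  have huc : Fintype.card (Fin (Module.finrank (ResidueField A)
      (riemannRochSpace (redDiv h (m • E))))) = Module.finrank QBar (riemannRochSpace (m • E)) := by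
    rw [Fintype.card_fin, finrank_eq_red h hdm]
  have hterm : ∀ f : Fin m → Fin (Module.finrank (ResidueField A)
      (riemannRochSpace (redDiv h (E + D)))),
      (g : F) * ∏ i, (v (f i) : F) ∈ riemannRochSpace (m • E) := fun f =>
    mul_mem_U h g hg hm hdiv (prod_mem_riemannRochSpace _ fun i => hv (f i))
  choose cf hcf _hcfA using fun f => exists_coords h.toRedLattice u hu huli huc (hterm f)
  obtain ⟨c1, hc1, -⟩ := exists_coords h.toRedLattice u hu huli huc
    (one_mem_riemannRochSpace (nsmul_nonneg hE m))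
  let P := fun k => (∑ f, MvPolynomial.C (cf f k) * ∏ i, MvPolynomial.X (f i)) -
    MvPolynomial.C (c1 k)
  have heval : ∀ a : Fin (Module.finrank (ResidueField A)
      (riemannRochSpace (redDiv h (E + D)))) → QBar,
      (g : F) * (∑ j, a j • (v j : F)) ^ m - 1 = ∑ k, MvPolynomial.eval a (P k) • (u k : F) := by
    intro a
    simp only [P, map_sub, map_sum, map_mul, map_prod, MvPolynomial.eval_C, MvPolynomial.eval_X,
      sub_smul, Finset.sum_sub_distrib, Finset.sum_smul]
    rw [Finset.sum_comm, ← hc1]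
    congr 1
    rw [Fintype.sum_pow, Finset.mul_sum]
    refine Finset.sum_congr rfl fun f _ => ?_
    rw [show ∏ i, a (f i) • (v (f i) : F) = (∏ i, a (f i)) • ∏ i, (v (f i) : F) from
      Finset.prod_smul _ _ _, mul_smul_comm, hcf f, Finset.smul_sum]
    exact Finset.sum_congr rfl fun k _ => by rw [smul_smul, mul_comm]
  -- Nullstellensatz
  have htop : Ideal.span (Set.range P) = ⊤ := by
    have h0 : MvPolynomial.zeroLocus QBar (Ideal.span (Set.range P)) = ∅ := by
      refine Set.eq_empty_iff_forall_notMem.mpr fun a ha => ?_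
      refine hno _ (Submodule.sum_mem (t := Finset.univ) _ fun j _ => Submodule.smul_mem _ (a j) (hv j))
        (sub_eq_zero.mp ?_)
      rw [heval a]
      refine Finset.sum_eq_zero fun k _ => ?_
      have hk := ha (P k) (Ideal.subset_span (Set.mem_range_self k))
      rw [MvPolynomial.aeval_eq_eval] at hk
      rw [hk, zero_smul]
    have h1 := MvPolynomial.vanishingIdeal_zeroLocus_eq_radical (k := QBar) (K := QBar)
      (Ideal.span (Set.range P))
    rw [h0, MvPolynomial.vanishingIdeal_empty] at h1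
    exact Ideal.radical_eq_top.mp h1.symm
  obtain ⟨Q, hQ⟩ := Ideal.mem_span_range_iff_exists_fun.mp
    ((Ideal.eq_top_iff_one _).mp htop)
  obtain ⟨β, hβ, hmax⟩ := Finset.exists_max_image
    (insert (1 : QBar) (Finset.univ.biUnion fun k => (Q k).support.image fun d => (Q k).coeff d))
    (fun x => A.valuation x) ⟨1, Finset.mem_insert_self _ _⟩
  have hβ0 : β ≠ 0 := fun e => by
    have := hmax 1 (Finset.mem_insert_self _ _)
    simp [e] at this
  refine ⟨β⁻¹, inv_ne_zero hβ0, fun y hy c r he => ?_⟩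
  obtain ⟨a, ha, haA⟩ := exists_coords h.toRedLattice v hv hvli hvc hy
  have haA' := haA y.2
  rcases eq_or_ne c 0 with rfl | hc
  · refine absurd (sub_eq_zero.mp ?_) (hno _ hy)
    simpa [err] using he
  obtain ⟨s, hs, hsA⟩ := exists_coords h.toRedLattice u hu huli huc
    (mem_of_eq_smul hc he (err_mem h g hg hm hdiv hE y hy))
  have hsA' := hsA r.2
  have hPs : ∀ k, MvPolynomial.eval a (P k) = c * s k := by
    have hli := linearIndependent_of_redF h.toRedLattice u huli
    intro k
    refine sub_eq_zero.mp (Fintype.linearIndependent_iff.mp hli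
      (fun k => MvPolynomial.eval a (P k) - c * s k) ?_ k)
    simp only [sub_smul, Finset.sum_sub_distrib, mul_smul, ← Finset.smul_sum, ← heval, ← ha,
      ← hs]
    rw [← he]
    simp [err]
  have hQb : ∀ k, A.valuation (MvPolynomial.eval a (Q k)) ≤ A.valuation β := fun k => by
    rw [MvPolynomial.eval_eq]
    refine Valuation.map_sum_le _ fun d hd => ?_
    rw [map_mul, map_prod]
    refine (mul_le_of_le_one_right' (Finset.prod_le_one (fun _ _ => zero_le) fun i _ => ?_)).trans
      (hmax _ (Finset.mem_insert_of_mem (Finset.mem_biUnion.mpr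
        ⟨k, Finset.mem_univ _, Finset.mem_image_of_mem _ hd⟩)))
    rw [map_pow]
    exact pow_le_one₀ zero_le ((A.valuation_le_one_iff _).mpr (haA' i))
  have h1 := congrArg (MvPolynomial.eval a) hQ
  simp only [map_sum, map_mul, map_one, hPs] at h1
  have h2 : A.valuation (1 : QBar) ≤ A.valuation β * A.valuation c := by
    rw [← h1]
    refine Valuation.map_sum_le _ fun k _ => ?_
    rw [map_mul, map_mul]
    exact mul_le_mul' (hQb k)
      (mul_le_of_le_one_right' ((A.valuation_le_one_iff _).mpr (hsA' k)))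
  rw [map_one] at h2
  rw [map_inv₀, inv_le_iff_one_le_mul₀ (zero_lt_iff.mpr ((Valuation.ne_zero_iff _).mpr hβ0))]
  exact h2.trans_eq (mul_comm _ _)

include h in
theorem exists_redPlace_ne : ∃ P Q : Place QBar F, redPlace h P ≠ redPlace h Q := by
  by_contra! hcon
  obtain ⟨x, hx, -⟩ := ‹IsFunctionField (ResidueField A) Fk›.exists_finite
  obtain ⟨v, hv⟩ := exists_ord_neg_of_transcendental hx
  obtain ⟨f, rfl⟩ := h.surj x
  have hf : redF h.toRedLattice f ≠ 0 := fun e => by
    rw [show h.rho f = redF h.toRedLattice f from rfl, e] at hv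
    simp at hv
  obtain ⟨P₀⟩ := nonempty_place h
  have key : ∀ B : Divisor QBar F,
      redDiv h B = Finsupp.single (redPlace h P₀) (Divisor.degree B) := by
    intro B
    induction B using Finsupp.induction with
    | zero => simp
    | single_add P n B _ _ ih =>
      rw [map_add, map_add, ih, redDiv_single, hcon P P₀, degree_single_one, Finsupp.single_add]
  have h1 := redDiv_div h f hf
  rw [key, degree_div, Finsupp.single_zero] at h1
  have h2 := congrArg (fun B : Divisor (ResidueField A) Fk => B v) h1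
  simp only [div_apply, Finsupp.coe_zero, Pi.zero_apply] at h2
  rw [show h.rho f = redF h.toRedLattice f from rfl, ← h2] at hv
  exact lt_irrefl _ hv

include hg hm hD hdiv in
/-- **The root exists.** -/
theorem exists_root {q : ℕ} (hA : A.LiesOverPrime q) (hq : q.Prime) :
    ∃ y : F, (g : F) * y ^ m = 1 := by
  by_contra! hno
  obtain ⟨P, Q, hPQ⟩ := exists_redPlace_ne h
  have hb : (0 : ℤ) ≤ bigDeg h := by
    have := one_le_rrBound h; have := three_le_bigDeg h; omega
  set E₁ : Divisor QBar F := Finsupp.single P (bigDeg h) with hE₁def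
  set E₂ : Divisor QBar F := Finsupp.single Q (bigDeg h) with hE₂def
  have hE₁ : 0 ≤ E₁ := Finsupp.single_nonneg.mpr hb
  have hE₂ : 0 ≤ E₂ := Finsupp.single_nonneg.mpr hb
  have hd₁ : bigDeg h ≤ Divisor.degree E₁ := (degree_single_one _ _).ge
  have hd₂ : bigDeg h ≤ Divisor.degree E₂ := (degree_single_one _ _).ge
  have hdisj : ∀ v, redDiv h E₁ v = 0 ∨ redDiv h E₂ v = 0 := fun v => by
    rw [hE₁def, hE₂def, redDiv_single, redDiv_single]
    rcases eq_or_ne v (redPlace h P) with rfl | hv
    · exact Or.inr (Finsupp.single_eq_of_ne hPQ)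
    · exact Or.inl (Finsupp.single_eq_of_ne hv)
  have hstart : ∀ E : Divisor QBar F, 0 ≤ E → bigDeg h ≤ Divisor.degree E →
      ∃ y : h.S, (y : F) ∈ riemannRochSpace (E + D) ∧ redF h.toRedLattice y = 1 ∧
        ∃ (c : QBar) (r : h.S), A.valuation c < 1 ∧ (err h g (m := m) y : F) = c • (r : F) := by
    intro E hE hd
    obtain ⟨y, hy, hy1⟩ := exists_lift_mem h (B := E + D)
      (by rw [map_add, degree_D h hD, add_zero]; exact hd) (x := 1)
      (by rw [redDiv_twist h hD]; exact one_mem_riemannRochSpace (redDiv_nonneg h hE))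
    exact ⟨y, hy, hy1, exists_small h _ (by simp [err, hg, hy1])⟩
  obtain ⟨y₁, hy₁, h11, c₁, r₁, hc₁, he₁⟩ := hstart E₁ hE₁ hd₁
  obtain ⟨y₂, hy₂, h21, c₂, r₂, hc₂, he₂⟩ := hstart E₂ hE₂ hd₂
  have hc₁0 : c₁ ≠ 0 := fun e => hno (y₁ : F) (sub_eq_zero.mp (by simpa [err, e] using he₁))
  obtain ⟨c, hc0, hc, hdiv₁, hdiv₂⟩ : ∃ c : QBar, c ≠ 0 ∧ A.valuation c < 1 ∧
      c₁ / c ∈ A ∧ c₂ / c ∈ A := by
    rcases le_total (A.valuation c₂) (A.valuation c₁) with hle | hle
    · refine ⟨c₁, hc₁0, hc₁, by rw [div_self hc₁0]; exact one_mem A, ?_⟩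
      rw [← A.valuation_le_one_iff, map_div₀,
        div_le_one₀ (zero_lt_iff.mpr ((Valuation.ne_zero_iff _).mpr hc₁0))]
      exact hle
    · have hc₂0 : c₂ ≠ 0 := fun e => hc₁0 (by
        rw [e, map_zero, le_zero_iff, Valuation.zero_iff] at hle
        exact hle)
      refine ⟨c₂, hc₂0, hc₂, ?_, by rw [div_self hc₂0]; exact one_mem A⟩
      rw [← A.valuation_le_one_iff, map_div₀,
        div_le_one₀ (zero_lt_iff.mpr ((Valuation.ne_zero_iff _).mpr hc₂0))]
      exact hle
  set cA : A := ⟨c, (A.valuation_le_one_iff _).mp hc.le⟩ with hcA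
  have hiter : ∀ n : ℕ, ∃ z₁ z₂ s₁ s₂ : h.S, (z₁ : F) ∈ riemannRochSpace (E₁ + D) ∧
      (z₂ : F) ∈ riemannRochSpace (E₂ + D) ∧ redF h.toRedLattice z₁ = 1 ∧ redF h.toRedLattice z₂ = 1 ∧
      (err h g (m := m) z₁ : F) = ((cA ^ 2 ^ n : A) : QBar) • (s₁ : F) ∧
      (err h g (m := m) z₂ : F) = ((cA ^ 2 ^ n : A) : QBar) • (s₂ : F) := by
    intro n
    induction n with
    | zero =>
      refine ⟨y₁, y₂, intConst h.toRedLattice ⟨_, hdiv₁⟩ * r₁, intConst h.toRedLattice ⟨_, hdiv₂⟩ * r₂, hy₁, hy₂, h11, h21,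
        ?_, ?_⟩
      · rw [he₁, pow_zero, pow_one, MulMemClass.coe_mul, coe_intConst, ← Algebra.smul_def,
          smul_smul, mul_div_cancel₀ _ hc0]
      · rw [he₂, pow_zero, pow_one, MulMemClass.coe_mul, coe_intConst, ← Algebra.smul_def,
          smul_smul, mul_div_cancel₀ _ hc0]
    | succ n ih =>
      obtain ⟨z₁, z₂, s₁, s₂, hz₁, hz₂, hz₁1, hz₂1, e₁, e₂⟩ := ih
      have hres : residue A (cA ^ 2 ^ n) = 0 := by
        have h0 : residue A cA = 0 := (IsLocalRing.residue_eq_zero_iff _).mpr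
          ((ValuationSubring.coe_mem_nonunits_iff).mp
            ((ValuationSubring.mem_nonunits_iff (A := A)).mpr hc))
        rw [map_pow, h0, zero_pow (pow_ne_zero _ two_ne_zero)]
      have := exists_improve h g hg hm hD hdiv hE₁ hE₂ hd₁ hd₂ hdisj (cA ^ 2 ^ n) hres
        (by rw [SubmonoidClass.coe_pow]; exact pow_ne_zero _ hc0) hz₁ hz₂ hz₁1 hz₂1 e₁ e₂
      rwa [← pow_two, ← pow_mul, ← pow_succ] at this
  obtain ⟨M, hM, hlow⟩ := exists_lower_bound h g hg hm hD hdiv hE₁ hd₁
    fun y _ => hno y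
  obtain ⟨N, hN⟩ := exists_valuation_pow_lt hA hq hc hM
  obtain ⟨z₁, z₂, s₁, -, hz₁, -, -, -, e₁, -⟩ := hiter N
  have h1 := hlow z₁ hz₁ _ s₁ e₁
  rw [SubmonoidClass.coe_pow, map_pow] at h1
  exact absurd (h1.trans (pow_le_pow_right_of_le_one' hc.le Nat.lt_two_pow_self.le))
    (not_le.mpr hN)

include h in
/-- A torsion divisor class of order prime to the residue characteristic with principal reduction
is principal. -/
theorem exists_div_eq {q : ℕ} (hA : A.LiesOverPrime q) (hq : q.Prime) {m : ℕ} (hm : IsUnit (m : A))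
    {D : Divisor QBar F} {f : F} (hf : f ≠ 0) (hfD : div QBar f = m • D) {x : Fk} (hx : x ≠ 0)
    (hDx : redDiv h D = div (ResidueField A) x) :
    ∃ y : F, y ≠ 0 ∧ div QBar y = D := by
  have hm0 := m_ne_zero hm
  obtain ⟨c, g, hc, hgr, rfl⟩ := exists_primitive h.toRedLattice hf
  rw [div_smul hc (fun e => hf (by rw [e, smul_zero]))] at hfD
  obtain ⟨Y, rfl⟩ := h.surj x
  have hY0 : (Y : F) ≠ 0 := fun e => hx (by rw [show Y = 0 from Subtype.ext e, map_zero])
  have hYm : redF h.toRedLattice (Y ^ m) ≠ 0 := by rw [map_pow]; exact pow_ne_zero _ hx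
  set Yi : h.S := ⟨_, inv_mem_of_redF_ne_zero h.toRedLattice (Y ^ m) hYm⟩ with hYi
  have hYi1 : redF h.toRedLattice Yi * redF h.toRedLattice (Y ^ m) = 1 := by
    rw [← map_mul, ← map_one (redF h.toRedLattice)]
    refine congrArg _ (Subtype.ext ?_)
    simp [hYi, pow_ne_zero _ hY0]
  set g₁ : h.S := g * Yi with hg₁
  set D₁ : Divisor QBar F := D - div QBar (Y : F) with hD₁
  have hg0 : (g : F) ≠ 0 := fun e => hgr (by rw [show g = 0 from Subtype.ext e, map_zero])
  have hdiv₁ : div QBar (g₁ : F) = m • D₁ := by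
    show div QBar ((g : F) * ((Y ^ m : h.S) : F)⁻¹) = m • D₁
    rw [SubmonoidClass.coe_pow, FF.div_mul hg0 (inv_ne_zero (pow_ne_zero _ hY0)), div_inv, div_npow, hfD, hD₁, nsmul_sub,
      sub_eq_add_neg]
  have hred₁ : redDiv h D₁ = 0 := by
    rw [hD₁, map_sub, hDx, redDiv_div h Y hx, sub_self]
  have hr0 : redF h.toRedLattice g₁ ≠ 0 := by
    rw [hg₁, map_mul]
    exact mul_ne_zero hgr (left_ne_zero_of_mul_eq_one hYi1)
  obtain ⟨α, hα⟩ := exists_algebraMap_of_div_eq_zero (K := ResidueField A)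
    (show div (ResidueField A) (redF h.toRedLattice g₁) = 0 by
      rw [← redDiv_div h g₁ hr0, hdiv₁, map_nsmul, hred₁, smul_zero])
  have hα0 : α ≠ 0 := fun e => hr0 (by rw [hα, e, map_zero])
  obtain ⟨a, ha⟩ := residue_surjective α⁻¹
  have ha0 : (a : QBar) ≠ 0 := fun e => inv_ne_zero hα0 (by
    rw [← ha, show a = 0 from Subtype.ext e, map_zero])
  obtain ⟨y, hy⟩ := exists_root h (intConst h.toRedLattice a * g₁) (D := D₁) (m := m)
    (by rw [map_mul, redF_intConst, ha, hα, ← map_mul, inv_mul_cancel₀ hα0, map_one]) hm hred₁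
    (by rw [MulMemClass.coe_mul, coe_intConst, ← Algebra.smul_def,
      div_smul ha0 (fun e => hr0 (by rw [show g₁ = 0 from Subtype.ext e, map_zero])), hdiv₁]) hA hq
  have hy0 : y ≠ 0 := fun e => by
    rw [e, zero_pow hm0, mul_zero] at hy
    exact zero_ne_one hy
  refine ⟨(Y : F) * y⁻¹, mul_ne_zero hY0 (inv_ne_zero hy0), ?_⟩
  have h1 := congrArg (fun z => div QBar z) hy
  simp only [MulMemClass.coe_mul, coe_intConst, ← Algebra.smul_def, smul_mul_assoc] at h1
  rw [div_smul ha0 (mul_ne_zero (fun e => hr0 (by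
      rw [show g₁ = 0 from Subtype.ext e, map_zero])) (pow_ne_zero _ hy0)),
    FF.div_mul (fun e => hr0 (by rw [show g₁ = 0 from Subtype.ext e, map_zero]))
      (pow_ne_zero _ hy0), hdiv₁, div_npow, FF.div_one, ← nsmul_add, smul_eq_zero] at h1
  rw [FF.div_mul hY0 (inv_ne_zero hy0), div_inv, ← eq_neg_of_add_eq_zero_left (h1.resolve_left hm0),
    hD₁, add_sub_cancel]

end Fermat.Agent.RedTorsion.Inj

end
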