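import Fermat.Agent.RedTorsion.Series
import Fermat.Agent.RedTorsion.JLine
import Fermat.Agent.RedTorsion.ReducedBasis
import Fermat.Agent.EichlerShimura.Model

/-!
# A basis of the modular function field made of integral `q`-expansions

For a valuation ring `A` of `L` with `N` a unit in the residue field `κ`, the field `F` of level
`N` over `L` has a basis over `L(j)` of series with coefficients in `A` whose reductions form a
basis of the field of level `N` over `κ(j)`.
-/

set_option autoImplicit false
set_option linter.unusedSectionVars false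

noncomputable section

open Polynomial AlgebraicCurve IsLocalRing ModularCurve
open scoped Classical IntermediateField

namespace Fermat.Agent.RedTorsion

open Fermat.Agent.FF Fermat.Agent.EichlerShimura

attribute [local instance 2000] SubalgebraClass.toAlgebra HahnSeries.powerSeriesAlgebra
  IntermediateField.toAlgebra

variable {L : Type*} [Field L] {A : ValuationSubring L}

section Eval

variable (A) in
/-- `p ↦ p(j)` with coefficients in `A`. -/
def evalA : A[X] →+* serInt A :=
  eval₂RingHom
    (((algebraMap L (LaurentSeries L)).comp A.subtype).codRestrict (serInt A)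
      fun a => algebraMap_mem_serInt a.2)
    ⟨jqModC L, ⟨jqModC A, coeffMap_jqModC A.subtype⟩⟩

theorem coe_evalA (p : A[X]) :
    (evalA A p : LaurentSeries L) = aeval (jqModC L) (polyIncl A p) := by
  induction p using Polynomial.induction_on' with
  | add p q hp hq => simp [map_add, hp, hq]
  | monomial n a =>
    rw [polyIncl, coe_mapRingHom, map_monomial, aeval_monomial, evalA, coe_eval₂RingHom,
      eval₂_monomial]
    push_cast
    rfl

theorem serRed_evalA (p : A[X]) :
    serRed A (evalA A p) = aeval (jqModC (ResidueField A)) (polyBar A p) := by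
  induction p using Polynomial.induction_on' with
  | add p q hp hq => simp [map_add, hp, hq]
  | monomial n a =>
    rw [polyBar, coe_mapRingHom, map_monomial, aeval_monomial, evalA, coe_eval₂RingHom,
      eval₂_monomial, map_mul, map_pow]
    congr 1
    · exact serRed_algebraMap a.2
    · congr 1
      ext k
      refine (coeff_serRed _ k).trans ?_
      rw [← coeffMap_jqModC (residue A), coeffMap_coeff]
      refine congrArg (residue A) (Subtype.ext ?_)
      show (jqModC L).coeff k = _
      rw [← coeffMap_jqModC A.subtype, coeffMap_coeff]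
      rfl

/-- A nonzero finite family of polynomials is a scalar times an integral primitive one. -/
theorem exists_scale_family {ι : Type*} [Fintype ι] (f : ι → L[X]) (hf : ∃ i, f i ≠ 0) :
    ∃ c : L, c ≠ 0 ∧ ∃ g : ι → A[X],
      (∀ i, f i = C c * polyIncl A (g i)) ∧ ∃ i, polyBar A (g i) ≠ 0 := by
  obtain ⟨i₁, hi₁⟩ := hf
  obtain ⟨k₁, hk₁⟩ := support_nonempty.mpr hi₁
  obtain ⟨⟨i, k⟩, hik, hmax⟩ := Finset.exists_max_image
    ((Finset.univ : Finset ι).sigma fun i => (f i).support)
    (fun ik => A.valuation ((f ik.1).coeff ik.2))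
    ⟨⟨i₁, k₁⟩, Finset.mem_sigma.mpr ⟨Finset.mem_univ _, hk₁⟩⟩
  have hc : (f i).coeff k ≠ 0 := mem_support_iff.mp (Finset.mem_sigma.mp hik).2
  have hmem : ∀ i' n, (C ((f i).coeff k)⁻¹ * f i').coeff n ∈ A := fun i' n => by
    rw [coeff_C_mul, ← A.valuation_le_one_iff, map_mul, map_inv₀, inv_mul_le_iff₀
      ((Valuation.pos_iff _).mpr hc), mul_one]
    by_cases hn : n ∈ (f i').support
    · exact hmax ⟨i', n⟩ (Finset.mem_sigma.mpr ⟨Finset.mem_univ _, hn⟩)
    · simp [notMem_support_iff.mp hn]
  choose g hg using fun i' => exists_lift_coeffs (hmem i')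
  refine ⟨_, hc, g, fun i' => by
    rw [hg i', ← mul_assoc, ← C_mul, mul_inv_cancel₀ hc, C_1, one_mul], i, fun h => ?_⟩
  have h1 : residue A ((g i).coeff k) = 0 := by rw [← coeff_polyBar, h, coeff_zero]
  have h2 : ((g i).coeff k : L) = 1 := by
    rw [← coeff_polyIncl, hg i, coeff_C_mul, inv_mul_cancel₀ hc]
  rw [show (g i).coeff k = 1 from Subtype.ext h2, map_one] at h1
  exact one_ne_zero h1

end Eval

variable {N : ℕ} [NeZero N] {F : IntermediateField L (LaurentSeries L)}
  (hF : F = modularFunctionFieldFullC L N)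

local notation "Fk" => modularFunctionFieldFullC (ResidueField A) N

/-- `j` in the reduced field. -/
abbrev jk : Fk := jF (K := ResidueField A) (N := N) rfl

variable (A) in
/-- The elements of `F` with coefficients in `A`. -/
def sint (F : IntermediateField L (LaurentSeries L)) : Subring F :=
  (serInt A).comap F.val.toRingHom

/-- An element of `sint` as an integral series. -/
def toSerInt : sint A F →+* serInt A :=
  (F.val.toRingHom.domRestrict (sint A F)).codRestrict (serInt A) fun y => y.2

theorem coe_toSerInt (y : sint A F) : (toSerInt (A := A) (F := F) y : LaurentSeries L) = ((y : F) : LaurentSeries L) :=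
  rfl

/-- Coefficientwise reduction on `sint`. -/
def sred : sint A F →+* LaurentSeries (ResidueField A) := (serRed A).comp toSerInt

include hF in
theorem evalA_mem_field (p : A[X]) : (evalA A p : LaurentSeries L) ∈ F := by
  rw [coe_evalA, ← coe_aeval_jF hF]
  exact SetLike.coe_mem _

/-- `p(j)` as an element of `sint`. -/
def evalS (p : A[X]) : sint A F :=
  ⟨⟨_, evalA_mem_field hF p⟩, (evalA A p).2⟩

theorem sred_evalS (p : A[X]) :
    sred (A := A) (F := F) (evalS hF p) = aeval (jqModC (ResidueField A)) (polyBar A p) := serRed_evalA p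

theorem coe_evalS (p : A[X]) : ((evalS hF p : F)) = aeval (jF hF) (polyIncl A p) :=
  Subtype.ext (by rw [coe_aeval_jF]; exact coe_evalA p)

/-- The reduced field, restricted to reductions of elements of `F`. -/
def liftSet (A : ValuationSubring L) (N : ℕ) (F : IntermediateField L (LaurentSeries L)) :
    Subring (modularFunctionFieldFullC (ResidueField A) N) :=
  ((sred (A := A) (F := F)).range).comap (modularFunctionFieldFullC (ResidueField A) N).val.toRingHom

theorem mem_liftSet {g : Fk} :
    g ∈ liftSet A N F ↔ ∃ y : sint A F, sred (A := A) (F := F) y = (g : LaurentSeries (ResidueField A)) := Iff.rfl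

include hF in
theorem algebraMap_mem_liftSet (c : ResidueField A) :
    algebraMap (ResidueField A) Fk c ∈ liftSet A N F := by
  obtain ⟨⟨a, ha⟩, rfl⟩ := residue_surjective c
  refine mem_liftSet.mpr ⟨evalS hF (C ⟨a, ha⟩), ?_⟩
  rw [sred_evalS, polyBar, coe_mapRingHom, map_C, aeval_C]
  rfl

include hF in
theorem qExpand_mem_liftSet {d : ℕ} [NeZero d] (hd : d ∣ N) :
    (⟨qExpand (ResidueField A) d (jqModC (ResidueField A)), jqModCd_mem_full _ N hd⟩ : Fk) ∈
      liftSet A N F := by
  have hint : qExpand L d (jqModC L) ∈ serInt A :=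
    ⟨qExpand A d (jqModC A), by rw [coeffMap_qExpand, coeffMap_jqModC]⟩
  refine mem_liftSet.mpr ⟨⟨⟨_, hF ▸ jqModCd_mem_full L N hd⟩, hint⟩, ?_⟩
  show serRed A ⟨qExpand L d (jqModC L), hint⟩ = qExpand (ResidueField A) d (jqModC (ResidueField A))
  have e : qExpand L d (jqModC L) = coeffMap A.subtype (qExpand A d (jqModC A)) := by
    rw [coeffMap_qExpand, coeffMap_jqModC]
  rw [show (⟨qExpand L d (jqModC L), hint⟩ : serInt A) =
    ⟨coeffMap A.subtype (qExpand A d (jqModC A)), e ▸ hint⟩ from Subtype.ext e, serRed_coeffMap,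
    coeffMap_qExpand, coeffMap_jqModC]

include hF in
/-- The reduced field is the fraction field of the reductions. -/
theorem exists_div_lift (g : Fk) :
    ∃ a ∈ liftSet A N F, ∃ b ∈ liftSet A N F, b ≠ 0 ∧ g = a / b := by
  set R : Subalgebra (ResidueField A) Fk :=
    { liftSet A N F with algebraMap_mem' := algebraMap_mem_liftSet hF } with hR
  have hle : Algebra.adjoin (ResidueField A) (divisorExpansionsC (ResidueField A) N) ≤
      R.map (modularFunctionFieldFullC (ResidueField A) N).val := by
    refine Algebra.adjoin_le ?_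
    rintro x ⟨d, hne, hd, rfl⟩
    have := hne
    exact ⟨_, qExpand_mem_liftSet hF hd, rfl⟩
  obtain ⟨r, hr, s, hs, hrs⟩ :=
    (IntermediateField.mem_adjoin_iff_div (F := ResidueField A)
      (S := divisorExpansionsC (ResidueField A) N)).mp g.2
  obtain ⟨a, ha, rfl⟩ := hle hr
  obtain ⟨b, hb, rfl⟩ := hle hs
  rcases eq_or_ne b 0 with rfl | hb0
  · refine ⟨0, zero_mem _, 1, one_mem _, one_ne_zero, Subtype.ext ?_⟩
    rw [hrs]; simp
  · exact ⟨a, ha, b, hb, hb0, Subtype.ext (by rw [hrs, IntermediateField.coe_div]; rfl)⟩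

include hF in
theorem aeval_mem_liftSet (p : (ResidueField A)[X]) : aeval jk p ∈ liftSet A N F := by
  obtain ⟨P, rfl⟩ := map_surjective _ residue_surjective p
  refine mem_liftSet.mpr ⟨evalS hF P, ?_⟩
  rw [sred_evalS]
  exact (coe_aeval_jF (K := ResidueField A) (N := N) rfl _).symm

variable (hNA : (N : ResidueField A) ≠ 0)

include hNA in
theorem natCast_ne_zero_of_residue : (N : L) ≠ 0 := fun h => hNA (by
  rw [← map_natCast (residue A), show (N : A) = 0 from Subtype.ext (by simpa using h), map_zero])

include hF hNA in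
/-- A nonzero reduction divides a nonzero polynomial in `j` within the reductions. -/
theorem exists_poly_dvd_of_mem_liftSet {b : Fk} (hb : b ∈ liftSet A N F) (hb0 : b ≠ 0) :
    ∃ P : (ResidueField A)[X], P ≠ 0 ∧ ∃ w ∈ liftSet A N F, aeval jk P = b * w := by
  set κ := ResidueField A
  let hx := transcendental_jF (K := κ) (N := N) (F := Fk) rfl
  have := finiteDimensional_jF (K := κ) (N := N) (F := Fk) rfl hNA
  set μ := minpoly κ⟮(jk : Fk)⟯ b with hμ
  have hint : IsIntegral κ⟮(jk : Fk)⟯ b :=
    (Algebra.IsIntegral.of_finite κ⟮(jk : Fk)⟯ Fk).isIntegral b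
  obtain ⟨Q, R, hQ, hQR⟩ := exists_common_den hx (fun i : Fin (μ.natDegree + 1) => μ.coeff i)
  have h0 : ∑ i : Fin (μ.natDegree + 1), aeval (jk : Fk) (R i) * b ^ (i : ℕ) = 0 := by
    have h := minpoly.aeval κ⟮(jk : Fk)⟯ b
    rw [aeval_eq_sum_range, ← hμ, Finset.sum_range] at h
    calc ∑ i : Fin (μ.natDegree + 1), aeval (jk : Fk) (R i) * b ^ (i : ℕ)
        = aeval (jk : Fk) Q * ∑ i : Fin (μ.natDegree + 1), μ.coeff i • b ^ (i : ℕ) := by
          rw [Finset.mul_sum]
          refine Finset.sum_congr rfl fun i _ => ?_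
          rw [← hQR i, IntermediateField.smul_def, smul_eq_mul, mul_assoc]
      _ = 0 := by rw [h, mul_zero]
  rw [Fin.sum_univ_succ] at h0
  refine ⟨R 0, fun hR0 => ?_, -∑ i : Fin μ.natDegree, aeval (jk : Fk) (R i.succ) * b ^ (i : ℕ),
    neg_mem (sum_mem fun i _ => mul_mem (aeval_mem_liftSet hF _) (pow_mem hb _)), ?_⟩
  · have h1 := hQR 0
    rw [hR0, map_zero, mul_eq_zero] at h1
    rcases h1 with h1 | h1
    · exact aeval_ne_zero hx hQ h1
    · exact minpoly.coeff_zero_ne_zero hint hb0 (Subtype.ext (by simpa using h1))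
  · rw [mul_neg, Finset.mul_sum]
    simp only [Fin.val_zero, pow_zero, mul_one, Fin.val_succ, pow_succ] at h0
    rw [eq_neg_iff_add_eq_zero, ← h0]
    congr 1
    exact Finset.sum_congr rfl fun i _ => by ring

include hF hNA in
/-- A primitive element of the reduced field lifting to an integral element of `F` which is
regular outside the poles of `j`. -/
theorem exists_theta [IsAlgClosed L] [PerfectField (ResidueField A)] :
    letI := ratAlgebra (transcendental_jF (K := ResidueField A) (N := N) (F := Fk) rfl)
    ∃ θ : sint A F, ∃ θb : Fk, sred (A := A) (F := F) θ = (θb : LaurentSeries (ResidueField A)) ∧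
      IntermediateField.adjoin (RatFunc (ResidueField A)) ({θb} : Set Fk) = ⊤ ∧
      ∀ v : Place L F, 0 ≤ v.ord (jF hF) → (θ : F) ∈ ordGe v 0 := by
  set κ := ResidueField A
  let hx := transcendental_jF (K := κ) (N := N) (F := Fk) rfl
  let _ := ratAlgebra hx
  have := finiteDimensional_jF (K := κ) (N := N) (F := Fk) rfl hNA
  have := isSeparable_jF (K := κ) (N := N) (F := Fk) rfl hNA
  have := finite_ratAlgebra hx
  have := isSeparable_ratAlgebra hx
  obtain ⟨α, hα⟩ := Field.exists_primitive_element (RatFunc κ) Fk
  obtain ⟨a, ha, b, hb, hb0, rfl⟩ := exists_div_lift hF α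
  -- a polynomial in `j` divisible by `b` in the reductions
  obtain ⟨P, hP, w, hw, hPw⟩ := exists_poly_dvd_of_mem_liftSet hF hNA hb hb0
  obtain ⟨θ₀, hθ₀⟩ := mem_liftSet.mp (mul_mem ha hw)
  -- clear the poles above finite values of `j`
  have hNL := natCast_ne_zero_of_residue hNA
  have := isFunctionField_full hF hNL
  obtain ⟨Q, hQ, hQreg⟩ := exists_clear (transcendental_jF hF) (θ₀ : F)
  obtain ⟨c, hc, Q₀, hQ₀, hQ₀bar⟩ := exists_scale (A := A) hQ
  refine ⟨evalS hF Q₀ * θ₀, aeval jk (polyBar A Q₀) * (a * w), ?_, ?_, fun v hv => ?_⟩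
  · rw [map_mul, sred_evalS, hθ₀]
    exact congrArg (fun t => t * ((a * w : Fk) : LaurentSeries (ResidueField A)))
      (coe_aeval_jF (K := κ) (N := N) (F := Fk) rfl (polyBar A Q₀)).symm
  · set u : RatFunc κ := algebraMap κ[X] (RatFunc κ) (polyBar A Q₀ * P) with hu
    have hu0 : u ≠ 0 :=
      (map_ne_zero_iff _ (RatFunc.algebraMap_injective κ)).mpr (mul_ne_zero hQ₀bar hP)
    have he : aeval jk (polyBar A Q₀) * (a * w) = algebraMap (RatFunc κ) Fk u * (a / b) := by
      show _ = ratLine hx u * _
      rw [hu, ratLine_algebraMap, map_mul, hPw]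
      field_simp
    rw [he, eq_top_iff, ← hα, IntermediateField.adjoin_simple_le_iff]
    have h1 := IntermediateField.mem_adjoin_simple_self (RatFunc κ)
      (algebraMap (RatFunc κ) Fk u * (a / b))
    have h2 := mul_mem (IntermediateField.algebraMap_mem
      (IntermediateField.adjoin (RatFunc κ) ({algebraMap (RatFunc κ) Fk u * (a / b)} : Set Fk)) u⁻¹) h1
    rwa [← mul_assoc, ← map_mul, inv_mul_cancel₀ hu0, map_one, one_mul] at h2
  · have h1 := hQreg v hv
    rw [hQ₀, map_mul, aeval_C, ← coe_evalS hF, mul_assoc] at h1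
    have h2 := mul_mem_ordGe v (mem_ordGe_of_le v (f := algebraMap L F c⁻¹)
      (le_of_eq (ord_algebraMap v _).symm)) h1
    rw [← mul_assoc, ← map_mul, inv_mul_cancel₀ hc, map_one, one_mul, zero_add] at h2
    exact h2

variable [IsAlgClosed L] [PerfectField (ResidueField A)]

/-- The lifted primitive element. -/
def theta : sint A F := (exists_theta hF hNA).choose

/-- The primitive element of the reduced field. -/
def thetaBar : Fk := (exists_theta hF hNA).choose_spec.choose

theorem sred_theta :
    sred (A := A) (F := F) (theta hF hNA) = (thetaBar hF hNA : LaurentSeries (ResidueField A)) :=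
  (exists_theta hF hNA).choose_spec.choose_spec.1

theorem adjoin_thetaBar :
    letI := ratAlgebra (transcendental_jF (K := ResidueField A) (N := N) (F := Fk) rfl)
    IntermediateField.adjoin (RatFunc (ResidueField A)) ({thetaBar hF hNA} : Set Fk) = ⊤ :=
  (exists_theta hF hNA).choose_spec.choose_spec.2.1

theorem natDegree_minpoly_thetaBar :
    letI := ratAlgebra (transcendental_jF (K := ResidueField A) (N := N) (F := Fk) rfl)
    (minpoly (RatFunc (ResidueField A)) (thetaBar hF hNA)).natDegree =
      Nat.card (ModFun.Coset N) := by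
  set κ := ResidueField A
  let hx := transcendental_jF (K := κ) (N := N) (F := Fk) rfl
  let _ := ratAlgebra hx
  have := finiteDimensional_jF (K := κ) (N := N) (F := Fk) rfl hNA
  have := finite_ratAlgebra hx
  rw [← IntermediateField.adjoin.finrank (Algebra.IsIntegral.isIntegral _), adjoin_thetaBar,
    IntermediateField.finrank_top', finrank_ratAlgebra hx,
    finrank_jF (K := κ) (N := N) (F := Fk) rfl hNA]

theorem linearIndependent_thetaBar :
    letI := ratAlgebra (transcendental_jF (K := ResidueField A) (N := N) (F := Fk) rfl)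
    LinearIndependent (RatFunc (ResidueField A))
      fun i : Fin (Nat.card (ModFun.Coset N)) => thetaBar hF hNA ^ (i : ℕ) := by
  let _ := ratAlgebra (transcendental_jF (K := ResidueField A) (N := N) (F := Fk) rfl)
  rw [← natDegree_minpoly_thetaBar hF hNA]
  exact linearIndependent_pow _

/-- Reductions of relations between the powers of `theta`. -/
theorem relation_red {d p : serInt A} (hd : serRed A d ≠ 0) {q : A[X]}
    (g : Fin (Nat.card (ModFun.Coset N)) → A[X])
    (hrel : (evalA A q : LaurentSeries L) * p =
      d * ∑ i, (evalA A (g i) : LaurentSeries L) * (((theta hF hNA : sint A F) : F) : LaurentSeries L) ^ (i : ℕ))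
    (hne : polyBar A q ≠ 0 ∨ ∃ i, polyBar A (g i) ≠ 0) :
    polyBar A q ≠ 0 ∧ aeval (jqModC (ResidueField A)) (polyBar A q) * serRed A p =
      serRed A d * ∑ i, aeval (jqModC (ResidueField A)) (polyBar A (g i)) *
        (thetaBar hF hNA : LaurentSeries (ResidueField A)) ^ (i : ℕ) := by
  have h1 : evalA A q * p = d * ∑ i, evalA A (g i) * toSerInt (A := A) (F := F) (theta hF hNA) ^ (i : ℕ) :=
    Subtype.ext (by push_cast [coe_toSerInt]; exact hrel)
  have h2 := congrArg (serRed A) h1
  rw [map_mul, map_mul, map_sum, serRed_evalA] at h2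
  simp only [map_mul, map_pow, serRed_evalA] at h2
  rw [show serRed A (toSerInt (A := A) (F := F) (theta hF hNA)) = _ from sred_theta hF hNA] at h2
  refine ⟨fun hq => ?_, h2⟩
  rw [hq, map_zero, zero_mul, eq_comm, mul_eq_zero] at h2
  obtain ⟨i, hi⟩ := hne.resolve_left (fun h => h hq)
  refine hi ?_
  set κ := ResidueField A
  let hx := transcendental_jF (K := κ) (N := N) (F := Fk) rfl
  let _ := ratAlgebra hx
  have h4 := Fintype.linearIndependent_iff.mp (linearIndependent_thetaBar hF hNA)
    (fun i => algebraMap κ[X] (RatFunc κ) (polyBar A (g i))) (by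
      refine Subtype.ext ?_
      rw [AddSubmonoidClass.coe_finsetSum, ZeroMemClass.coe_zero, ← h2.resolve_left hd]
      refine Finset.sum_congr rfl fun i _ => ?_
      rw [Algebra.smul_def, IntermediateField.coe_mul, IntermediateField.coe_pow]
      congr 1
      show ((ratLine hx _ : Fk) : LaurentSeries κ) = _
      rw [ratLine_algebraMap, coe_aeval_jF]) i
  exact (map_eq_zero_iff _ (RatFunc.algebraMap_injective κ)).mp h4

theorem linearIndependent_theta :
    letI := ratAlgebra (transcendental_jF hF)
    LinearIndependent (RatFunc L)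
      fun i : Fin (Nat.card (ModFun.Coset N)) => ((theta hF hNA : sint A F) : F) ^ (i : ℕ) := by
  let _ := ratAlgebra (transcendental_jF hF)
  rw [Fintype.linearIndependent_iff]
  intro c hc
  by_contra! hne
  obtain ⟨i₀, hi₀⟩ := hne
  let P : Fin (Nat.card (ModFun.Coset N)) → L[X] := fun i =>
    (c i).num * ∏ l ∈ Finset.univ.erase i, (c l).denom
  have hP : ∀ i, algebraMap L[X] (RatFunc L) (P i) =
      c i * algebraMap L[X] (RatFunc L) (∏ l, (c l).denom) := by
    intro i
    rw [map_mul, ← Finset.mul_prod_erase Finset.univ (fun l => (c l).denom) (Finset.mem_univ i),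
      map_mul, ← mul_assoc]
    congr 1
    conv_rhs => arg 1; rw [← RatFunc.num_div_denom (c i)]
    rw [div_mul_cancel₀]
    exact (map_ne_zero_iff _ (RatFunc.algebraMap_injective L)).mpr (RatFunc.denom_ne_zero _)
  obtain ⟨γ, hγ, g, hg, hgne⟩ := exists_scale_family (A := A) P ⟨i₀, fun h0 => hi₀ (by
    have h1 := hP i₀
    rw [h0, map_zero, eq_comm, mul_eq_zero] at h1
    refine h1.resolve_right ((map_ne_zero_iff _ (RatFunc.algebraMap_injective L)).mpr ?_)
    exact Finset.prod_ne_zero_iff.mpr fun l _ => RatFunc.denom_ne_zero _)⟩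
  have hsum : ∑ i, (aeval (jF hF) (polyIncl A (g i)) : F) * ((theta hF hNA : sint A F) : F) ^ (i : ℕ) = 0 := by
    have h1 : algebraMap L F γ *
        ∑ i, (aeval (jF hF) (polyIncl A (g i)) : F) * ((theta hF hNA : sint A F) : F) ^ (i : ℕ) = 0 := by
      calc algebraMap L F γ *
          ∑ i, (aeval (jF hF) (polyIncl A (g i)) : F) * ((theta hF hNA : sint A F) : F) ^ (i : ℕ)
          = algebraMap (RatFunc L) F (algebraMap L[X] (RatFunc L) (∏ l, (c l).denom)) *
            ∑ i, c i • ((theta hF hNA : sint A F) : F) ^ (i : ℕ) := by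
            rw [Finset.mul_sum, Finset.mul_sum]
            refine Finset.sum_congr rfl fun i _ => ?_
            rw [← mul_assoc, Algebra.smul_def, ← mul_assoc, ← map_mul, mul_comm _ (c i), ← hP i]
            congr 1
            show _ = ratLine _ _
            rw [ratLine_algebraMap, hg i, map_mul, aeval_C]
        _ = 0 := by rw [hc, mul_zero]
    exact (mul_eq_zero.mp h1).resolve_left ((_root_.map_ne_zero _).mpr hγ)
  refine (relation_red hF hNA (d := 1) (p := 0) (q := 0) (by rw [map_one]; exact one_ne_zero) g ?_
    (Or.inr hgne)).1 (map_zero _)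
  rw [map_zero, ZeroMemClass.coe_zero, zero_mul, OneMemClass.coe_one, one_mul]
  have h3 := congrArg (fun y : F => (y : LaurentSeries L)) hsum
  simp only [ZeroMemClass.coe_zero, AddSubmonoidClass.coe_finsetSum, IntermediateField.coe_mul,
    IntermediateField.coe_pow, coe_aeval_jF] at h3
  simp only [coe_evalA]
  exact h3.symm

include hNA in
theorem card_eq_finrank :
    letI := ratAlgebra (transcendental_jF hF)
    Fintype.card (Fin (Nat.card (ModFun.Coset N))) = Module.finrank (RatFunc L) F := by
  rw [Fintype.card_fin, finrank_ratAlgebra, finrank_jF hF (natCast_ne_zero_of_residue hNA)]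

instance : Nonempty (Fin (Nat.card (ModFun.Coset N))) := Fin.pos_iff_nonempty.mp Nat.card_pos

include hNA in
theorem card_eq_finrank_bar :
    letI := ratAlgebra (transcendental_jF (K := ResidueField A) (N := N) (F := Fk) rfl)
    Fintype.card (Fin (Nat.card (ModFun.Coset N))) =
      Module.finrank (RatFunc (ResidueField A)) Fk := by
  rw [Fintype.card_fin, finrank_ratAlgebra,
    finrank_jF (K := ResidueField A) (N := N) (F := Fk) rfl hNA]

/-- The power basis of the reduced field. -/
def basisBar :
    letI := ratAlgebra (transcendental_jF (K := ResidueField A) (N := N) (F := Fk) rfl)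
    Module.Basis (Fin (Nat.card (ModFun.Coset N))) (RatFunc (ResidueField A)) Fk :=
  letI := ratAlgebra (transcendental_jF (K := ResidueField A) (N := N) (F := Fk) rfl)
  basisOfLinearIndependentOfCardEqFinrank (linearIndependent_thetaBar hF hNA)
    (card_eq_finrank_bar hNA)

/-- The power basis of `F`. -/
def basisInt :
    letI := ratAlgebra (transcendental_jF hF)
    Module.Basis (Fin (Nat.card (ModFun.Coset N))) (RatFunc L) F :=
  letI := ratAlgebra (transcendental_jF hF)
  basisOfLinearIndependentOfCardEqFinrank (linearIndependent_theta hF hNA)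
    (card_eq_finrank hF hNA)

/-- Elements which are fractions of integral series with a primitive denominator have
Gauss-integral coordinates, and these reduce to the coordinates of the reduced fraction. -/
theorem coords {y : F} {d p : serInt A} (hd : serRed A d ≠ 0)
    (hy : (y : LaurentSeries L) * d = p) :
    letI := ratAlgebra (transcendental_jF hF)
    letI := ratAlgebra (transcendental_jF (K := ResidueField A) (N := N) (F := Fk) rfl)
    ∃ z : Fk, (z : LaurentSeries (ResidueField A)) * serRed A d = serRed A p ∧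
      ∀ i, ∃ h : (basisInt hF hNA).repr y i ∈ Og A,
        redG A ⟨_, h⟩ = (basisBar hF hNA).repr z i := by
  let _ := ratAlgebra (transcendental_jF hF)
  let hx := transcendental_jF (K := ResidueField A) (N := N) (F := Fk) rfl
  let _ := ratAlgebra hx
  set c := fun i => (basisInt hF hNA).repr y i with hc
  set θ : F := ((theta hF hNA : sint A F) : F)
  have hexp : y = ∑ i, c i • θ ^ (i : ℕ) := by
    conv_lhs => rw [← (basisInt hF hNA).sum_repr y]
    simp [basisInt, hc, θ]
  let P : Option (Fin (Nat.card (ModFun.Coset N))) → L[X] := fun o => o.elim (∏ l, (c l).denom)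
    fun i => (c i).num * ∏ l ∈ Finset.univ.erase i, (c l).denom
  have hP : ∀ i, algebraMap L[X] (RatFunc L) (P (some i)) =
      c i * algebraMap L[X] (RatFunc L) (P none) := by
    intro i
    simp only [P, Option.elim_some, Option.elim_none]
    rw [map_mul, ← Finset.mul_prod_erase Finset.univ (fun l => (c l).denom) (Finset.mem_univ i),
      map_mul, ← mul_assoc]
    congr 1
    conv_rhs => arg 1; rw [← RatFunc.num_div_denom (c i)]
    rw [div_mul_cancel₀]
    exact (map_ne_zero_iff _ (RatFunc.algebraMap_injective L)).mpr (RatFunc.denom_ne_zero _)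
  obtain ⟨γ, hγ, g, hg, o, hgne⟩ := exists_scale_family (A := A) P ⟨none,
    Finset.prod_ne_zero_iff.mpr fun l _ => RatFunc.denom_ne_zero _⟩
  have hcg : ∀ i, c i * ratIncl A (g none) = ratIncl A (g (some i)) := by
    intro i
    have h1 := hP i
    rw [hg, hg, map_mul, map_mul, mul_left_comm] at h1
    have hγ' : algebraMap L[X] (RatFunc L) (C γ) ≠ 0 :=
      (map_ne_zero_iff _ (RatFunc.algebraMap_injective L)).mpr (C_ne_zero.mpr hγ)
    exact (mul_left_cancel₀ hγ' h1).symm
  have hrel : aeval (jF hF) (polyIncl A (g none)) * y =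
      ∑ i, aeval (jF hF) (polyIncl A (g (some i))) * θ ^ (i : ℕ) := by
    rw [hexp, Finset.mul_sum]
    refine Finset.sum_congr rfl fun i _ => ?_
    rw [Algebra.smul_def, ← mul_assoc,
      ← ratLine_algebraMap (transcendental_jF hF) (polyIncl A (g (some i))),
      ← ratLine_algebraMap (transcendental_jF hF) (polyIncl A (g none))]
    show ratLine _ _ * ratLine _ _ * _ = _
    rw [← map_mul, mul_comm, show algebraMap L[X] (RatFunc L) (polyIncl A (g none)) =
      ratIncl A (g none) from rfl, mul_comm _ (c i), hcg i]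
    rw [mul_comm]
    rfl
  have hser : (evalA A (g none) : LaurentSeries L) * p = d *
      ∑ i, (evalA A (g (some i)) : LaurentSeries L) * ((θ : F) : LaurentSeries L) ^ (i : ℕ) := by
    have h1 := congrArg (fun w : F => (w : LaurentSeries L)) hrel
    simp only [IntermediateField.coe_mul, AddSubmonoidClass.coe_finsetSum,
      IntermediateField.coe_pow, coe_aeval_jF] at h1
    simp only [coe_evalA, ← h1, ← hy]
    ring
  obtain ⟨hq, hred⟩ := relation_red hF hNA hd (fun i => g (some i)) hser (by
    cases o with
    | none => exact Or.inl hgne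
    | some i => exact Or.inr ⟨i, hgne⟩)
  have hmem : ∀ i, c i ∈ Og A := fun i => ⟨g (some i), g none, hq, hcg i⟩
  refine ⟨∑ i, redG A ⟨c i, hmem i⟩ • thetaBar hF hNA ^ (i : ℕ), ?_, fun i => ⟨hmem i, ?_⟩⟩
  · have hq' : aeval (jqModC (ResidueField A)) (polyBar A (g none)) ≠ 0 :=
      aeval_ne_zero (transcendental_jqModC _) hq
    refine mul_left_cancel₀ hq' (Eq.trans ?_ hred.symm)
    rw [← mul_assoc, mul_comm _ (serRed A d)]
    congr 1
    rw [AddSubmonoidClass.coe_finsetSum, Finset.mul_sum]
    refine Finset.sum_congr rfl fun i _ => ?_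
    rw [Algebra.smul_def, IntermediateField.coe_mul, IntermediateField.coe_pow, ← mul_assoc]
    congr 1
    have h3 : ratLine hx (redG A ⟨c i, hmem i⟩) * ratLine hx (ratBar A (g none)) =
        ratLine hx (ratBar A (g (some i))) := by
      rw [← map_mul, redG_mul_bar (hmem i) hq (hcg i)]
    have h4 := congrArg (fun w : Fk => (w : LaurentSeries (ResidueField A))) h3
    simp only [IntermediateField.coe_mul, ratBar, RingHom.comp_apply, ratLine_algebraMap,
      coe_aeval_jF] at h4
    rw [mul_comm]
    exact h4
  · have hb : ∀ l : Fin (Nat.card (ModFun.Coset N)),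
        thetaBar hF hNA ^ (l : ℕ) = basisBar hF hNA l := fun l => by simp [basisBar]
    simp only [hb]
    rw [(basisBar hF hNA).repr_sum_self]

end Fermat.Agent.RedTorsion

end
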